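import Fermat.Agent.CarayolSquare.Provider.CuspU

/-!
# The points of a chart over `u = 0` are cusps

`cusp_cover` proves the field `cusp_cover` of `Model` for `u = 1/h` and `u = h - a`, from
`exists_cusp` and `exists_separator`.
-/

set_option autoImplicit false

noncomputable section

open Polynomial
open UpperHalfPlane hiding I
open scoped MatrixGroups
open ModularCurve FLTAgent.LevelM

namespace FLTAgent.CarayolSquare.Provider

local notation "Qbar" => AlgebraicClosure ℚ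

variable {q : ℕ} {X : Ctx q} {M K : ℕ} [NeZero M] [NeZero K] {hl : Lvl q M K} {H : Haupt K}

omit [NeZero M] [NeZero K] in
/-- `g` is `f ↦ f ∘ ε` for some `ε`. -/
theorem exists_eps (g : GK X M K) : ∃ ε : SL(2, ℤ), gEl (valK X) (embK X) M ε = g.1 :=
  exists_gEl_eq g.1

omit [NeZero K] in
theorem evAt_gK {g : GK X M K} {ε : SL(2, ℤ)} (h : gEl (valK X) (embK X) M ε = g.1)
    (η : SL(2, ℤ)) (f : LRing X M) : evAt X M η (g • f) = evAt X M (ε * η) f := by
  rw [Subgroup.smul_def, ← h, evAt_smul]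

theorem act_of_mem_adjH {v : LRing X M} (hv : v ∈ adjH X hl H) {γ : SL(2, ℤ)}
    (hγ : γ ∈ CongruenceSubgroup.Gamma K) : act γ (v : ℍ → ℂ) = v := by
  have hmem : gEl (valK X) (embK X) M γ ∈ levelSubgroup (valK X) (embK X) M K :=
    Subgroup.mem_map.mpr ⟨γ⁻¹, inv_mem hγ, rfl⟩
  have h := congrArg Subtype.val (smul_adjH X hl H ⟨_, hmem⟩ hv)
  rw [Subgroup.mk_smul, coe_gEl_smul] at h
  exact h

variable (hl H) in
/-- The class of a cusp. -/
theorem exists_class (ε : SL(2, ℤ)) : ∃ (l : Fin (K + 1)) (b : ℤ), ∀ v ∈ adjH X hl H,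
    act ε (v : ℍ → ℂ) = act (ModularGroup.T ^ b) (act (cuspRep K l) (v : ℍ → ℂ)) := by
  obtain ⟨l, b, h⟩ := cuspRep_cover hl.small ε
  exact ⟨l, b, fun v hv => h _ fun γ hγ => act_of_mem_adjH hv hγ⟩

variable (U : UData X hl H)

/-- No pole wherever `u` has none. -/
def B0 : Subring (LRing X M) where
  carrier := {f | ∀ ε, NoPole (evAt X M ε U.u) → NoPole (evAt X M ε f)}
  one_mem' := fun ε _ => by rw [map_one]; exact npRing.one_mem
  mul_mem' := fun ha hb ε h => by rw [map_mul]; exact npRing.mul_mem (ha ε h) (hb ε h)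
  zero_mem' := fun ε _ => by rw [map_zero]; exact npRing.zero_mem
  add_mem' := fun ha hb ε h => by rw [map_add]; exact npRing.add_mem (ha ε h) (hb ε h)
  neg_mem' := fun ha ε h => by rw [map_neg]; exact npRing.neg_mem (ha ε h)

theorem u_mem_B0 : U.u ∈ B0 U := fun _ h => h

theorem const_mem_B0 (c : X.O) : algebraMap X.O (LRing X M) c ∈ B0 U := fun ε _ => by
  rw [AlgHom.commutes]; exact noPole_algebraMap X c

theorem smul_mem_B0 (g : GK X M K) {f : LRing X M} (hf : f ∈ B0 U) : g • f ∈ B0 U := by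
  obtain ⟨ε, hε⟩ := exists_eps g
  intro η hη
  rw [evAt_gK hε]
  refine hf _ ?_
  rwa [← evAt_gK hε, smul_adjH X hl H g U.u_mem]

theorem noPole_rep {l : Fin (K + 1)} (h : l ≠ U.linf) :
    NoPole (evAt X M (cuspRep K l) U.u) := by
  refine UnitOrder.noPole (U.lu l) (mul_nonneg (Int.natCast_nonneg _) ?_)
  rw [if_neg h]
  split_ifs <;> norm_num

/-- The classes without pole of `u`. -/
theorem class_ne_linf {ε : SL(2, ℤ)} (h : NoPole (evAt X M ε U.u)) {l : Fin (K + 1)} {b : ℤ}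
    (hb : act ε (U.u : ℍ → ℂ) = act (ModularGroup.T ^ b) (act (cuspRep K l) (U.u : ℍ → ℂ))) :
    l ≠ U.linf := by
  rintro rfl
  refine UnitOrder.not_noPole (unitOrder_congr hl.notdvd hb (U.lu U.linf)) ?_ h
  rw [if_neg U.ne.symm, if_pos rfl]
  have : (0 : ℤ) < (M / K : ℕ) := by exact_mod_cast div_pos_of_dvd hl
  linarith

theorem mem_adjoin_of_B0 {t : LRing X M} (ht : t ∈ adjH X hl H) (hB : t ∈ B0 U) :
    t ∈ Algebra.adjoin X.O ({U.u} : Set (LRing X M)) :=
  U.desc t ht fun _ hne => hB _ (noPole_rep U hne)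

theorem mem_B0_of_adjoin {t : LRing X M}
    (ht : t ∈ Algebra.adjoin X.O ({U.u} : Set (LRing X M))) : t ∈ B0 U := by
  induction ht using Algebra.adjoin_induction with
  | mem x hx => rw [Set.mem_singleton_iff] at hx; subst hx; exact u_mem_B0 U
  | algebraMap c => exact const_mem_B0 U c
  | add a b _ _ ha hb => exact add_mem ha hb
  | mul a b _ _ ha hb => exact mul_mem ha hb

theorem map_adjoin_u : (Algebra.adjoin X.O ({U.u} : Set (LRing X M))).map (evO X M) =
    Algebra.adjoin X.O ({ev X M U.u} : Set Ser) := by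
  rw [AlgHom.map_adjoin, Set.image_singleton]
  rfl

/-- The map of coefficient rings. -/
def toAdjSer : Algebra.adjoin X.O ({U.u} : Set (LRing X M)) →+*
    Algebra.adjoin X.O ({ev X M U.u} : Set Ser) :=
  ((ev X M).comp (Algebra.adjoin X.O ({U.u} : Set (LRing X M))).val.toRingHom).codRestrict _
    fun t => by rw [← map_adjoin_u]; exact ⟨t, t.2, rfl⟩

theorem toAdjSer_surjective : Function.Surjective (toAdjSer U) := by
  rintro ⟨s, hs⟩
  rw [← map_adjoin_u] at hs
  obtain ⟨t, ht, rfl⟩ := hs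
  exact ⟨⟨t, ht⟩, rfl⟩

/-- `B₀` lies in the chart. -/
theorem inChart_of_mem_B0 {f : LRing X M} (hf : f ∈ B0 U) :
    InChart X (CRing X M) (ev X M U.u) (ev X M f) := by
  refine ⟨IntermediateField.subset_adjoin _ _ ⟨f, rfl⟩, mem_intSet.mpr ?_⟩
  have hlift : prodXSubSMul (GK X M K) (LRing X M) f ∈ lifts (B0 U).subtype := by
    classical
    rw [prodXSubSMul]
    refine prod_mem fun o _ => ?_
    refine Quotient.inductionOn' o fun g => ?_
    exact (mem_lifts _).mpr ⟨Polynomial.X - Polynomial.C ⟨g • f, smul_mem_B0 U g hf⟩,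
      by rw [Polynomial.map_sub, map_X, map_C]; rfl⟩
  have hcoeff : ∀ n, (prodXSubSMul (GK X M K) (LRing X M) f).coeff n ∈
      Algebra.adjoin X.O ({U.u} : Set (LRing X M)) := fun n => by
    refine mem_adjoin_of_B0 U
      (mem_adjH_of_smul X hl H fun g => prodXSubSMul.coeff _ _ f g n) ?_
    obtain ⟨y, hy⟩ := (lifts_iff_coeff_lifts _).mp hlift n
    rw [← hy]
    exact y.2
  obtain ⟨P, hP, -, hPm⟩ := lifts_and_degree_eq_and_monic
    (f := (Algebra.adjoin X.O ({U.u} : Set (LRing X M))).val.toRingHom)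
    (p := prodXSubSMul (GK X M K) (LRing X M) f)
    ((lifts_iff_coeff_lifts _).mpr fun n => ⟨⟨_, hcoeff n⟩, rfl⟩) (prodXSubSMul.monic _ _ f)
  refine ⟨P.map (toAdjSer U), hPm.map _, ?_⟩
  have h0 : eval₂ (Algebra.adjoin X.O ({U.u} : Set (LRing X M))).val.toRingHom f P = 0 := by
    rw [← eval_map, hP, prodXSubSMul.eval]
  have h1 := congrArg (ev X M) h0
  rw [Polynomial.hom_eval₂, map_zero] at h1
  rw [eval₂_map]
  exact h1

/-- The chart lies in `B₀`. -/
theorem mem_B0_of_inChart {z : Ser} (hz : InChart X (CRing X M) (ev X M U.u) z) :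
    ∃ f ∈ B0 U, ev X M f = z := by
  have hu : ev X M U.u ∈ adjS X hl H := ev_mem_adjS X hl H U.u_mem
  have hle : Algebra.adjoin X.O ({ev X M U.u} : Set Ser) ≤ adjS X hl H :=
    Algebra.adjoin_le (Set.singleton_subset_iff.mpr hu)
  obtain ⟨P, hPm, hP⟩ := mem_intSet.mp hz.2
  have hC : z ∈ CRing X M := normal X hl H z hz.1 (mem_intSet.mpr
    ⟨P.map (Subalgebra.inclusion hle).toRingHom, hPm.map _, by rw [eval₂_map]; exact hP⟩)
  obtain ⟨f, rfl⟩ := mem_CRing.mp hC
  refine ⟨f, fun ε hε => ?_, rfl⟩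
  obtain ⟨Q, hQ, -, hQm⟩ := lifts_and_degree_eq_and_monic (f := toAdjSer U) (p := P)
    ((lifts_iff_coeff_lifts _).mpr fun n => toAdjSer_surjective U _) hPm
  have h0 : eval₂ (Algebra.adjoin X.O ({U.u} : Set (LRing X M))).val.toRingHom f Q = 0 := by
    refine ev_injective ?_
    rw [Polynomial.hom_eval₂, map_zero]
    rw [← hQ, eval₂_map] at hP
    exact hP
  have h1 := congrArg (evAt X M ε).toRingHom h0
  rw [Polynomial.hom_eval₂, map_zero, ← eval_map] at h1
  refine noPole_of_root (hQm.map _) (fun i => ?_) h1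
  rw [coeff_map]
  exact mem_B0_of_adjoin U (Q.coeff i).2 ε hε

/-! ### The points -/

theorem coeff_zero_mem (δ : SL(2, ℤ)) (f : LRing X M) : (evAt X M δ f).coeff 0 ∈ X.A := by
  obtain ⟨c, hc⟩ := coeffInO_evAt δ f 0
  rw [← hc]
  exact c.2

/-- The value at a cusp. -/
def psi {δ : SL(2, ℤ)} (hδ : NoPole (evAt X M δ U.u)) :
    B0 U →+* IsLocalRing.ResidueField X.A :=
  (IsLocalRing.residue X.A).comp
    { toFun := fun f => ⟨(evAt X M δ (f : LRing X M)).coeff 0, coeff_zero_mem δ _⟩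
      map_one' := Subtype.ext (by simp [HahnSeries.coeff_one])
      map_zero' := Subtype.ext (by simp)
      map_add' := fun f g => Subtype.ext (by simp)
      map_mul' := fun f g => Subtype.ext (by
        show (evAt X M δ ((f : LRing X M) * g)).coeff 0 =
          (evAt X M δ (f : LRing X M)).coeff 0 * (evAt X M δ (g : LRing X M)).coeff 0
        rw [map_mul]
        have := coeff_mul_lead (f.2 δ hδ) (g.2 δ hδ)
        rwa [add_zero] at this) }

theorem psi_apply {δ : SL(2, ℤ)} (hδ : NoPole (evAt X M δ U.u)) (f : B0 U) :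
    psi U hδ f = IsLocalRing.residue X.A ⟨(evAt X M δ (f : LRing X M)).coeff 0,
      coeff_zero_mem δ _⟩ := rfl

theorem psi_const {δ : SL(2, ℤ)} (hδ : NoPole (evAt X M δ U.u)) (c : X.O) :
    psi U hδ ⟨_, const_mem_B0 U c⟩ = redO X c := by
  rw [psi_apply, redO, RingHom.comp_apply]
  congr 1
  refine Subtype.ext ?_
  show (evAt X M δ (algebraMap X.O _ c)).coeff 0 = algebraMap X.K Qbar (c : X.K)
  rw [AlgHom.commutes, X.algebraMap_eq_C, HahnSeries.C_apply, HahnSeries.coeff_single_same]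

theorem u_coeff_zero : (evAt X M (cuspRep K U.l0) U.u).coeff 0 = 0 :=
  (U.lu U.l0).1 0 (by
    rw [if_pos rfl, mul_one]
    exact_mod_cast div_pos_of_dvd hl)

/-- The invariant norm. -/
theorem exists_norm_eq (f : B0 U) : ∃ (p0 : X.O) (f1 : B0 U),
    ∏ g : GK X M K, (⟨g • (f : LRing X M), smul_mem_B0 U g f.2⟩ : B0 U) =
      ⟨_, const_mem_B0 U p0⟩ + ⟨U.u, u_mem_B0 U⟩ * f1 := by
  set N := ∏ g : GK X M K, g • (f : LRing X M) with hN
  have hNB : N ∈ B0 U := prod_mem fun g _ => smul_mem_B0 U g f.2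
  have hNA : N ∈ adjH X hl H := mem_adjH_of_smul X hl H fun g => by
    rw [hN, Finset.smul_prod']
    exact Fintype.prod_bijective _ (Group.mulLeft_bijective g) _ _ fun g' => by rw [smul_smul]
  obtain ⟨p, hp⟩ : N ∈ (aeval (R := X.O) U.u).range := by
    rw [← Algebra.adjoin_singleton_eq_range_aeval]
    exact mem_adjoin_of_B0 U hNA hNB
  refine ⟨p.coeff 0, ⟨aeval U.u p.divX, mem_B0_of_adjoin U (aeval_mem_adjoin_singleton _ _)⟩,
    Subtype.ext ?_⟩
  rw [SubmonoidClass.coe_finsetProd, AddMemClass.coe_add, MulMemClass.coe_mul]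
  show N = _
  rw [← hp, AlgHom.toRingHom_eq_coe, RingHom.coe_coe]
  conv_lhs => rw [← X_mul_divX_add p]
  rw [map_add, map_mul, aeval_X, aeval_C, add_comm]

/-- Every point over `u = 0` is a cusp in the class of `l₀`. -/
theorem exists_cusp (φ : B0 U →+* IsLocalRing.ResidueField X.A)
    (hc : ∀ c : X.O, φ ⟨_, const_mem_B0 U c⟩ = redO X c) (hu : φ ⟨U.u, u_mem_B0 U⟩ = 0) :
    ∃ δ : SL(2, ℤ), (∀ v ∈ adjH X hl H, evAt X M δ v = evAt X M (cuspRep K U.l0) v) ∧
      ∀ f : B0 U, φ f = IsLocalRing.residue X.A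
        ⟨(evAt X M δ (f : LRing X M)).coeff 0, coeff_zero_mem δ _⟩ := by
  classical
  have hδ₀ := noPole_rep U U.ne
  let σ : GK X M K → B0 U →+* B0 U := fun g =>
    ((MulSemiringAction.toRingHom (GK X M K) (LRing X M) g).comp (B0 U).subtype).codRestrict _
      fun f => smul_mem_B0 U g f.2
  let I : GK X M K → Ideal (B0 U) := fun g => RingHom.ker ((psi U hδ₀).comp (σ g))
  have hprime : ∀ g, (I g).IsPrime := fun g => RingHom.ker_isPrime _
  have hψu : psi U hδ₀ ⟨U.u, u_mem_B0 U⟩ = 0 := by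
    rw [psi_apply, ← map_zero (IsLocalRing.residue X.A)]
    congr 1
    exact Subtype.ext (u_coeff_zero U)
  have hsub : (RingHom.ker φ : Set (B0 U)) ⊆ ⋃ g ∈ (↑(Finset.univ : Finset (GK X M K)) : Set _),
      (I g : Set (B0 U)) := by
    intro f hf
    obtain ⟨p0, f1, hp⟩ := exists_norm_eq U f
    have h1 : φ (∏ g : GK X M K, (⟨g • (f : LRing X M), smul_mem_B0 U g f.2⟩ : B0 U)) = 0 := by
      rw [map_prod]
      refine Finset.prod_eq_zero (Finset.mem_univ 1) ?_
      rw [show (⟨(1 : GK X M K) • (f : LRing X M), _⟩ : B0 U) = f from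
        Subtype.ext (one_smul _ (f : LRing X M))]
      exact hf
    rw [hp, map_add, map_mul, hu, zero_mul, add_zero, hc] at h1
    have h2 : psi U hδ₀ (∏ g : GK X M K, (⟨g • (f : LRing X M), smul_mem_B0 U g f.2⟩ : B0 U)) =
        0 := by
      rw [hp, map_add, map_mul, hψu, zero_mul, add_zero, psi_const, h1]
    rw [map_prod] at h2
    obtain ⟨g, -, hg⟩ := Finset.prod_eq_zero_iff.mp h2
    exact Set.mem_iUnion₂.mpr ⟨g, Finset.mem_coe.mpr (Finset.mem_univ g), hg⟩
  obtain ⟨g, -, hg⟩ := (Ideal.subset_union_prime (1 : GK X M K) 1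
    fun i _ _ _ => hprime i).mp hsub
  obtain ⟨ε, hε⟩ := exists_eps g
  refine ⟨ε * cuspRep K U.l0, fun v hv => ?_, fun f => ?_⟩
  · rw [← evAt_gK hε, smul_adjH X hl H g hv]
  · obtain ⟨c, hc'⟩ := redO_surjective X (φ f)
    have hmem : f - ⟨_, const_mem_B0 U c⟩ ∈ RingHom.ker φ := by
      rw [RingHom.mem_ker, map_sub, hc, hc', sub_self]
    have h3 : psi U hδ₀ (σ g (f - ⟨_, const_mem_B0 U c⟩)) = 0 := hg hmem
    rw [map_sub, map_sub, show σ g ⟨_, const_mem_B0 U c⟩ = ⟨_, const_mem_B0 U c⟩ from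
      Subtype.ext (smul_const X g c), psi_const, hc', sub_eq_zero] at h3
    rw [← h3, psi_apply]
    congr 1
    refine Subtype.ext ?_
    show (evAt X M (cuspRep K U.l0) (g • (f : LRing X M))).coeff 0 = _
    rw [evAt_gK hε]

/-! ### The separator -/

/-- An element of the chart killing poles at the other cusps. -/
theorem exists_separator (hM3 : 3 ≤ M) {δ : SL(2, ℤ)}
    (hδ : ∀ v ∈ adjH X hl H, evAt X M δ v = evAt X M (cuspRep K U.l0) v) :
    ∃ s ∈ B0 U, X.A.valuation ((evAt X M δ s).coeff 0) = 1 ∧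
      ∀ c : LRing X M, NoPole (evAt X M δ c) → ∃ N : ℕ, s ^ N * c ∈ B0 U := by
  classical
  have hK := hl.small
  have hO := goodRing X (Nat.pos_of_ne_zero (NeZero.ne M)) hl.notdvd
  set e : ℕ := M / K with he
  have hepos : 0 < e := div_pos_of_dvd hl
  have hKe : K * e = M := Nat.mul_div_cancel' hl.dvd
  obtain ⟨n, k, hbd, hout, hin⟩ := pow_uInfty_mul_lead hO hM3
    (sepProd hO hM3 hK hl.dvd) fun η hη => (sepProd_atInfty hO hM3 hK hl.dvd hη).1
  set F : LRing X M := uInfty hO ^ k * sepProd hO hM3 hK hl.dvd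
  set uδ := gEl (valK X) (embK X) M δ • U.u
  set Dδ := gEl (valK X) (embK X) M δ • U.D
  set s1 : LRing X M := F * uδ ^ (K * n) * Dδ ^ (M * n + 1) with hs1
  set s : LRing X M := gEl (valK X) (embK X) M δ⁻¹ • s1 with hs
  have hsev : ∀ η, evAt X M (δ * η) s = evAt X M η F * evAt X M (δ * η) U.u ^ (K * n) *
      evAt X M (δ * η) U.D ^ (M * n + 1) := fun η => by
    rw [hs, evAt_smul, inv_mul_cancel_left, hs1, map_mul, map_mul, map_pow, map_pow, evAt_smul,
      evAt_smul]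
  have hexp : ((K * n : ℕ) : ℤ) * (e : ℤ) = ((M * n : ℕ) : ℤ) := by
    rw [← hKe]; push_cast; ring
  -- behaviour at every cusp
  have key : ∀ η, NoPole (evAt X M (δ * η) U.u) → NoPole (evAt X M (δ * η) s) ∧
      ((evAt X M (δ * η) s).coeff 0 = 0 ∨ ∃ b : ℤ, ∀ f : LRing X M,
        act (δ * η) (f : ℍ → ℂ) = act (ModularGroup.T ^ b) (act δ (f : ℍ → ℂ))) := by
    intro η hη
    by_cases hη' : AtInfty M η
    · -- same class as `δ`
      obtain ⟨b0, hb⟩ : ∃ b : ℤ, ∀ v ∈ adjH X hl H,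
          act (δ * η) (v : ℍ → ℂ) = act (ModularGroup.T ^ b) (act δ (v : ℍ → ℂ)) := by
        refine ⟨η 0 1 * η 1 1, fun v hv => ?_⟩
        rw [act_mul]
        set b : ℤ := η 0 1 * η 1 1
        have hdvd : ((M : ℤ) : ZMod K) = 0 := by
          rw [Int.cast_natCast, ZMod.natCast_eq_zero_iff]; exact hl.dvd
        have hc : ((η 1 0 : ℤ) : ZMod K) = 0 := by
          obtain ⟨d, hd⟩ := (ZMod.intCast_zmod_eq_zero_iff_dvd _ M).mp hη'
          rw [hd, Int.cast_mul, hdvd, zero_mul]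
        have hdet := MFDim.det_cast (N := K) η
        rw [hc, mul_zero, sub_zero] at hdet
        have hpm : (((η 0 0 : ℤ) : ZMod K) = 1 ∧ ((η 1 1 : ℤ) : ZMod K) = 1) ∨
            (((η 0 0 : ℤ) : ZMod K) = -1 ∧ ((η 1 1 : ℤ) : ZMod K) = -1) := by
          revert hdet
          generalize ((η 0 0 : ℤ) : ZMod K) = x
          generalize ((η 1 1 : ℤ) : ZMod K) = y
          rcases hK with rfl | rfl <;> revert x y <;> decide
        have hinv : ∀ g ∈ CongruenceSubgroup.Gamma K, act g (act δ (v : ℍ → ℂ)) =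
            act δ (v : ℍ → ℂ) := fun g hg => by
          rw [← act_mul, show δ * g = δ * g * δ⁻¹ * δ by group, act_mul,
            act_of_mem_adjH hv ((CongruenceSubgroup.Gamma_normal K).conj_mem _ hg δ)]
        rcases hpm with ⟨hx, hy⟩ | ⟨hx, hy⟩
        · refine act_eq_of_congr ?_ hinv
          ext i j
          fin_cases i <;> fin_cases j <;>
            simp [redMat, ModularGroup.coe_T_zpow, b, hc, hx, hy]
        · rw [← act_neg (ModularGroup.T ^ b)]
          refine act_eq_of_congr ?_ hinv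
          ext i j
          fin_cases i <;> fin_cases j <;>
            simp [redMat, ModularGroup.coe_T_zpow, b, hc, hx, hy]
      have hu : X.UnitOrder (evAt X M (δ * η) U.u) e := by
        refine unitOrder_congr hl.notdvd (hb _ U.u_mem) ?_
        rw [hδ _ U.u_mem]
        have h := U.lu U.l0
        rwa [if_pos rfl, mul_one] at h
      have hD : X.UnitOrder (evAt X M (δ * η) U.D) 0 := by
        refine unitOrder_congr hl.notdvd (hb _ U.D_mem) ?_
        rw [hδ _ U.D_mem]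
        simpa using U.lD U.l0 U.ne
      have hu' := UnitOrder.pow' hu (K * n)
      rw [hexp] at hu'
      have hD' := UnitOrder.pow' hD (M * n + 1)
      rw [mul_zero] at hD'
      have hF : ∀ i < -((M * n : ℕ) : ℤ), (evAt X M η F).coeff i = 0 := fun i hi => by
        rw [evAt_coeff, hbd _ i hi, map_zero]
      refine ⟨fun i hi => ?_, ?_⟩
      · rw [hsev]
        exact coeff_mul_below (fun j hj => coeff_mul_below hF hu'.1 hj) hD'.1 (by omega)
      · by_cases hd : ((η 1 1 : ℤ) : ZMod M) = 1 ∨ ((η 1 1 : ℤ) : ZMod M) = -1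
        · obtain ⟨b, hb'⟩ := exists_act_eq_T (A := valK X) (ι := embK X) hη' hd
          refine Or.inr ⟨b, fun f => ?_⟩
          rw [act_mul, ← coe_gEl_smul (A := valK X) (ι := embK X) δ f]
          exact hb' _
        · push Not at hd
          left
          rw [hsev, show (0 : ℤ) = -((M * n : ℕ) : ℤ) + ((M * n : ℕ) : ℤ) + 0 by ring,
            coeff_mul_lead (fun j hj => coeff_mul_below hF hu'.1 hj) hD'.1,
            coeff_mul_lead hF hu'.1, evAt_coeff]
          obtain ⟨a, -, h2, -⟩ := hin η hη'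
          rw [h2, (sepProd_atInfty hO hM3 hK hl.dvd hη').2.2 hd.1 hd.2, mul_zero, map_zero,
            zero_mul, zero_mul]
    · obtain ⟨l, b, hb⟩ := exists_class hl H (δ * η)
      have hne := class_ne_linf U hη (hb _ U.u_mem)
      have hF : ∀ i < -((M * n : ℕ) : ℤ) + 1, (evAt X M η F).coeff i = 0 := fun i hi => by
        rcases lt_or_eq_of_le (show i ≤ -((M * n : ℕ) : ℤ) by omega) with h | rfl
        · rw [evAt_coeff, hbd _ i h, map_zero]
        · rw [evAt_coeff, hout η hη', map_zero]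
      have hu' := UnitOrder.pow' (unitOrder_congr hl.notdvd (hb _ U.u_mem) (U.lu l)) (K * n)
      have hD' := UnitOrder.pow' (unitOrder_congr hl.notdvd (hb _ U.D_mem) (U.lD l hne))
        (M * n + 1)
      have hlow : ∀ i < (1 : ℤ), (evAt X M (δ * η) s).coeff i = 0 := fun i hi => by
        rw [hsev]
        refine coeff_mul_below (fun j hj => coeff_mul_below hF hu'.1 hj) hD'.1 ?_
        rw [← he, if_neg hne]
        by_cases hl0 : l = U.l0
        · rw [if_pos hl0, if_pos hl0, mul_one, mul_zero, mul_zero, hexp]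
          omega
        · rw [if_neg hl0, if_neg hl0, mul_zero, mul_zero, mul_one]
          have h1 : ((M * n + 1 : ℕ) : ℤ) ≤ ((M * n + 1 : ℕ) : ℤ) * (e : ℤ) :=
            le_mul_of_one_le_right (Int.natCast_nonneg _) (by exact_mod_cast hepos)
          push_cast at h1 ⊢
          omega
      exact ⟨fun i hi => hlow i (by omega), Or.inl (hlow 0 one_pos)⟩
  have hsB : s ∈ B0 U := fun ε hε => by
    have h := (key (δ⁻¹ * ε) (by rwa [mul_inv_cancel_left])).1
    rwa [mul_inv_cancel_left] at h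
  have hval : X.A.valuation ((evAt X M δ s).coeff 0) = 1 := by
    have h1inf : AtInfty M (1 : SL(2, ℤ)) := by simp [AtInfty]
    have hF : X.UnitOrder (evAt X M 1 F) (-((M * n : ℕ) : ℤ)) := by
      refine ⟨fun i hi => by rw [evAt_coeff, hbd _ i hi, map_zero], ?_⟩
      obtain ⟨a, ha, h2, -⟩ := hin 1 h1inf
      rw [evAt_coeff]
      refine valuation_toQ_of_isUnit ?_
      rw [h2]
      exact ha.mul ((sepProd_atInfty hO hM3 hK hl.dvd h1inf).2.1 (Or.inl (by simp)))
    have hu : X.UnitOrder (evAt X M δ U.u) e := by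
      rw [hδ _ U.u_mem]
      have h := U.lu U.l0
      rwa [if_pos rfl, mul_one] at h
    have hD : X.UnitOrder (evAt X M δ U.D) 0 := by
      rw [hδ _ U.D_mem]; simpa using U.lD U.l0 U.ne
    have h := UnitOrder.mul' (UnitOrder.mul' hF (UnitOrder.pow' hu (K * n)))
      (UnitOrder.pow' hD (M * n + 1))
    have h1 := hsev 1
    rw [mul_one] at h1
    rw [← h1, hexp, mul_zero, add_zero, neg_add_cancel] at h
    exact h.2
  refine ⟨s, hsB, hval, fun c hc => ?_⟩
  obtain ⟨B, hB⟩ := GoodReduction.PoleBounded.exists_bound (LevelGroup (valK X) (embK X) M)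
    (levelExp (valK X) (embK X) M) (e := 1) one_pos c
  refine ⟨B, fun ε hε => ?_⟩
  have hε' : NoPole (evAt X M (δ * (δ⁻¹ * ε)) U.u) := by rwa [mul_inv_cancel_left]
  obtain ⟨hnp, hcase⟩ := key _ hε'
  rw [mul_inv_cancel_left] at hnp hcase
  rw [map_mul, map_pow]
  rcases hcase with h0 | ⟨b, hb⟩
  · have h1 : ∀ i < (1 : ℤ), (evAt X M ε s).coeff i = 0 := fun i hi => by
      rcases lt_or_eq_of_le (show i ≤ 0 by omega) with h | rfl
      · exact hnp i h
      · exact h0
    have hc' : ∀ i < -(B : ℤ), (evAt X M ε c).coeff i = 0 := fun i hi => by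
      rw [evAt_coeff, hB _ i (by simpa using hi), map_zero]
    intro i hi
    exact coeff_mul_below (coeff_pow_below h1 B).1 hc' (by omega)
  · exact npRing.mul_mem (npRing.pow_mem hnp B) (noPole_congr hl.notdvd (hb c) hc)

/-! ### The field of the model -/

/-- The cusps over a point `u = 0`. -/
theorem cover (hM3 : 3 ≤ M) (B : Subring Ser)
    (hB : ∀ z, z ∈ B ↔ InChart X (CRing X M) (ev X M U.u) z)
    (φ : B →+* IsLocalRing.ResidueField X.A)
    (hφc : ∀ (c : X.O) (z : B), (z : Ser) = algebraMap X.O Ser c →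
      φ z = IsLocalRing.residue X.A ⟨algebraMap X.K Qbar (c : X.K), c.2⟩)
    (hφu : ∀ z : B, (z : Ser) = ev X M U.u → φ z = 0) :
    ∃ (δ : SL(2, ℤ)) (csK : CField X M →ₐ[X.K] Ser) (τ : B),
      (∀ c : CRing X M, csK ⟨(c : Ser), IntermediateField.subset_adjoin _ _ c.2⟩ =
        csAt X M δ c) ∧
      (∀ (z : B) (hz : (z : Ser) ∈ CField X M),
        NoPole (csK ⟨z, hz⟩) ∧ ∃ a : X.A, (a : Qbar) = (csK ⟨z, hz⟩).coeff 0 ∧
          φ z = IsLocalRing.residue X.A a) ∧
      (∀ hτ : (τ : Ser) ∈ CField X M, X.UnitOrder (csK ⟨τ, hτ⟩) 1) ∧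
      (∀ z : B, φ z = 0 → ∃ s : B, φ s ≠ 0 ∧ ∃ a b : B,
        (s : Ser) * z = (a : Ser) * (q : Ser) + (b : Ser) * τ) ∧
      ∀ z : CRing X M, NoPole (csAt X M δ z) → ∃ s : B, φ s ≠ 0 ∧ (s : Ser) * z ∈ B := by
  have hmemB : ∀ f ∈ B0 U, ev X M f ∈ B := fun f hf => (hB _).mpr (inChart_of_mem_B0 U hf)
  let ι : B0 U →+* B := ((ev X M).comp (B0 U).subtype).codRestrict B fun f => hmemB _ f.2
  have hι : ∀ f : B0 U, (ι f : Ser) = ev X M (f : LRing X M) := fun _ => rfl
  have hsurj : ∀ z : B, ∃ f : B0 U, ι f = z := fun z => by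
    obtain ⟨f, hf, hfz⟩ := mem_B0_of_inChart U ((hB _).mp z.2)
    exact ⟨⟨f, hf⟩, Subtype.ext hfz⟩
  obtain ⟨δ, hδ, hφ⟩ := exists_cusp U (φ.comp ι)
    (fun c => hφc c _ ((hι _).trans (ev_algebraMap c)))
    (hφu _ rfl)
  have hδu : NoPole (evAt X M δ U.u) := by
    rw [hδ _ U.u_mem]; exact noPole_rep U U.ne
  obtain ⟨s, hsB, hs1, hsep⟩ := exists_separator U hM3 hδ
  set sS : B0 U := ⟨s, hsB⟩
  have hφs : ∀ N : ℕ, φ (ι (sS ^ N)) ≠ 0 := fun N => by
    rw [map_pow, map_pow]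
    refine pow_ne_zero _ ?_
    rw [show φ (ι sS) = _ from hφ sS, Ne, IsLocalRing.residue_eq_zero_iff,
      IsLocalRing.mem_maximalIdeal, mem_nonunits_iff, not_not,
      ValuationSubring.valuation_eq_one_iff]
    exact hs1
  obtain ⟨τ₀, τ₀', hττ, hτ1, -⟩ := exists_param hM3 hl.notdvd (X := X) δ δ
  obtain ⟨Nτ, hNτ⟩ := hsep τ₀ (UnitOrder.noPole hτ1 zero_le_one)
  refine ⟨δ, csField X M δ, ι ⟨_, hNτ⟩, fun c => ?_, fun z hz => ?_, fun hτ => ?_,
    fun z hz => ?_, fun z hz => ?_⟩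
  · obtain ⟨f, rfl⟩ := (equivC X M).surjective c
    rw [csAt_equivC]
    exact csField_ev δ f _
  · obtain ⟨f, rfl⟩ := hsurj z
    rw [show csField X M δ ⟨(ι f : Ser), hz⟩ = evAt X M δ (f : LRing X M) from csField_ev δ _ hz]
    exact ⟨f.2 δ hδu, ⟨_, coeff_zero_mem δ _⟩, rfl, hφ f⟩
  · rw [show csField X M δ ⟨(ι ⟨_, hNτ⟩ : Ser), hτ⟩ = evAt X M δ (s ^ Nτ * τ₀) from
      csField_ev δ _ hτ, map_mul, map_pow]
    have h := UnitOrder.mul' (UnitOrder.pow' (⟨hsB δ hδu, hs1⟩ : X.UnitOrder (evAt X M δ s) 0) Nτ)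
      hτ1
    rwa [mul_zero, zero_add] at h
  · obtain ⟨f, rfl⟩ := hsurj z
    obtain ⟨c0, hc0⟩ := coeffInO_evAt δ (f : LRing X M) 0
    have hred : redO X c0 = 0 := by
      rw [← hz, show φ (ι f) = _ from hφ f, redO, RingHom.comp_apply]
      congr 1
      exact Subtype.ext hc0
    obtain ⟨a0, rfl⟩ := q_dvd_of_redO X hred
    set z1 : LRing X M := ((f : LRing X M) - algebraMap X.O _ ((q : X.O) * a0)) * τ₀'
    have hτ' : X.UnitOrder (evAt X M δ τ₀') (-1) :=
      UnitOrder.inv' hτ1 (by rw [← map_mul, hττ, map_one])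
    have hz1 : NoPole (evAt X M δ z1) := fun i hi => by
      rw [map_mul, map_sub, AlgHom.commutes]
      refine coeff_mul_below (a := 1) (fun j hj => ?_) hτ'.1 (by omega)
      rw [HahnSeries.coeff_sub, X.algebraMap_eq_C, HahnSeries.C_apply]
      rcases lt_or_eq_of_le (show j ≤ 0 by omega) with h | rfl
      · rw [f.2 δ hδu j h, HahnSeries.coeff_single_of_ne h.ne, sub_zero]
      · rw [HahnSeries.coeff_single_same, hc0, sub_self]
    obtain ⟨N, hN⟩ := hsep z1 hz1
    refine ⟨ι (sS ^ (N + Nτ)), hφs _, ι (⟨_, const_mem_B0 U a0⟩ * sS ^ (N + Nτ)), ι ⟨_, hN⟩, ?_⟩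
    rw [hι, hι, hι, hι, hι, ← map_natCast (ev X M) q, ← map_mul, ← map_mul, ← map_mul, ← map_add]
    congr 1
    show s ^ (N + Nτ) * (f : LRing X M) = algebraMap X.O _ a0 * s ^ (N + Nτ) * (q : LRing X M) +
      s ^ N * z1 * (s ^ Nτ * τ₀)
    rw [← map_natCast (algebraMap X.O (LRing X M)) q]
    simp only [z1, map_mul]
    linear_combination (-(s ^ (N + Nτ) * ((f : LRing X M) -
      algebraMap X.O (LRing X M) (q : X.O) * algebraMap X.O (LRing X M) a0))) * hττ
  · obtain ⟨f, rfl⟩ := (equivC X M).surjective z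
    rw [csAt_equivC] at hz
    obtain ⟨N, hN⟩ := hsep f hz
    refine ⟨ι (sS ^ N), hφs N, ?_⟩
    rw [hι, coe_equivC, ← map_mul]
    exact hmemB _ hN

/-- The model's field. -/
theorem cusp_cover (hM3 : 3 ≤ M) (X : Ctx q) (hl : Lvl q M K) (H : Haupt K) :
    ∀ u : Ser, (u = ((hC X hl H : Ser))⁻¹ ∨
      ∃ a ∈ roots X hl H, u = (hC X hl H : Ser) - algebraMap X.O Ser a) →
    ∀ B : Subring Ser, (∀ z, z ∈ B ↔ InChart X (CRing X M) u z) →
    ∀ φ : B →+* IsLocalRing.ResidueField X.A,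
      (∀ (c : X.O) (z : B), (z : Ser) = algebraMap X.O Ser c →
        φ z = IsLocalRing.residue X.A ⟨algebraMap X.K Qbar (c : X.K), c.2⟩) →
      (∀ z : B, (z : Ser) = u → φ z = 0) →
      ∃ (δ : SL(2, ℤ)) (csK : CField X M →ₐ[X.K] Ser) (τ : B),
        (∀ c : CRing X M, csK ⟨(c : Ser), IntermediateField.subset_adjoin _ _ c.2⟩ =
          csAt X M δ c) ∧
        (∀ (z : B) (hz : (z : Ser) ∈ CField X M),
          NoPole (csK ⟨z, hz⟩) ∧ ∃ a : X.A, (a : Qbar) = (csK ⟨z, hz⟩).coeff 0 ∧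
            φ z = IsLocalRing.residue X.A a) ∧
        (∀ hτ : (τ : Ser) ∈ CField X M, X.UnitOrder (csK ⟨τ, hτ⟩) 1) ∧
        (∀ z : B, φ z = 0 → ∃ s : B, φ s ≠ 0 ∧ ∃ a b : B,
          (s : Ser) * z = (a : Ser) * (q : Ser) + (b : Ser) * τ) ∧
        ∀ z : CRing X M, NoPole (csAt X M δ z) → ∃ s : B, φ s ≠ 0 ∧ (s : Ser) * z ∈ B := by
  intro u hu
  obtain ⟨U, rfl⟩ : ∃ U : UData X hl H, ev X M U.u = u := by
    rcases hu with rfl | ⟨a, ha, rfl⟩
    · refine ⟨dataInv X hl H, ?_⟩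
      show ev X M (hInv X hl H) = _
      refine eq_inv_of_mul_eq_one_right ?_
      rw [hC, coe_equivC, ← map_mul, hL_mul_hInv, map_one]
    · obtain ⟨i, hi, rfl⟩ := (mem_roots X hl H).mp ha
      refine ⟨dataSub X hl H hi, ?_⟩
      show ev X M (hSub X hl H i) = _
      rw [hSub, map_sub, ev_algebraMap, hC, coe_equivC]
  exact fun B hB φ h1 h2 => cover U hM3 B hB φ h1 h2

end FLTAgent.CarayolSquare.Provider

end
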