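import Fermat.Agent.CarayolSquare.Provider.Theta
import Fermat.Agent.CarayolSquare.Provider.CuspCover

/-!
# The modular instance of the local geometry at `q`

`exists_model`: for every `M'` prime to `q` there is a multiple `M₁` with a `Model` of level `M₁`.
Used by `coreInput_of_root`.
-/

set_option autoImplicit false

noncomputable section

open scoped MatrixGroups
open ModularCurve FLTAgent.LevelM

namespace FLTAgent.CarayolSquare.Provider

local notation "Qbar" => AlgebraicClosure ℚ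

variable {q : ℕ} (X : Ctx q) {M K : ℕ} [NeZero M] [NeZero K] [Fact q.Prime]

/-- The model of level `M`. -/
def model (hcop : q.Coprime M) (hM3 : 3 ≤ M) (hl : Lvl q M K) (H : Haupt K) : Model X M where
  q_not_dvd := hl.notdvd
  C := CRing X M
  coeff_mem c hc := by
    obtain ⟨f, rfl⟩ := mem_CRing.mp hc
    exact coeffInO_ev f
  saturate c hc hred := by
    obtain ⟨f, rfl⟩ := mem_CRing.mp hc
    obtain ⟨f', rfl⟩ := exists_eq_q_mul hl.small hl.dvd hl.notdvd hred
    exact ⟨ev X M f', ⟨f', rfl⟩, by rw [map_mul, map_natCast]⟩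
  Cusp := SL(2, ℤ)
  one := 1
  cs := csAt X M
  cs_one := csAt_one
  cs_coeff δ c := coeffInO_evAt δ _
  cs_injective := csAt_injective
  twP := twP M hcop
  twB := twistCusp hcop
  twB_one := twistCusp_one hcop
  h := hC X hl H
  roots := roots X hl H
  roots_zero := zero_mem_roots X hl H
  roots_sub := roots_sub X hl H
  Dinv := DC X hl H
  Dinv_mul := DC_mul X hl H
  twP_h := twP_hC X hl H hcop
  h_rat := h_rat X hl H
  h_order := h_order X hl H
  finite := finite X hl H
  normal := normal X hl H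
  unram := unram X hl H
  symm P hP := by
    obtain ⟨f, -, hf⟩ := exists_symm hcop X P hP
    exact ⟨equivC X M f, fun δ => (hf δ).trans (congrArg X.up (csAt_equivC δ f).symm)⟩
  symm_h := symm_h X hl H hcop
  transfer P δ L L' hL := transfer hcop X P δ L L' hL
  theta := theta X hl H
  param := param hM3 hl.notdvd
  cusp_cover := cusp_cover hM3 X hl H
  jfun d _ hd := jfun X hcop hl.notdvd d hd

omit [NeZero M] [NeZero K] [Fact q.Prime] in
/-- **The provider of models.** -/
theorem exists_model (M' : ℕ) (hM : 0 < M') (h : ¬ q ∣ M') :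
    ∃ (M₁ : ℕ) (_ : NeZero M₁), M' ∣ M₁ ∧ Nonempty (Model X M₁) := by
  have : Fact q.Prime := ⟨X.prime⟩
  have key : ∀ (K a : ℕ) [NeZero K], SmallLevel K → K ∣ a → 3 ≤ a → ¬ q ∣ a →
      (q : ZMod K) = -1 → ∃ (M₁ : ℕ) (_ : NeZero M₁), M' ∣ M₁ ∧ Nonempty (Model X M₁) := by
    intro K a _ hK hKa ha hqa hcong
    have hne : Nat.lcm M' a ≠ 0 := Nat.lcm_ne_zero hM.ne' (by omega)
    have : NeZero (Nat.lcm M' a) := ⟨hne⟩
    have hq : ¬ q ∣ Nat.lcm M' a := fun hd =>
      ((X.prime.dvd_mul).mp (hd.trans (Nat.lcm_dvd_mul M' a))).elim h hqa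
    have hl : Lvl q (Nat.lcm M' a) K := ⟨hK, hKa.trans (Nat.dvd_lcm_right _ _), hq, hcong⟩
    obtain ⟨H⟩ := exists_haupt hK
    exact ⟨_, inferInstance, Nat.dvd_lcm_left _ _, ⟨model X
      ((Nat.Prime.coprime_iff_not_dvd X.prime).mpr hq)
      (ha.trans (Nat.le_of_dvd (Nat.pos_of_ne_zero hne) (Nat.dvd_lcm_right _ _))) hl H⟩⟩
  rcases eq_or_ne q 2 with rfl | hq2
  · exact key 3 3 (Or.inr rfl) dvd_rfl le_rfl (by norm_num) (by decide)
  · refine key 2 4 (Or.inl rfl) (by norm_num) (by norm_num) (fun hd => hq2 ?_) ?_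
    · have h2 : q ∣ 2 ^ 2 := hd
      exact (Nat.prime_dvd_prime_iff_eq X.prime Nat.prime_two).mp (X.prime.dvd_of_dvd_pow h2)
    · have hodd : ¬ 2 ∣ q := fun hd =>
        hq2 ((Nat.prime_dvd_prime_iff_eq Nat.prime_two X.prime).mp hd).symm
      rw [← ZMod.natCast_mod, show q % 2 = 1 by omega]
      decide

end FLTAgent.CarayolSquare.Provider

end
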