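import Fermat.Agent.CarayolSquare.Geometry.Embeddings
import Fermat.Agent.GoodReduction.Bridge
import Fermat.Agent.GoodReduction.Connected
import Fermat.Prelude.Def_GaloisRep_ComplexConjugation

/-!
# The level `M` ring over the ring of integers of `K`

The level `M` ring over `O`, its expansion `ev` at `∞` and `evAt` at all cusps as series over `ℚ̄`,
and the subalgebra `CRing` of series they give.  This is the base of the model of `Provider.Main`.
-/

set_option autoImplicit false

noncomputable section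

open Filter Complex
open UpperHalfPlane hiding I
open scoped UpperHalfPlane Real MatrixGroups Manifold
open ModularCurve FLTAgent.LevelM

namespace FLTAgent.CarayolSquare.Provider

local notation "Qbar" => AlgebraicClosure ℚ

variable {q : ℕ} (X : Ctx q)

theorem exists_embedding : ∃ ι : Qbar →+* ℂ, ι X.ζ = zetaM q := by
  set ι₀ := complexEmbedding.toRingHom
  have := X.neZero
  obtain ⟨e, -, he⟩ := (X.hζ.map_of_injective ι₀.injective).eq_pow_of_pow_eq_one
    (zetaM_isPrimitiveRoot X.prime.pos).pow_eq_one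
  have hprim : IsPrimitiveRoot (X.ζ ^ e) q := IsPrimitiveRoot.of_map_of_injective
    (f := ι₀) (by rw [map_pow, he]; exact zetaM_isPrimitiveRoot X.prime.pos) ι₀.injective
  have hroot : Polynomial.aeval (X.ζ ^ e) (minpoly ℚ X.ζ) = 0 := by
    rw [← Polynomial.cyclotomic_eq_minpoly_rat X.hζ X.prime.pos,
      Polynomial.cyclotomic_eq_minpoly_rat hprim X.prime.pos]
    exact minpoly.aeval ℚ _
  obtain ⟨σ, hσ⟩ := minpoly.exists_algEquiv_of_root
    ((AlgebraicClosure.isAlgebraic ℚ).isAlgebraic X.ζ) hroot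
  refine ⟨ι₀.comp (σ.symm : Qbar →+* Qbar), ?_⟩
  show ι₀ (σ.symm X.ζ) = _
  have h1 := congrArg σ.symm hσ
  rw [AlgEquiv.symm_apply_apply] at h1
  rw [← h1, map_pow, he]

/-- The complex embedding with `ζ ↦ exp (2πi/q)`. -/
def emb : Qbar →+* ℂ := (exists_embedding X).choose

theorem emb_zeta : emb X X.ζ = zetaM q := (exists_embedding X).choose_spec

/-- The valuation ring `O` of `K`. -/
def valK : ValuationSubring X.K := X.A.comap (algebraMap X.K Qbar)

/-- The two presentations of `O` agree. -/
def equivO : X.O ≃+* valK X where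
  toFun c := ⟨(c : X.K), c.2⟩
  invFun c := ⟨(c : X.K), c.2⟩
  left_inv _ := rfl
  right_inv _ := rfl
  map_mul' _ _ := rfl
  map_add' _ _ := rfl

/-- The embedding of `K`. -/
def embK : X.K →+* ℂ := (emb X).comp (algebraMap X.K Qbar)

/-- The image of `O` in `ℂ`. -/
abbrev OC : Subring ℂ := coeffRing (valK X) (embK X)

theorem embK_mem (c : X.O) : embK X (c : X.K) ∈ OC X :=
  coeffEquiv_mem (valK X) (embK X) (equivO X c)

theorem natCast_valuation {M : ℕ} (hM : ¬ q ∣ M) : X.A.valuation (M : Qbar) = 1 := by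
  have hA : ∀ z : ℤ, X.A.valuation (z : Qbar) ≤ 1 := fun z =>
    (X.A.valuation_le_one_iff _).mpr (intCast_mem X.A.toSubring z)
  refine le_antisymm ((X.A.valuation_le_one_iff _).mpr (natCast_mem X.A.toSubring M)) ?_
  by_contra hlt
  push Not at hlt
  obtain ⟨a, b, hab⟩ : IsCoprime (M : ℤ) (q : ℤ) :=
    Nat.isCoprime_iff_coprime.mpr ((Nat.Prime.coprime_iff_not_dvd X.prime).mpr hM).symm
  have h1 : X.A.valuation (((a : ℤ) : Qbar) * M + ((b : ℤ) : Qbar) * q) < 1 := by
    refine lt_of_le_of_lt (X.A.valuation.map_add _ _) (max_lt ?_ ?_) <;> rw [map_mul]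
    · exact lt_of_le_of_lt (mul_le_of_le_one_left' (hA a)) hlt
    · exact lt_of_le_of_lt (mul_le_of_le_one_left' (hA b)) X.q_lt_one
  rw [show ((a : ℤ) : Qbar) * M + ((b : ℤ) : Qbar) * q = ((a * M + b * q : ℤ) : Qbar) by
      push_cast; ring,
    hab, Int.cast_one, map_one] at h1
  exact lt_irrefl _ h1

theorem goodRing {M : ℕ} (hM : 0 < M) (hqM : ¬ q ∣ M) : GoodRing M (OC X) := by
  refine ⟨hM, ?_, ?_⟩
  · obtain ⟨z, hz⟩ := X.roots M hM hqM
    have hz' : IsPrimitiveRoot (embK X (z : X.K)) M :=
      hz.map_of_injective (f := (embK X).comp (intK X.A X.K).subtype)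
        ((embK X).injective.comp Subtype.val_injective)
    have : NeZero M := ⟨hM.ne'⟩
    obtain ⟨k, -, hk⟩ := hz'.eq_pow_of_pow_eq_one (zetaM_isPrimitiveRoot hM).pow_eq_one
    rw [← hk]
    exact (OC X).pow_mem (embK_mem X z) k
  · have hMA : (M : Qbar)⁻¹ ∈ X.A := by
      rw [← X.A.valuation_le_one_iff, map_inv₀, natCast_valuation X hqM, inv_one]
    refine ⟨(M : X.K)⁻¹, ?_, by rw [map_inv₀, map_natCast]⟩
    show algebraMap X.K Qbar (M : X.K)⁻¹ ∈ X.A
    rwa [map_inv₀, map_natCast]

theorem q_dvd_of_valuation_lt_one {c : X.O}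
    (h : X.A.valuation (algebraMap X.K Qbar (c : X.K)) < 1) : (q : X.O) ∣ c := by
  rw [← X.fixedData_π, ← X.fixedData.lt_one_iff c, X.fixedData_A]
  exact h

theorem q_dvd_of_mem_maximalIdeal {a : valK X} (ha : a ∈ IsLocalRing.maximalIdeal (valK X)) :
    (q : valK X) ∣ a := by
  obtain ⟨c, rfl⟩ := (equivO X).surjective a
  rw [← map_natCast (equivO X)]
  refine map_dvd (equivO X) (q_dvd_of_valuation_lt_one X (lt_of_le_of_ne
    ((X.A.valuation_le_one_iff _).mpr c.2) fun h => ha ?_))
  exact ((X.isUnit_iff_valuation c).mpr h).map (equivO X)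

theorem q_mem_maximalIdeal : (q : valK X) ∈ IsLocalRing.maximalIdeal (valK X) := by
  rw [← map_natCast (equivO X), IsLocalRing.mem_maximalIdeal, mem_nonunits_iff]
  intro h
  exact (X.irreducible_q).not_isUnit ((MulEquiv.isUnit_map (equivO X)).mp h)

theorem rank_one {ϖ a : valK X} (hϖ : ϖ ∈ IsLocalRing.maximalIdeal (valK X)) (ha : a ≠ 0) :
    ∃ n : ℕ, a ∣ ϖ ^ n := by
  have := X.dvr
  obtain ⟨n, u, hu⟩ := IsDiscreteValuationRing.eq_unit_mul_pow_irreducible
    (x := (equivO X).symm a) (by simpa using ha) X.irreducible_q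
  refine ⟨n, ?_⟩
  have h1 : a ∣ (q : valK X) ^ n := by
    have h2 := congrArg (equivO X) hu
    rw [RingEquiv.apply_symm_apply, map_mul, map_pow, map_natCast] at h2
    rw [h2]
    exact (Units.map (equivO X).toRingHom.toMonoidHom u).isUnit.mul_left_dvd.mpr dvd_rfl
  exact h1.trans (pow_dvd_pow_of_dvd (q_dvd_of_mem_maximalIdeal X hϖ) n)

variable (M : ℕ)

/-- The level `M` functions with expansions over `O` at all cusps. -/
abbrev LRing : Type := LevelRing (valK X) (embK X) M

/-- The finite group acting on them. -/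
abbrev LGroup : Type := LevelGroup (valK X) (embK X) M

instance algebraLRing : Algebra X.O (LRing X M) :=
  ((algebraMap (valK X) (LRing X M)).comp (equivO X).toRingHom).toAlgebra

theorem algebraMap_LRing (c : X.O) :
    algebraMap X.O (LRing X M) c = algebraMap (valK X) (LRing X M) (equivO X c) := rfl

theorem smul_algebraMap (g : LGroup X M) (c : X.O) :
    g • algebraMap X.O (LRing X M) c = algebraMap X.O (LRing X M) c :=
  smul_levelAlgebraMap g _

variable [NeZero M]

/-- The coefficient map `O → ℚ̄`. -/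
def toQ : valK X →+* Qbar := (algebraMap X.K Qbar).comp (valK X).subtype

theorem emb_comp_toQ : (emb X).comp (toQ X) = coeffHom (valK X) (embK X) := rfl

/-- The expansion at `∞`. -/
def ev : LRing X M →+* Ser := (coeffMap (toQ X)).comp (levelExp (valK X) (embK X) M)

variable {X M}

theorem hasExp_ev (f : LRing X M) : HasExp M (f : ℍ → ℂ) (coeffMap (emb X) (ev X M f)) := by
  rw [ev, RingHom.comp_apply, coeffMap_coeffMap, emb_comp_toQ]
  exact hasExp_levelExp f

theorem coeffMap_emb_injective : Function.Injective (coeffMap (emb X)) :=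
  fun _ _ h => HahnSeries.ext (funext fun n => (emb X).injective
    (by simpa using congrArg (fun s : LaurentSeries ℂ => s.coeff n) h))

theorem coeffInO_ev (f : LRing X M) : X.CoeffInO (ev X M f) :=
  fun n => ⟨(equivO X).symm ((levelExp (valK X) (embK X) M f).coeff n), rfl⟩

theorem ev_injective : Function.Injective (ev X M) := by
  refine fun f g h => levelExp_injective (HahnSeries.ext (funext fun n => Subtype.ext
    ((algebraMap X.K Qbar).injective ?_)))
  exact congrArg (fun s : Ser => s.coeff n) h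

theorem ev_algebraMap (c : X.O) :
    ev X M (algebraMap X.O (LRing X M) c) = algebraMap X.O Ser c := by
  rw [ev, RingHom.comp_apply, algebraMap_LRing, levelExp_algebraMap, HahnSeries.C_apply,
    coeffMap_single, X.algebraMap_eq_C, HahnSeries.C_apply]
  rfl

variable (X M)

/-- The expansion at the cusp `δ ∞`. -/
def evAt (δ : SL(2, ℤ)) : LRing X M →ₐ[X.O] Ser where
  toRingHom := (ev X M).comp
    (MulSemiringAction.toRingHom (LGroup X M) (LRing X M) (gEl (valK X) (embK X) M δ))
  commutes' c := by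
    show ev X M (gEl (valK X) (embK X) M δ • algebraMap X.O (LRing X M) c) = _
    rw [smul_algebraMap, ev_algebraMap]

variable {X M}

theorem evAt_apply (δ : SL(2, ℤ)) (f : LRing X M) :
    evAt X M δ f = ev X M (gEl (valK X) (embK X) M δ • f) := rfl

theorem hasExp_evAt (δ : SL(2, ℤ)) (f : LRing X M) :
    HasExp M (act δ (f : ℍ → ℂ)) (coeffMap (emb X) (evAt X M δ f)) := by
  rw [← coe_gEl_smul, evAt_apply]
  exact hasExp_ev _

theorem evAt_eq {δ : SL(2, ℤ)} {f : LRing X M} {s : Ser}
    (h : HasExp M (act δ (f : ℍ → ℂ)) (coeffMap (emb X) s)) : evAt X M δ f = s :=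
  coeffMap_emb_injective ((hasExp_evAt δ f).unique (Nat.pos_of_ne_zero (NeZero.ne M)) h)

theorem evAt_one (f : LRing X M) : evAt X M 1 f = ev X M f :=
  evAt_eq (by rw [act_one]; exact hasExp_ev f)

theorem evAt_injective (δ : SL(2, ℤ)) : Function.Injective (evAt X M δ) :=
  fun _ _ h => MulAction.injective _ (ev_injective h)

theorem coeffInO_evAt (δ : SL(2, ℤ)) (f : LRing X M) : X.CoeffInO (evAt X M δ f) :=
  coeffInO_ev _

omit [NeZero M] in
theorem gEl_mul (δ ε : SL(2, ℤ)) :
    gEl (valK X) (embK X) M (δ * ε) = gEl (valK X) (embK X) M ε * gEl (valK X) (embK X) M δ := by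
  rw [gEl, gEl, gEl, mul_inv_rev, map_mul]

theorem evAt_smul (δ ε : SL(2, ℤ)) (f : LRing X M) :
    evAt X M ε (gEl (valK X) (embK X) M δ • f) = evAt X M (δ * ε) f := by
  rw [evAt_apply, evAt_apply, gEl_mul, mul_smul]

variable (X M)

/-- The expansion at `∞`, over `O`. -/
def evO : LRing X M →ₐ[X.O] Ser where
  toRingHom := ev X M
  commutes' := ev_algebraMap

/-- The ring of expansions at `∞`. -/
def CRing : Subalgebra X.O Ser := (evO X M).range

/-- Functions and their expansions. -/
def equivC : LRing X M ≃ₐ[X.O] CRing X M :=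
  AlgEquiv.ofInjective (evO X M) ev_injective

variable {X M}

theorem coe_equivC (f : LRing X M) : (equivC X M f : Ser) = ev X M f := rfl

theorem ev_equivC_symm (c : CRing X M) : ev X M ((equivC X M).symm c) = c := by
  rw [← coe_equivC, AlgEquiv.apply_symm_apply]

theorem mem_CRing {s : Ser} : s ∈ CRing X M ↔ ∃ f : LRing X M, ev X M f = s := Iff.rfl

variable (X M)

/-- The expansions at all cusps. -/
def csAt (δ : SL(2, ℤ)) : CRing X M →ₐ[X.O] Ser :=
  (evAt X M δ).comp (equivC X M).symm.toAlgHom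

variable {X M}

theorem csAt_apply (δ : SL(2, ℤ)) (c : CRing X M) :
    csAt X M δ c = evAt X M δ ((equivC X M).symm c) := rfl

theorem csAt_equivC (δ : SL(2, ℤ)) (f : LRing X M) :
    csAt X M δ (equivC X M f) = evAt X M δ f := by
  rw [csAt_apply, AlgEquiv.symm_apply_apply]

theorem csAt_one (c : CRing X M) : csAt X M 1 c = (c : Ser) := by
  rw [csAt_apply, evAt_one, ev_equivC_symm]

theorem csAt_injective (δ : SL(2, ℤ)) : Function.Injective (csAt X M δ) :=
  (evAt_injective δ).comp (equivC X M).symm.injective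

/-- Reduction zero at `∞` implies divisibility by `q`. -/
theorem exists_eq_q_mul {K : ℕ} [NeZero K] (hK : SmallLevel K) (hKM : K ∣ M) (hqM : ¬ q ∣ M)
    {f : LRing X M} (h : X.RedZero (ev X M f)) : ∃ f' : LRing X M, f = (q : LRing X M) * f' := by
  have hM : 0 < M := Nat.pos_of_ne_zero (NeZero.ne M)
  have : IsDomain (LRing X M) := isDomain_levelRing
  have := Fintype.ofFinite (levelSubgroup (valK X) (embK X) M K)
  have hd := levelData hK hKM (goodRing X hM hqM) (fun ϖ hϖ a ha => rank_one X hϖ ha)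
    ⟨(q : valK X), q_mem_maximalIdeal X, by
      rw [← map_natCast (equivO X), map_ne_zero_iff _ (equivO X).injective]
      exact X.irreducible_q.ne_zero⟩
  have h0 : GoodReduction.redHom (levelExp (valK X) (embK X) M) f = 0 := by
    rw [GoodReduction.redHom_eq_zero_iff]
    intro n
    obtain ⟨c, hc⟩ := (equivO X).surjective ((levelExp (valK X) (embK X) M f).coeff n)
    rw [← hc, IsLocalRing.mem_maximalIdeal, mem_nonunits_iff]
    intro hu
    have h1 := (X.isUnit_iff_valuation c).mp ((MulEquiv.isUnit_map (equivO X)).mp hu)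
    have h2 := h n
    rw [ev, RingHom.comp_apply, coeffMap_coeff, ← hc] at h2
    exact h2.ne h1
  obtain ⟨a, ha, -, f', rfl⟩ := hd.dvd_of_red_eq_zero h0
  obtain ⟨b, rfl⟩ := q_dvd_of_mem_maximalIdeal X ha
  exact ⟨algebraMap (valK X) (LRing X M) b * f', by rw [map_mul, map_natCast, mul_assoc]⟩

end FLTAgent.CarayolSquare.Provider

end
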