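import Fermat.Agent.CarayolSquare.Provider.Galois
import Fermat.Agent.GoodReduction.CuspConcrete

/-!
# Orders at the cusps

Unit orders (`UnitOrder`), twists, torsion parameters (`exists_param`), and the expansions `csFun`
of the fraction field at the cusps.
-/

set_option autoImplicit false

noncomputable section

open UpperHalfPlane hiding I
open scoped MatrixGroups
open ModularCurve FLTAgent.LevelM

namespace FLTAgent.CarayolSquare.Provider

local notation "Qbar" => AlgebraicClosure ℚ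

variable {q : ℕ} (X : Ctx q)

/-- Series without pole form a subring. -/
def npRing : Subring Ser where
  carrier := {s | NoPole s}
  one_mem' := fun n hn => by rw [HahnSeries.coeff_one, if_neg hn.ne]
  mul_mem' := fun ha hb _ hn => coeff_mul_below ha hb (by omega)
  zero_mem' := fun _ _ => rfl
  add_mem' := fun ha hb n hn => by rw [HahnSeries.coeff_add, ha n hn, hb n hn, add_zero]
  neg_mem' := fun ha n hn => by rw [HahnSeries.coeff_neg, ha n hn, neg_zero]

theorem noPole_algebraMap (c : X.O) : NoPole (algebraMap X.O Ser c) := fun n hn => by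
  rw [X.algebraMap_eq_C, HahnSeries.C_apply, HahnSeries.coeff_single_of_ne hn.ne]

variable {X}

theorem UnitOrder_ne_zero {s : Ser} {m : ℤ} (h : X.UnitOrder s m) : s.coeff m ≠ 0 := fun h0 => by
  have := h.2
  rw [h0, map_zero] at this
  exact zero_ne_one this

theorem UnitOrder.mul' {s t : Ser} {a b : ℤ} (hs : X.UnitOrder s a) (ht : X.UnitOrder t b) :
    X.UnitOrder (s * t) (a + b) :=
  ⟨fun _ hn => coeff_mul_below hs.1 ht.1 hn, by
    rw [coeff_mul_lead hs.1 ht.1, map_mul, hs.2, ht.2, one_mul]⟩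

theorem unitOrder_one : X.UnitOrder (1 : Ser) 0 :=
  ⟨fun n hn => by rw [HahnSeries.coeff_one, if_neg hn.ne], by simp [HahnSeries.coeff_one]⟩

theorem UnitOrder.pow' {s : Ser} {a : ℤ} (hs : X.UnitOrder s a) (k : ℕ) :
    X.UnitOrder (s ^ k) ((k : ℤ) * a) := by
  obtain ⟨h1, h2⟩ := coeff_pow_below hs.1 k
  exact ⟨h1, by rw [h2, map_pow, hs.2, one_pow]⟩

theorem unitOrder_prod {α : Type*} (S : Finset α) {f : α → Ser} {m : α → ℤ}
    (h : ∀ a ∈ S, X.UnitOrder (f a) (m a)) : X.UnitOrder (∏ a ∈ S, f a) (∑ a ∈ S, m a) := by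
  induction S using Finset.cons_induction with
  | empty => rw [Finset.prod_empty, Finset.sum_empty]; exact unitOrder_one
  | cons a S ha ih =>
    rw [Finset.prod_cons, Finset.sum_cons]
    exact UnitOrder.mul' (h a (Finset.mem_cons_self a S))
      (ih fun b hb => h b (Finset.mem_cons_of_mem hb))

theorem UnitOrder.inv' {s t : Ser} {m : ℤ} (hs : X.UnitOrder s m) (h : s * t = 1) :
    X.UnitOrder t (-m) := by
  have hs0 : s ≠ 0 := left_ne_zero_of_mul_eq_one h
  have ht0 : t ≠ 0 := right_ne_zero_of_mul_eq_one h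
  have hord : s.order = m := le_antisymm
    (HahnSeries.order_le_of_coeff_ne_zero (UnitOrder_ne_zero hs))
    (by
      by_contra hlt
      push Not at hlt
      exact HahnSeries.coeff_order_eq_zero.not.mpr hs0 (hs.1 _ hlt))
  have hord' : t.order = -m := by
    have := HahnSeries.order_mul hs0 ht0
    rw [h, HahnSeries.order_one, hord] at this
    omega
  have hlow : ∀ n < -m, t.coeff n = 0 :=
    fun n hn => HahnSeries.coeff_eq_zero_of_lt_order (hord'.symm ▸ hn)
  refine ⟨hlow, ?_⟩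
  have h2 := coeff_mul_lead hs.1 hlow
  rw [h, add_neg_cancel, HahnSeries.coeff_one, if_pos rfl] at h2
  have h3 := congrArg X.A.valuation h2
  rw [map_one, map_mul, hs.2, one_mul] at h3
  exact h3.symm

theorem UnitOrder.noPole {s : Ser} {m : ℤ} (hs : X.UnitOrder s m) (hm : 0 ≤ m) : NoPole s :=
  fun n hn => hs.1 n (by omega)

theorem UnitOrder.not_noPole {s : Ser} {m : ℤ} (hs : X.UnitOrder s m) (hm : m < 0) : ¬NoPole s :=
  fun h => UnitOrder_ne_zero hs (h m hm)

/-- Roots of monic polynomials without pole have no pole. -/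
theorem noPole_of_root {P : Polynomial Ser} (hm : P.Monic) (hc : ∀ i, NoPole (P.coeff i)) {z : Ser}
    (hz : P.eval z = 0) : NoPole z := by
  intro n hn
  by_contra hne
  have hz0 : z ≠ 0 := fun h => hne (by rw [h]; rfl)
  have hlow : ∀ k < z.order, z.coeff k = 0 := fun k hk => HahnSeries.coeff_eq_zero_of_lt_order hk
  have hord : z.order < 0 := lt_of_le_of_lt (HahnSeries.order_le_of_coeff_ne_zero hne) hn
  have h := congrArg (fun s : Ser => s.coeff ((P.natDegree : ℤ) * z.order)) hz
  simp only [Polynomial.eval_eq_sum_range, HahnSeries.coeff_sum, HahnSeries.coeff_zero] at h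
  rw [Finset.sum_range_succ, hm.coeff_natDegree, one_mul, (coeff_pow_below hlow _).2,
    Finset.sum_eq_zero, zero_add] at h
  · exact pow_ne_zero _ (HahnSeries.coeff_order_eq_zero.not.mpr hz0) h
  · intro i hi
    refine coeff_mul_below (hc i) (coeff_pow_below hlow i).1 ?_
    have : (i : ℤ) < P.natDegree := by exact_mod_cast Finset.mem_range.mp hi
    nlinarith

variable {M : ℕ} [NeZero M]

theorem evAt_coeff (δ : SL(2, ℤ)) (f : LRing X M) (n : ℤ) :
    (evAt X M δ f).coeff n =
      toQ X ((levelExp (valK X) (embK X) M (gEl (valK X) (embK X) M δ • f)).coeff n) := rfl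

theorem valuation_toQ_of_isUnit {a : valK X} (ha : IsUnit a) : X.A.valuation (toQ X a) = 1 := by
  have := (X.isUnit_iff_valuation ((equivO X).symm a)).mp (ha.map (equivO X).symm)
  exact this

theorem unitOrder_of_unitLead {δ : SL(2, ℤ)} {f : LRing X M} {m : ℤ}
    (h : UnitLead (levelExp (valK X) (embK X) M (gEl (valK X) (embK X) M δ • f)) m) :
    X.UnitOrder (evAt X M δ f) m :=
  ⟨fun n hn => by rw [evAt_coeff, h.1 n hn, map_zero],
    by rw [evAt_coeff]; exact valuation_toQ_of_isUnit h.2⟩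

/-- Twists by `T ^ b` do not change orders. -/
theorem coeff_of_act_T (hqM : ¬ q ∣ M) {ε ε' : SL(2, ℤ)} {b : ℤ} {f : LRing X M}
    (h : act ε (f : ℍ → ℂ) = act (ModularGroup.T ^ b) (act ε' (f : ℍ → ℂ))) (n : ℤ) :
    ∃ a : Qbar, X.A.valuation a = 1 ∧ (evAt X M ε f).coeff n = a * (evAt X M ε' f).coeff n := by
  have hM : 0 < M := Nat.pos_of_ne_zero (NeZero.ne M)
  have hG := goodRing X hM hqM
  obtain ⟨c, hc⟩ := exists_O_of_mem X (hG.zpow_mem (b * n))
  refine ⟨algebraMap X.K Qbar (c : X.K), (X.isUnit_iff_valuation c).mp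
    (isUnit_of_isUnitIn X (hc.symm ▸ hG.isUnitIn_zpow (b * n))), (emb X).injective ?_⟩
  have h1 := hasExp_evAt ε f
  rw [h] at h1
  have h2 := congrArg (fun s : LaurentSeries ℂ => s.coeff n)
    (h1.unique hM ((hasExp_evAt ε' f).act_T b))
  simp only [twist_coeff, coeffMap_coeff] at h2
  rw [map_mul, show emb X (algebraMap X.K Qbar (c : X.K)) = zetaM M ^ (b * n) from hc, h2, zpow_mul,
    zetaM_zpow, mul_comm]

theorem noPole_congr (hqM : ¬ q ∣ M) {ε ε' : SL(2, ℤ)} {b : ℤ} {f : LRing X M}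
    (h : act ε (f : ℍ → ℂ) = act (ModularGroup.T ^ b) (act ε' (f : ℍ → ℂ)))
    (hf : NoPole (evAt X M ε' f)) : NoPole (evAt X M ε f) := fun n hn => by
  obtain ⟨a, -, ha⟩ := coeff_of_act_T hqM h n
  rw [ha, hf n hn, mul_zero]

theorem unitOrder_congr (hqM : ¬ q ∣ M) {ε ε' : SL(2, ℤ)} {b : ℤ} {f : LRing X M} {m : ℤ}
    (h : act ε (f : ℍ → ℂ) = act (ModularGroup.T ^ b) (act ε' (f : ℍ → ℂ)))
    (hf : X.UnitOrder (evAt X M ε' f) m) : X.UnitOrder (evAt X M ε f) m := by
  refine ⟨fun n hn => ?_, ?_⟩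
  · obtain ⟨a, -, ha⟩ := coeff_of_act_T hqM h n
    rw [ha, hf.1 n hn, mul_zero]
  · obtain ⟨a, h1, ha⟩ := coeff_of_act_T hqM h m
    rw [ha, map_mul, h1, hf.2, one_mul]

/-! ### Torsion parameters -/

section Param

variable (hM3 : 3 ≤ M) (hqM : ¬ q ∣ M)
include hM3

omit [NeZero M] in
theorem pairs_std : XPair (![1, 0] : Fin 2 → ZMod M) ![1, 1] ∧
    XPair (![0, 1] : Fin 2 → ZMod M) ![1, 0] := by
  have : Fact (1 < M) := ⟨by omega⟩
  exact ⟨⟨fun e => one_ne_zero (α := ZMod M) (by simpa using congrFun e 0),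
      fun e => one_ne_zero (α := ZMod M) (by simpa using congrFun e 0),
      fun e => one_ne_zero (α := ZMod M) (by simpa using (congrFun e 1).symm),
      fun e => one_ne_zero (α := ZMod M) (by simpa using (congrFun e 1).symm)⟩,
    ⟨fun e => one_ne_zero (α := ZMod M) (by simpa using congrFun e 1),
      fun e => one_ne_zero (α := ZMod M) (by simpa using congrFun e 0),
      fun e => one_ne_zero (α := ZMod M) (by simpa using congrFun e 1),
      fun e => one_ne_zero (α := ZMod M) (by simpa using congrFun e 1)⟩⟩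

include hqM

/-- A unit with a simple zero at `δ` and no pole at `δ'`. -/
theorem exists_param (δ δ' : SL(2, ℤ)) :
    ∃ τ τ' : LRing X M, τ * τ' = 1 ∧ X.UnitOrder (evAt X M δ τ) 1 ∧
      NoPole (evAt X M δ' τ) := by
  have : Fact (1 < M) := ⟨by omega⟩
  have hO := goodRing X (M := M) (by omega) hqM
  obtain ⟨hTU, hVW₀⟩ := pairs_std (M := M) hM3
  set T : Fin 2 → ZMod M := vact ![1, 0] δ⁻¹
  set U : Fin 2 → ZMod M := vact ![1, 1] δ⁻¹
  have hback : ∀ (V : Fin 2 → ZMod M) (g : SL(2, ℤ)), vact (vact V g⁻¹) g = V := fun V g => by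
    rw [← vact_mul, inv_mul_cancel, vact_one]
  obtain ⟨W, hW, hW'⟩ : ∃ W : Fin 2 → ZMod M, XPair (vact (![0, 1] : Fin 2 → ZMod M) δ⁻¹) W ∧
      (vact W δ' 0 = 0 ∨ vact (vact (![0, 1] : Fin 2 → ZMod M) δ⁻¹) δ' 0 = 0) := by
    set V : Fin 2 → ZMod M := vact (![0, 1] : Fin 2 → ZMod M) δ⁻¹ with hV
    set V' : Fin 2 → ZMod M := vact (![0, 1] : Fin 2 → ZMod M) δ'⁻¹ with hV'
    have hV'0 : vact V' δ' 0 = 0 := by rw [hV', hback]; rfl
    by_cases he : V = V' ∨ V = -V'
    · refine ⟨vact ![1, 0] δ⁻¹, hVW₀.vact δ⁻¹, Or.inr ?_⟩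
      rcases he with he | he
      · rw [he, hV'0]
      · rw [he, vact_neg, Pi.neg_apply, hV'0, neg_zero]
    · exact ⟨V', ⟨vact_ne_zero hVW₀.1 _, vact_ne_zero hVW₀.1 _, fun h => he (Or.inl h),
        fun h => he (Or.inr h)⟩, Or.inl hV'0⟩
  refine ⟨xr hO (hTU.vact δ⁻¹) hW, xr hO hW (hTU.vact δ⁻¹), ?_, ?_, ?_⟩
  · refine Subtype.ext (funext fun τ => ?_)
    show xratio M T U _ W τ * xratio M _ W T U τ = 1
    have h1 := xdiff_ne_zero hW.1 hW.2.1 hW.2.2.1 hW.2.2.2 τ
    have hp := hTU.vact δ⁻¹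
    have h2 := xdiff_ne_zero hp.1 hp.2.1 hp.2.2.1 hp.2.2.2 τ
    simp only [xratio, Pi.div_apply]
    field_simp
    exact div_self h2
  · have h := unitOrder_of_unitLead (unitLead_xr hO (hTU.vact δ⁻¹) hW δ)
    rw [hback, hback] at h
    have h1 : xord (![1, 0] : Fin 2 → ZMod M) ![1, 1] = 1 := by
      have h1 : (1 : ZMod M).valMinAbs = 1 := by
        rw [← Nat.cast_one, ZMod.valMinAbs_natCast_of_le_half (by omega)]
        simp
      simp [xord, h1]
    have h0 : xord (vact (vact (![0, 1] : Fin 2 → ZMod M) δ⁻¹) δ) (vact W δ) = 0 :=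
      xord_eq_zero_of_left (by rw [hback]; rfl)
    rw [h1, h0] at h
    simpa using h
  · refine UnitOrder.noPole (unitOrder_of_unitLead (unitLead_xr hO (hTU.vact δ⁻¹) hW δ')) ?_
    have h0 : xord (vact (vact (![0, 1] : Fin 2 → ZMod M) δ⁻¹) δ') (vact W δ') = 0 := by
      rcases hW' with h | h
      · rw [xord, h, ZMod.valMinAbs_zero, Int.natAbs_zero, Nat.min_zero]
      · exact xord_eq_zero_of_left h
    rw [h0]
    simp

/-- The model's parameters. -/
theorem param (δ δ' : SL(2, ℤ)) :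
    ∃ τ : CRing X M, X.UnitOrder (csAt X M δ τ) 1 ∧ NoPole (csAt X M δ' τ) := by
  obtain ⟨τ, -, -, h1, h2⟩ := exists_param hM3 hqM (X := X) δ δ'
  exact ⟨equivC X M τ, by rw [csAt_equivC]; exact h1, by rw [csAt_equivC]; exact h2⟩

end Param

/-! ### The expansions of the fraction field -/

variable (X M) in
/-- The fraction field. -/
abbrev CField : IntermediateField X.K Ser := IntermediateField.adjoin X.K (CRing X M : Set Ser)

variable (X M) in
/-- The expansion at `δ` of a quotient. -/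
def csFun (δ : SL(2, ℤ)) (z : CField X M) : Ser :=
  evAt X M δ (exists_frac X z.2).choose / evAt X M δ (exists_frac X z.2).choose_spec.choose

theorem csFun_spec (δ : SL(2, ℤ)) (z : CField X M) {a b : LRing X M} (hb : ev X M b ≠ 0)
    (h : (z : Ser) * ev X M b = ev X M a) : csFun X M δ z = evAt X M δ a / evAt X M δ b := by
  obtain ⟨hb', h'⟩ := (exists_frac X z.2).choose_spec.choose_spec
  rw [csFun]
  set a' := (exists_frac X z.2).choose
  set b' := (exists_frac X z.2).choose_spec.choose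
  have hne : ∀ {x : LRing X M}, ev X M x ≠ 0 → evAt X M δ x ≠ 0 := fun {x} hx h0 => hx (by
    rw [(map_eq_zero_iff _ (evAt_injective δ)).mp h0, map_zero])
  have hcross : a' * b = a * b' := by
    refine ev_injective ?_
    rw [map_mul, map_mul, ← h, ← h']
    ring
  rw [div_eq_div_iff (hne hb') (hne hb), ← map_mul, ← map_mul, hcross]

theorem evAt_ne_zero (δ : SL(2, ℤ)) {x : LRing X M} (hx : ev X M x ≠ 0) : evAt X M δ x ≠ 0 :=
  fun h0 => hx (by rw [(map_eq_zero_iff _ (evAt_injective δ)).mp h0, map_zero])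

theorem csFun_mul (δ : SL(2, ℤ)) (x y : CField X M) :
    csFun X M δ (x * y) = csFun X M δ x * csFun X M δ y := by
  obtain ⟨a, b, hb, h⟩ := exists_frac X x.2
  obtain ⟨a', b', hb', h'⟩ := exists_frac X y.2
  have hbb : ev X M (b * b') ≠ 0 := by rw [map_mul]; exact mul_ne_zero hb hb'
  have heq : ((x * y : CField X M) : Ser) * ev X M (b * b') = ev X M (a * a') := by
    rw [IntermediateField.coe_mul, map_mul, map_mul, ← h, ← h']
    ring
  rw [csFun_spec δ x hb h, csFun_spec δ y hb' h', csFun_spec δ (x * y) hbb heq, map_mul, map_mul,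
    div_mul_div_comm]

theorem csFun_add (δ : SL(2, ℤ)) (x y : CField X M) :
    csFun X M δ (x + y) = csFun X M δ x + csFun X M δ y := by
  obtain ⟨a, b, hb, h⟩ := exists_frac X x.2
  obtain ⟨a', b', hb', h'⟩ := exists_frac X y.2
  have hbb : ev X M (b * b') ≠ 0 := by rw [map_mul]; exact mul_ne_zero hb hb'
  have heq : ((x + y : CField X M) : Ser) * ev X M (b * b') = ev X M (a * b' + a' * b) := by
    rw [IntermediateField.coe_add, map_add, map_mul, map_mul, map_mul, ← h, ← h']
    ring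
  rw [csFun_spec δ x hb h, csFun_spec δ y hb' h', csFun_spec δ (x + y) hbb heq, map_add, map_mul,
    map_mul, map_mul, div_add_div _ _ (evAt_ne_zero δ hb) (evAt_ne_zero δ hb'),
    mul_comm (evAt X M δ b) (evAt X M δ a')]

theorem csFun_algebraMap (δ : SL(2, ℤ)) (c : X.K) :
    csFun X M δ (algebraMap X.K (CField X M) c) = algebraMap X.K Ser c := by
  obtain ⟨a, b, hb, h⟩ := X.exists_div_O c
  have hbS : algebraMap X.O Ser b ≠ 0 := by
    rw [X.algebraMap_eq]
    exact (_root_.map_ne_zero _).mpr fun h0 => hb (Subtype.ext h0)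
  have hprod : algebraMap X.K Ser c * algebraMap X.O Ser b = algebraMap X.O Ser a := by
    rw [X.algebraMap_eq, X.algebraMap_eq, ← map_mul]
    exact congrArg _ h
  have hbb : ev X M (algebraMap X.O _ b) ≠ 0 := by rw [ev_algebraMap]; exact hbS
  have heq : ((algebraMap X.K (CField X M) c : CField X M) : Ser) * ev X M (algebraMap X.O _ b) =
      ev X M (algebraMap X.O _ a) := by
    rw [ev_algebraMap, ev_algebraMap]
    exact hprod
  rw [csFun_spec δ _ hbb heq, AlgHom.commutes, AlgHom.commutes, div_eq_iff hbS]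
  exact hprod.symm

theorem csFun_zero (δ : SL(2, ℤ)) : csFun X M δ 0 = 0 := by
  rw [← map_zero (algebraMap X.K (CField X M)), csFun_algebraMap, map_zero]

theorem csFun_one (δ : SL(2, ℤ)) : csFun X M δ 1 = 1 := by
  rw [← map_one (algebraMap X.K (CField X M)), csFun_algebraMap, map_one]

variable (X M) in
/-- The expansion at `δ` of the fraction field. -/
def csField (δ : SL(2, ℤ)) : CField X M →ₐ[X.K] Ser where
  toFun := csFun X M δ
  map_one' := csFun_one δ
  map_zero' := csFun_zero δ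
  map_mul' := csFun_mul δ
  map_add' := csFun_add δ
  commutes' := csFun_algebraMap δ

theorem csField_ev (δ : SL(2, ℤ)) (f : LRing X M) (hf : ev X M f ∈ CField X M) :
    csField X M δ ⟨ev X M f, hf⟩ = evAt X M δ f := by
  show csFun X M δ _ = _
  rw [csFun_spec δ _ (a := f) (b := 1) (by rw [map_one]; exact one_ne_zero)
    (by rw [map_one, mul_one]), map_one, div_one]

end FLTAgent.CarayolSquare.Provider

end
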