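import Fermat.Agent.CarayolSquare.Provider.CuspTools

/-!
# The functions `1/h` and `h - a` at the cusps of `Γ(K)`

`UData` records a coordinate with its orders at the cusps; `dataSub` and `dataInv` are the two
kinds.  `prod_dvd_of_noPole` is the divisibility of polynomials in `h` without poles.
-/

set_option autoImplicit false

noncomputable section

open Polynomial
open UpperHalfPlane hiding I
open scoped MatrixGroups
open ModularCurve FLTAgent.LevelM

namespace FLTAgent.CarayolSquare.Provider

local notation "Qbar" => AlgebraicClosure ℚ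

variable {q : ℕ} (X : Ctx q) {M K : ℕ} [NeZero M] [NeZero K] (hl : Lvl q M K) (H : Haupt K)

/-- A function `u` of level `K` with a simple zero at one cusp and a simple pole at another, a
function `D` vanishing at the remaining cusps, and the descent to `O[u]`. -/
structure UData where
  u : LRing X M
  D : LRing X M
  l0 : Fin (K + 1)
  linf : Fin (K + 1)
  ne : l0 ≠ linf
  u_mem : u ∈ adjH X hl H
  D_mem : D ∈ adjH X hl H
  lu : ∀ l, X.UnitOrder (evAt X M (cuspRep K l) u)
    ((M / K : ℕ) * (if l = l0 then 1 else if l = linf then -1 else 0 : ℤ))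
  lD : ∀ l, l ≠ linf → X.UnitOrder (evAt X M (cuspRep K l) D)
    ((M / K : ℕ) * (if l = l0 then 0 else 1 : ℤ))
  desc : ∀ t ∈ adjH X hl H, (∀ l, l ≠ linf → NoPole (evAt X M (cuspRep K l) t)) →
    t ∈ Algebra.adjoin X.O ({u} : Set (LRing X M))

omit [NeZero K] in
theorem div_pos_of_dvd (hl : Lvl q M K) : 0 < M / K :=
  Nat.div_pos (Nat.le_of_dvd (Nat.pos_of_ne_zero (NeZero.ne M)) hl.dvd) hl.small.pos

/-- `h - r_i`. -/
def hSub (i : Fin (K + 1)) : LRing X M :=
  hL X hl H - algebraMap X.O _ (rootO X hl H i)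

theorem coe_hSub (i : Fin (K + 1)) :
    (hSub X hl H i : ℍ → ℂ) = H.h - fun _ => H.r i := by
  rw [hSub, coe_hsub, embK_rootO]
  rfl

theorem hSub_one : hSub X hl H 1 = hL X hl H := by
  rw [hSub, rootO_one, map_zero, sub_zero]

theorem hSub_mem (i : Fin (K + 1)) : hSub X hl H i ∈ adjH X hl H :=
  sub_mem (Algebra.subset_adjoin (Set.mem_insert _ _)) ((adjH X hl H).algebraMap_mem _)

theorem unitOrder_hSub {i : Fin (K + 1)} (hi : i ≠ 0) (l : Fin (K + 1)) :
    X.UnitOrder (evAt X M (cuspRep K l) (hSub X hl H i)) ((M / K : ℕ) * subOrd K i l) := by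
  obtain ⟨e, he⟩ := hl.dvd
  have : NeZero e := ⟨fun h0 => NeZero.ne M (by rw [he, h0, mul_zero])⟩
  rw [show M / K = e by rw [he, Nat.mul_div_cancel_left _ hl.small.pos]]
  obtain ⟨c, hc, s, hs, -, h1, h2⟩ := H.lead_sub i hi l
  have h3 := hs.qExpand e
  rw [mul_comm e K, ← he, ← coe_hSub X hl H] at h3
  have h4 := (hasExp_evAt (cuspRep K l) (hSub X hl H i)).unique
    (Nat.pos_of_ne_zero (NeZero.ne M)) h3
  have hcoef : ∀ n, emb X ((evAt X M (cuspRep K l) (hSub X hl H i)).coeff n) =
      (qExpand ℂ e s).coeff n := fun n => by rw [← h4, coeffMap_coeff]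
  refine ⟨fun n hn => (emb X).injective ?_, ?_⟩
  · rw [hcoef, map_zero]
    by_cases hd : (e : ℤ) ∣ n
    · obtain ⟨m, rfl⟩ := hd
      rw [qExpand_coeff_mul]
      refine h1 m ?_
      by_contra hm
      push Not at hm
      have : (0 : ℤ) ≤ e := Int.natCast_nonneg e
      nlinarith
    · exact qExpand_coeff_of_not_dvd _ _ hd
  · obtain ⟨d, hd⟩ := coeffInO_evAt (cuspRep K l) (hSub X hl H i) ((e : ℤ) * subOrd K i l)
    have hdc : embK X (d : X.K) = c := by
      show emb X (algebraMap X.K Qbar (d : X.K)) = c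
      rw [hd, hcoef, qExpand_coeff_mul, h2]
    rw [← hd]
    exact (X.isUnit_iff_valuation d).mp (isUnit_of_isUnitIn X
      (hdc.symm ▸ isUnitIn_mono (smallRing_le (hl.goodK X)) hc))

/-- `1/h`. -/
def hInv : LRing X M :=
  wL X hl H * ∏ k ∈ ((Finset.univ : Finset (Fin (K + 1))).erase 0).erase 1, hSub X hl H k

theorem hInv_mem : hInv X hl H ∈ adjH X hl H :=
  mul_mem (Algebra.subset_adjoin (Set.mem_insert_of_mem _ rfl))
    (prod_mem fun k _ => hSub_mem X hl H k)

theorem prod_hSub :
    wL X hl H * ∏ k ∈ (Finset.univ : Finset (Fin (K + 1))).erase 0, hSub X hl H k = 1 := by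
  classical
  have := wL_mul X hl H
  rwa [roots, Finset.prod_image (rootO_injOn X hl H)] at this

theorem hL_mul_hInv : hL X hl H * hInv X hl H = 1 := by
  rw [← prod_hSub X hl H, hInv, ← Finset.mul_prod_erase _ (fun k => hSub X hl H k)
    (Finset.mem_erase.mpr ⟨one_ne_zero_fin hl.small, Finset.mem_univ (1 : Fin (K + 1))⟩), hSub_one]
  ring

theorem unitOrder_hInv (l : Fin (K + 1)) :
    X.UnitOrder (evAt X M (cuspRep K l) (hInv X hl H)) (-((M / K : ℕ) * subOrd K 1 l)) := by
  have h1 := unitOrder_hSub X hl H (one_ne_zero_fin hl.small) l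
  rw [hSub_one] at h1
  refine UnitOrder.inv' h1 ?_
  rw [← map_mul, hL_mul_hInv, map_one]

omit [NeZero K] in
theorem sum_subOrd {S : Finset (Fin (K + 1))} (_h0 : ∀ k ∈ S, k ≠ 0) {l : Fin (K + 1)}
    (hl0 : l ≠ 0) : ∑ k ∈ S, subOrd K k l = if l ∈ S then 1 else 0 := by
  have : ∀ k ∈ S, subOrd K k l = if l = k then 1 else 0 := fun k _ => by
    rw [subOrd]
    split_ifs <;> rfl
  rw [Finset.sum_congr rfl this, Finset.sum_ite_eq]

/-! ### Polynomials in `h` -/

theorem eval_ev_aeval (p : Polynomial X.O) :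
    ev X M (aeval (hL X hl H) p) = aeval (hC X hl H : Ser) p :=
  (aeval_algHom_apply (evO X M) (hL X hl H) p).symm

theorem aeval_DPoly_hL : aeval (hL X hl H) (DPoly X hl H) =
    ∏ k ∈ (Finset.univ : Finset (Fin (K + 1))).erase 0, hSub X hl H k := by
  classical
  rw [eval_DPoly, roots, Finset.prod_image (rootO_injOn X hl H)]
  rfl

theorem exists_poly_adjH {t : LRing X M} (ht : t ∈ adjH X hl H) :
    ∃ (n : ℕ) (p : Polynomial X.O),
      t * aeval (hL X hl H) (DPoly X hl H) ^ n = aeval (hL X hl H) p := by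
  obtain ⟨n, p, hp⟩ := exists_poly_repr X hl H (ev_mem_adjS X hl H ht)
  refine ⟨n, p, ev_injective ?_⟩
  rw [map_mul, map_pow, eval_ev_aeval, eval_ev_aeval]
  exact hp

theorem noPole_aeval {l : Fin (K + 1)} (hl0 : l ≠ 0) (p : Polynomial X.O) :
    NoPole (evAt X M (cuspRep K l) (aeval (hL X hl H) p)) := by
  rw [← aeval_algHom_apply]
  have h1 : NoPole (evAt X M (cuspRep K l) (hL X hl H)) := by
    have h := unitOrder_hSub X hl H hl0 l
    rw [subOrd, if_pos rfl, hSub, map_sub, AlgHom.commutes] at h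
    have h2 := (npRing).add_mem (UnitOrder.noPole h (by positivity))
      (noPole_algebraMap X (rootO X hl H l))
    rwa [sub_add_cancel] at h2
  induction p using Polynomial.induction_on with
  | C a => rw [aeval_C]; exact noPole_algebraMap X a
  | add a b ha hb => rw [map_add]; exact npRing.add_mem ha hb
  | monomial n a h =>
    rw [pow_succ, ← mul_assoc, map_mul, aeval_X]
    exact npRing.mul_mem h h1

/-- No pole at the cusp of `r_i` forces divisibility. -/
theorem pow_dvd_of_noPole {t : LRing X M} {n : ℕ} {p : Polynomial X.O}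
    (h : t * aeval (hL X hl H) (DPoly X hl H) ^ n = aeval (hL X hl H) p) {i : Fin (K + 1)}
    (hi : i ≠ 0) (ht : NoPole (evAt X M (cuspRep K i) t)) :
    (Polynomial.X - Polynomial.C (rootO X hl H i)) ^ n ∣ p := by
  rcases eq_or_ne p 0 with rfl | hp
  · exact dvd_zero _
  set r := rootO X hl H i
  set m := p.rootMultiplicity r
  obtain ⟨g, hg, hg'⟩ := exists_eq_pow_rootMultiplicity_mul_and_not_dvd p hp r
  by_contra hnd
  have hmn : m < n := by
    by_contra hle
    push Not at hle
    exact hnd ((pow_dvd_pow _ hle).trans ⟨g, hg⟩)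
  have hgr : g.eval r ≠ 0 := fun h0 => hg' (dvd_iff_isRoot.mpr h0)
  have := isDomain_levelRing (A := valK X) (ι := embK X) (M := M)
  have hne : hSub X hl H i ≠ 0 := fun h0 => one_ne_zero (α := LRing X M) (by
    rw [← prod_hSub X hl H, Finset.prod_eq_zero (Finset.mem_erase.mpr ⟨hi, Finset.mem_univ i⟩) h0,
      mul_zero])
  have he : t * (∏ k ∈ ((Finset.univ : Finset (Fin (K + 1))).erase 0).erase i, hSub X hl H k) ^ n *
      hSub X hl H i ^ (n - m) = aeval (hL X hl H) g := by
    refine mul_left_cancel₀ (pow_ne_zero m hne) ?_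
    have h' := h
    rw [aeval_DPoly_hL, ← Finset.mul_prod_erase _ _ (Finset.mem_erase.mpr ⟨hi, Finset.mem_univ i⟩),
      hg, map_mul, map_pow, map_sub, aeval_X, aeval_C, mul_pow] at h'
    rw [show hSub X hl H i ^ m * aeval (hL X hl H) g = _ from h'.symm,
      show hSub X hl H i ^ n = hSub X hl H i ^ m * hSub X hl H i ^ (n - m) by
        rw [← pow_add, Nat.add_sub_cancel' hmn.le]]
    ring
  have hu := unitOrder_hSub X hl H hi i
  rw [subOrd, if_pos rfl, mul_one] at hu
  have hpos : (0 : ℤ) < (M / K : ℕ) := by exact_mod_cast div_pos_of_dvd hl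
  have hrest : NoPole (evAt X M (cuspRep K i)
      (∏ k ∈ ((Finset.univ : Finset (Fin (K + 1))).erase 0).erase i, hSub X hl H k)) := by
    rw [map_prod]
    refine npRing.prod_mem fun k hk => ?_
    obtain ⟨hki, hk'⟩ := Finset.mem_erase.mp hk
    refine UnitOrder.noPole (unitOrder_hSub X hl H (Finset.ne_of_mem_erase hk') i) ?_
    rw [subOrd, if_neg (Ne.symm hki), if_neg hi, mul_zero]
  have hz : (evAt X M (cuspRep K i) (aeval (hL X hl H) g)).coeff 0 = 0 := by
    rw [← he, map_mul, map_mul, map_pow, map_pow]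
    refine coeff_mul_below (a := 0) (npRing.mul_mem ht (npRing.pow_mem hrest n))
      (coeff_pow_below hu.1 (n - m)).1 ?_
    have : (1 : ℤ) ≤ ((n - m : ℕ) : ℤ) := by exact_mod_cast Nat.sub_pos_of_lt hmn
    nlinarith
  obtain ⟨v, hv⟩ := X_sub_C_dvd_sub_C_eval (a := r) (p := g)
  rw [sub_eq_iff_eq_add'] at hv
  rw [hv, map_add, map_mul, map_sub, aeval_X, aeval_C, aeval_C, map_add, map_mul, AlgHom.commutes,
    HahnSeries.coeff_add, show hL X hl H - algebraMap X.O _ r = hSub X hl H i from rfl,
    coeff_mul_below hu.1 (noPole_aeval X hl H hi v) (by rw [add_zero]; exact hpos), add_zero,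
    X.algebraMap_eq_C, HahnSeries.C_apply, HahnSeries.coeff_single_same] at hz
  exact hgr (Subtype.ext ((algebraMap X.K Qbar).injective (hz.trans (map_zero _).symm)))

theorem prod_dvd_of_noPole {t : LRing X M} {n : ℕ} {p : Polynomial X.O}
    (h : t * aeval (hL X hl H) (DPoly X hl H) ^ n = aeval (hL X hl H) p)
    (S : Finset (Fin (K + 1))) (hS : ∀ i ∈ S, i ≠ 0 ∧ NoPole (evAt X M (cuspRep K i) t)) :
    (∏ i ∈ S, (Polynomial.X - Polynomial.C (rootO X hl H i))) ^ n ∣ p := by
  rw [← Finset.prod_pow]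
  refine Finset.prod_dvd_of_coprime (fun i hi k hk hik => ?_)
    fun i hi => pow_dvd_of_noPole X hl H h (hS i hi).1 (hS i hi).2
  refine IsCoprime.pow ?_
  exact isCoprime_X_sub_C_of_isUnit_sub (rootO_sub X hl H (hS i hi).1 (hS k hk).1 hik)

omit [NeZero M] in
theorem DPoly_eq : DPoly X hl H = ∏ i ∈ (Finset.univ : Finset (Fin (K + 1))).erase 0,
    (Polynomial.X - Polynomial.C (rootO X hl H i)) := by
  classical
  rw [DPoly, roots, Finset.prod_image (rootO_injOn X hl H)]

theorem DPoly_ne_zero : aeval (hL X hl H) (DPoly X hl H) ≠ 0 := fun h0 => by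
  have := isDomain_levelRing (A := valK X) (ι := embK X) (M := M)
  have h := prod_hSub X hl H
  rw [← aeval_DPoly_hL, h0, mul_zero] at h
  exact zero_ne_one h

/-- `u = h - r_i`. -/
def dataSub {i : Fin (K + 1)} (hi : i ≠ 0) : UData X hl H where
  u := hSub X hl H i
  D := ∏ k ∈ ((Finset.univ : Finset (Fin (K + 1))).erase 0).erase i, hSub X hl H k
  l0 := i
  linf := 0
  ne := hi
  u_mem := hSub_mem X hl H i
  D_mem := prod_mem fun k _ => hSub_mem X hl H k
  lu l := unitOrder_hSub X hl H hi l
  lD l hl0 := by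
    have hS : ∀ k ∈ ((Finset.univ : Finset (Fin (K + 1))).erase 0).erase i, k ≠ 0 :=
      fun k hk => Finset.ne_of_mem_erase (Finset.mem_of_mem_erase hk)
    rw [map_prod]
    have := unitOrder_prod (X := X) (((Finset.univ : Finset (Fin (K + 1))).erase 0).erase i)
      fun k hk => unitOrder_hSub X hl H (hS k hk) l
    rw [← Finset.mul_sum, sum_subOrd hS hl0] at this
    convert this using 2
    simp [Finset.mem_erase, hl0]
  desc t ht hnp := by
    have := isDomain_levelRing (A := valK X) (ι := embK X) (M := M)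
    obtain ⟨n, p, hp⟩ := exists_poly_adjH X hl H ht
    obtain ⟨p', hp'⟩ := prod_dvd_of_noPole X hl H hp ((Finset.univ).erase 0)
      fun k hk => ⟨Finset.ne_of_mem_erase hk, hnp k (Finset.ne_of_mem_erase hk)⟩
    rw [← DPoly_eq] at hp'
    rw [hp', map_mul, map_pow, mul_comm t] at hp
    rw [mul_left_cancel₀ (pow_ne_zero n (DPoly_ne_zero X hl H)) hp]
    have hh : hL X hl H ∈ Algebra.adjoin X.O ({hSub X hl H i} : Set (LRing X M)) := by
      rw [show hL X hl H = hSub X hl H i + algebraMap X.O _ (rootO X hl H i) from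
        (sub_add_cancel _ _).symm]
      exact add_mem (Algebra.self_mem_adjoin_singleton _ _) (Subalgebra.algebraMap_mem _ _)
    exact Algebra.adjoin_le (Set.singleton_subset_iff.mpr hh)
      (aeval_mem_adjoin_singleton X.O (hL X hl H))

/-- `u = 1/h`. -/
def dataInv : UData X hl H where
  u := hInv X hl H
  D := ∏ k ∈ ((Finset.univ : Finset (Fin (K + 1))).erase 0).erase 1,
    (hSub X hl H k * hInv X hl H)
  l0 := 0
  linf := 1
  ne := (one_ne_zero_fin hl.small).symm
  u_mem := hInv_mem X hl H
  D_mem := prod_mem fun k _ => mul_mem (hSub_mem X hl H k) (hInv_mem X hl H)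
  lu l := by
    have h := unitOrder_hInv X hl H l
    rw [← mul_neg] at h
    convert h using 2
    have h10 := one_ne_zero_fin hl.small
    rw [subOrd]
    by_cases h0 : l = 0
    · subst h0
      simp [h10.symm]
    · by_cases h1 : l = 1
      · subst h1
        simp [h10]
      · simp [h0, h1]
  lD l hl1 := by
    have h := unitOrder_prod (X := X) (((Finset.univ : Finset (Fin (K + 1))).erase 0).erase 1)
      (f := fun k => evAt X M (cuspRep K l) (hSub X hl H k * hInv X hl H))
      (m := fun k => ((M / K : ℕ) : ℤ) * (subOrd K k l + -subOrd K 1 l))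
      fun k hk => by
        rw [map_mul, mul_add, mul_neg]
        exact UnitOrder.mul'
          (unitOrder_hSub X hl H (Finset.ne_of_mem_erase (Finset.mem_of_mem_erase hk)) l)
          (unitOrder_hInv X hl H l)
    rw [← map_prod, ← Finset.mul_sum] at h
    convert h using 2
    rcases eq_or_ne l 0 with rfl | h0
    · rw [if_pos rfl, Finset.sum_eq_zero fun k hk => ?_]
      obtain ⟨hk1, hk0⟩ := Finset.mem_erase.mp hk
      have := Finset.ne_of_mem_erase hk0
      rw [subOrd, subOrd, if_neg (Ne.symm this), if_pos rfl,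
        if_neg (one_ne_zero_fin hl.small).symm]
      ring
    · rw [if_neg h0, Finset.sum_add_distrib,
        sum_subOrd (fun k hk => Finset.ne_of_mem_erase (Finset.mem_of_mem_erase hk)) h0]
      simp [subOrd, Finset.mem_erase, h0, hl1]
  desc t ht hnp := by
    have := isDomain_levelRing (A := valK X) (ι := embK X) (M := M)
    obtain ⟨n, p, hp⟩ := exists_poly_adjH X hl H ht
    set S := ((Finset.univ : Finset (Fin (K + 1))).erase 0).erase 1
    obtain ⟨p', hp'⟩ := prod_dvd_of_noPole X hl H hp S fun k hk => by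
      obtain ⟨hk1, hk0⟩ := Finset.mem_erase.mp hk
      exact ⟨Finset.ne_of_mem_erase hk0, hnp k hk1⟩
    have hD : DPoly X hl H =
        Polynomial.X * ∏ i ∈ S, (Polynomial.X - Polynomial.C (rootO X hl H i)) := by
      rw [DPoly_eq, ← Finset.mul_prod_erase _ _
        (Finset.mem_erase.mpr ⟨one_ne_zero_fin hl.small, Finset.mem_univ (1 : Fin (K + 1))⟩),
        rootO_one, map_zero, sub_zero]
    have hne : aeval (hL X hl H) (∏ i ∈ S, (Polynomial.X - Polynomial.C (rootO X hl H i))) ≠ 0 :=
      fun h0 => DPoly_ne_zero X hl H (by rw [hD, map_mul, h0, mul_zero])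
    have hth : t * hL X hl H ^ n = aeval (hL X hl H) p' := by
      refine mul_right_cancel₀ (pow_ne_zero n hne) ?_
      rw [hp', hD, map_mul, map_mul, map_pow, aeval_X, mul_pow] at hp
      linear_combination hp
    have hdeg : p'.natDegree ≤ n := by
      by_contra hlt
      push Not at hlt
      have hp0 : p' ≠ 0 := fun h0 => by rw [h0, natDegree_zero] at hlt; omega
      have hh := unitOrder_hSub X hl H (one_ne_zero_fin hl.small) 0
      rw [hSub_one, subOrd, if_neg (one_ne_zero_fin hl.small).symm, if_pos rfl] at hh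
      have h0 := hnp 0 (one_ne_zero_fin hl.small).symm
      rw [cuspRep_zero] at hh h0
      have hcoef := congrArg (fun z : LRing X M => (evAt X M 1 z).coeff
        ((p'.natDegree : ℤ) * ((M / K : ℕ) * -1))) hth
      simp only [map_mul, map_pow, ← aeval_algHom_apply] at hcoef
      have hpos : (0 : ℤ) < (M / K : ℕ) := by exact_mod_cast div_pos_of_dvd hl
      have hlt' : (n : ℤ) < p'.natDegree := by exact_mod_cast hlt
      rw [coeff_mul_below h0 (coeff_pow_below hh.1 n).1 (by nlinarith),
        aeval_eq_sum_range, HahnSeries.coeff_sum, Finset.sum_eq_single p'.natDegree] at hcoef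
      · rw [Algebra.smul_def, X.algebraMap_eq_C, HahnSeries.C_mul_eq_smul, HahnSeries.coeff_smul,
          (coeff_pow_below hh.1 _).2, smul_eq_mul, eq_comm, mul_eq_zero] at hcoef
        rcases hcoef with h | h
        · exact hp0 (leadingCoeff_eq_zero.mp
            (Subtype.ext ((algebraMap X.K Qbar).injective (h.trans (map_zero _).symm))))
        · exact pow_ne_zero _ (UnitOrder_ne_zero hh) h
      · intro i hi hne
        have hlt2 : i < p'.natDegree :=
          lt_of_le_of_ne (by simpa [Nat.lt_succ_iff] using hi) hne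
        have hlt3 : (i : ℤ) < p'.natDegree := by exact_mod_cast hlt2
        rw [Algebra.smul_def, X.algebraMap_eq_C, HahnSeries.C_mul_eq_smul, HahnSeries.coeff_smul,
          (coeff_pow_below hh.1 i).1 _ (by nlinarith), smul_zero]
      · intro h; exact absurd (Finset.self_mem_range_succ _) h
    have hkey : t = ∑ j ∈ Finset.range (p'.natDegree + 1),
        algebraMap X.O _ (p'.coeff j) * hInv X hl H ^ (n - j) := by
      have h1 : hL X hl H ^ n * hInv X hl H ^ n = 1 := by
        rw [← mul_pow, hL_mul_hInv, one_pow]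
      calc t = t * hL X hl H ^ n * hInv X hl H ^ n := by rw [mul_assoc, h1, mul_one]
        _ = _ := by
          rw [hth, aeval_eq_sum_range, Finset.sum_mul]
          refine Finset.sum_congr rfl fun j hj => ?_
          have hjn : j ≤ n := (Nat.lt_succ_iff.mp (Finset.mem_range.mp hj)).trans hdeg
          rw [Algebra.smul_def, mul_assoc]
          congr 1
          rw [show hInv X hl H ^ n = hInv X hl H ^ j * hInv X hl H ^ (n - j) by
            rw [← pow_add, Nat.add_sub_cancel' hjn], ← mul_assoc, ← mul_pow, hL_mul_hInv, one_pow,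
            one_mul]
    rw [hkey]
    exact sum_mem fun j _ => mul_mem (Subalgebra.algebraMap_mem _ _)
      (pow_mem (Algebra.self_mem_adjoin_singleton _ _) _)

end FLTAgent.CarayolSquare.Provider

end
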