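import Fermat.Agent.CarayolSquare.Provider.Hauptmodul
import Fermat.Agent.Deuring.Archimedean
import Mathlib.RingTheory.Polynomial.UniqueFactorization
import Mathlib.RingTheory.DiscreteValuationRing.Basic
import Mathlib.RingTheory.Ideal.GoingUp
import Fermat.Agent.FFBasic.AdjoinFrac

/-!
# The level `M` ring over `O[h, 1/D]`

It is finite (`finite`), integrally closed (`normal`) and unramified modulo `q` (`unram`), which
proves three fields of `Model`.
-/

set_option autoImplicit false

noncomputable section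

open Polynomial
open UpperHalfPlane hiding I
open scoped MatrixGroups
open ModularCurve FLTAgent.LevelM

namespace FLTAgent.CarayolSquare.Provider

local notation "Qbar" => AlgebraicClosure ℚ

variable {q : ℕ} (X : Ctx q) {M K : ℕ} [NeZero M] [NeZero K] (hl : Lvl q M K) (H : Haupt K)

/-- The Galois group. -/
abbrev GK (X : Ctx q) (M K : ℕ) : Type := levelSubgroup (valK X) (embK X) M K

noncomputable instance fintypeGK (X : Ctx q) (M K : ℕ) [NeZero M] : Fintype (GK X M K) :=
  Fintype.ofFinite _

omit [NeZero K] in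
omit [NeZero M] in
theorem smul_eq_self {f : LRing X M} (hf : ∀ γ ∈ CongruenceSubgroup.Gamma K, act γ (f : ℍ → ℂ) = f)
    (g : GK X M K) : g • f = f := by
  obtain ⟨g, hg⟩ := g
  obtain ⟨γ, hγ, rfl⟩ := Subgroup.mem_map.mp hg
  refine Subtype.ext ?_
  rw [Subgroup.mk_smul, levelGroup_smul]
  exact hf _ (inv_mem hγ)

theorem smul_hL (g : GK X M K) : g • hL X hl H = hL X hl H :=
  smul_eq_self X (fun _ hγ => act_hL X hl H hγ) g

theorem smul_wL (g : GK X M K) : g • wL X hl H = wL X hl H :=
  smul_eq_self X (fun _ hγ => H.w_mem.2.1 _ hγ) g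

omit [NeZero K] in
omit [NeZero M] in
theorem smul_const (g : GK X M K) (c : X.O) :
    g • algebraMap X.O (LRing X M) c = algebraMap X.O (LRing X M) c := by
  rw [Subgroup.smul_def]; exact smul_algebraMap X M _ c

theorem smul_adjH (g : GK X M K) {t : LRing X M} (ht : t ∈ adjH X hl H) : g • t = t := by
  induction ht using Algebra.adjoin_induction with
  | mem x hx =>
    rcases hx with rfl | rfl
    · exact smul_hL X hl H g
    · exact smul_wL X hl H g
  | algebraMap c => exact smul_const X g c
  | add a b _ _ ha hb => rw [smul_add, ha, hb]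
  | mul a b _ _ ha hb => rw [smul_mul', ha, hb]

theorem mem_adjH_of_smul {t : LRing X M} (ht : ∀ g : GK X M K, g • t = t) :
    t ∈ adjH X hl H := by
  refine mem_adjH_of_invariant X hl H fun γ hγ => ?_
  have hmem : (levelAutHom (valK X) (embK X) M).rangeRestrict γ⁻¹ ∈
      levelSubgroup (valK X) (embK X) M K := Subgroup.mem_map.mpr ⟨γ⁻¹, inv_mem hγ, rfl⟩
  have := congrArg Subtype.val (ht ⟨_, hmem⟩)
  rw [Subgroup.mk_smul, levelGroup_smul, inv_inv] at this
  exact this

/-- The trace. -/
def trace (K : ℕ) (f : LRing X M) : LRing X M := ∑ g : GK X M K, g • f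

theorem trace_mem (f : LRing X M) : trace X K f ∈ adjH X hl H := by
  refine mem_adjH_of_smul X hl H fun g => ?_
  rw [trace, Finset.smul_sum]
  exact Fintype.sum_bijective _ (Group.mulLeft_bijective g) _ _ fun g' => by rw [smul_smul]

/-- A dual basis. -/
theorem exists_dual (hl : Lvl q M K) :
    ∃ (I : Type) (_ : Fintype I) (x y : I → LRing X M),
      ∀ f : LRing X M, f = ∑ i, x i * trace X K (y i * f) := by
  obtain ⟨I, hI, x, y, h1, h2⟩ := levelRing_galois (A := valK X) (ι := embK X) hl.small hl.dvd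
    (goodRing X (Nat.pos_of_ne_zero (NeZero.ne M)) hl.notdvd)
  refine ⟨I, hI, x, y, fun f => ?_⟩
  simp only [trace, Finset.mul_sum, smul_mul', ← mul_assoc]
  rw [Finset.sum_comm]
  simp only [← Finset.sum_mul]
  rw [Finset.sum_eq_single (1 : GK X M K)]
  · simp [h1]
  · exact fun g _ hg => by rw [h2 g hg, zero_mul]
  · exact fun h => absurd (Finset.mem_univ _) h

/-- `O[h, 1/D]` as series. -/
abbrev adjS : Subalgebra X.O Ser :=
  Algebra.adjoin X.O ({(hC X hl H : Ser), (DC X hl H : Ser)} : Set Ser)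

theorem map_adjH : (adjH X hl H).map (evO X M) = adjS X hl H := by
  rw [AlgHom.map_adjoin, Set.image_pair]
  rfl

theorem ev_mem_adjS {t : LRing X M} (ht : t ∈ adjH X hl H) : ev X M t ∈ adjS X hl H := by
  rw [← map_adjH]
  exact ⟨t, ht, rfl⟩

theorem adjS_le : adjS X hl H ≤ CRing X M := by
  refine Algebra.adjoin_le ?_
  rintro z (rfl | rfl) <;> exact SetLike.coe_mem _

/-- `C` is finite over `O[h, 1/D]`. -/
theorem finite :
    ∃ S : Finset Ser, ∀ c ∈ CRing X M, c ∈ Submodule.span (adjS X hl H) (S : Set Ser) := by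
  classical
  obtain ⟨I, _, x, y, hdual⟩ := exists_dual X hl
  refine ⟨Finset.univ.image fun i => ev X M (x i), fun c hc => ?_⟩
  obtain ⟨f, rfl⟩ := mem_CRing.mp hc
  rw [hdual f, map_sum]
  refine Submodule.sum_mem _ fun i _ => ?_
  rw [map_mul, mul_comm]
  exact Submodule.smul_mem _ (⟨_, ev_mem_adjS X hl H (trace_mem X hl H _)⟩ : adjS X hl H)
    (Submodule.subset_span (Finset.mem_coe.mpr
      (Finset.mem_image_of_mem (fun i => ev X M (x i)) (Finset.mem_univ i))))

/-- Every element is integral over the invariants. -/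
theorem isIntegral_adjH (f : LRing X M) : IsIntegral (adjH X hl H) f := by
  have hcoeff : ∀ n, (prodXSubSMul (GK X M K) (LRing X M) f).coeff n ∈ adjH X hl H := fun n =>
    mem_adjH_of_smul X hl H fun g => prodXSubSMul.coeff _ _ f g n
  obtain ⟨P, hP, -, hPm⟩ := lifts_and_degree_eq_and_monic
    (f := algebraMap (adjH X hl H) (LRing X M)) (p := prodXSubSMul (GK X M K) (LRing X M) f)
    ((lifts_iff_coeff_lifts _).mpr fun n => ⟨⟨_, hcoeff n⟩, rfl⟩) (prodXSubSMul.monic _ _ f)
  refine ⟨P, hPm, ?_⟩
  rw [← eval_map, hP, prodXSubSMul.eval]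

/-! ### `O[h]` -/

/-- The cusp polynomial. -/
def DPoly : Polynomial X.O := ∏ a ∈ roots X hl H, (Polynomial.X - Polynomial.C a)

omit [NeZero M] in
theorem eval_DPoly {R : Type} [CommRing R] [Algebra X.O R] (h : R) :
    aeval h (DPoly X hl H) = ∏ a ∈ roots X hl H, (h - algebraMap X.O R a) := by
  rw [DPoly, map_prod]
  exact Finset.prod_congr rfl fun a _ => by rw [map_sub, aeval_X, aeval_C]

theorem DS_mul : (DC X hl H : Ser) * aeval (hC X hl H : Ser) (DPoly X hl H) = 1 := by
  have := congrArg (ev X M) (wL_mul X hl H)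
  rw [map_mul, map_prod, map_one] at this
  simp only [map_sub, ev_algebraMap] at this
  rw [eval_DPoly, hC, DC, coe_equivC, coe_equivC]
  exact this

theorem exists_poly_repr {t : Ser} (ht : t ∈ adjS X hl H) :
    ∃ (n : ℕ) (p : Polynomial X.O),
      t * aeval (hC X hl H : Ser) (DPoly X hl H) ^ n = aeval (hC X hl H : Ser) p := by
  induction ht using Algebra.adjoin_induction with
  | mem x hx =>
    rcases hx with rfl | rfl
    · exact ⟨0, Polynomial.X, by simp⟩
    · exact ⟨1, 1, by rw [pow_one, DS_mul, map_one]⟩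
  | algebraMap c => exact ⟨0, Polynomial.C c, by simp⟩
  | add a b _ _ ha hb =>
    obtain ⟨n, p, hp⟩ := ha
    obtain ⟨m, r, hr⟩ := hb
    refine ⟨n + m, p * DPoly X hl H ^ m + r * DPoly X hl H ^ n, ?_⟩
    rw [map_add, map_mul, map_mul, map_pow, map_pow, ← hp, ← hr, pow_add]
    ring
  | mul a b _ _ ha hb =>
    obtain ⟨n, p, hp⟩ := ha
    obtain ⟨m, r, hr⟩ := hb
    refine ⟨n + m, p * r, ?_⟩
    rw [map_mul, ← hp, ← hr, pow_add]
    ring

theorem mem_adjS_of_mul_pow {t : Ser} {n : ℕ} {p : Polynomial X.O}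
    (h : t * aeval (hC X hl H : Ser) (DPoly X hl H) ^ n = aeval (hC X hl H : Ser) p) :
    t ∈ adjS X hl H := by
  have : t = aeval (hC X hl H : Ser) p * (DC X hl H : Ser) ^ n := by
    rw [← h, mul_assoc, ← mul_pow, mul_comm _ (DC X hl H : Ser), DS_mul, one_pow, mul_one]
  rw [this]
  have hD : (DC X hl H : Ser) ∈ adjS X hl H :=
    Algebra.subset_adjoin (Set.mem_insert_of_mem _ rfl)
  have hle : Algebra.adjoin X.O ({(hC X hl H : Ser)} : Set Ser) ≤ adjS X hl H :=
    Algebra.adjoin_mono (Set.singleton_subset_iff.mpr (Set.mem_insert _ _))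
  exact (adjS X hl H).mul_mem
    (hle (aeval_mem_adjoin_singleton X.O (hC X hl H : Ser) (p := p)))
    ((adjS X hl H).pow_mem hD n)

theorem aeval_hC_injective :
    Function.Injective (aeval (R := X.O) (hC X hl H : Ser)) := by
  rw [injective_iff_map_eq_zero]
  intro p hp
  by_contra hp0
  obtain ⟨e, he, -, h1, h2⟩ := h_order X hl H
  have hc := congrArg (fun s : Ser => s.coeff ((p.natDegree : ℤ) * (-(e : ℤ)))) hp
  simp only [aeval_eq_sum_range, HahnSeries.coeff_sum, HahnSeries.coeff_zero] at hc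
  rw [Finset.sum_eq_single p.natDegree] at hc
  · rw [Algebra.smul_def, X.algebraMap_eq_C, HahnSeries.C_mul_eq_smul, HahnSeries.coeff_smul,
      (coeff_pow_below h1 _).2, smul_eq_mul, mul_eq_zero] at hc
    rcases hc with h | h
    · exact hp0 (leadingCoeff_eq_zero.mp
        (Subtype.ext ((algebraMap X.K Qbar).injective (h.trans (map_zero _).symm))))
    · have hne : (hC X hl H : Ser).coeff (-(e : ℤ)) ≠ 0 := fun h0 => by
        rw [h0, map_zero] at h2; exact zero_ne_one h2
      exact pow_ne_zero _ hne h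
  · intro i hi hne
    have hlt : i < p.natDegree := lt_of_le_of_ne (by simpa [Nat.lt_succ_iff] using hi) hne
    rw [Algebra.smul_def, X.algebraMap_eq_C, HahnSeries.C_mul_eq_smul, HahnSeries.coeff_smul,
      (coeff_pow_below h1 i).1 _ (by
        have hi' : (i : ℤ) < p.natDegree := by exact_mod_cast hlt
        have he' : (0 : ℤ) < e := by exact_mod_cast he
        nlinarith), smul_zero]
  · intro h; exact absurd (Finset.self_mem_range_succ _) h

/-- Elements of the fraction field as quotients. -/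
theorem exists_frac {z : Ser} (hz : z ∈ IntermediateField.adjoin X.K (CRing X M : Set Ser)) :
    ∃ a b : LRing X M, ev X M b ≠ 0 ∧ z * ev X M b = ev X M a := by
  refine FFBasic.exists_mul_eq_of_mem_adjoin (ev X M) (fun c => ?_)
    (fun x hx => ?_) hz
  · obtain ⟨a, b, hb, h⟩ := X.exists_div_O c
    refine ⟨algebraMap X.O _ a, algebraMap X.O _ b, ?_, ?_⟩
    · rw [ev_algebraMap, X.algebraMap_eq]
      exact (_root_.map_ne_zero _).mpr fun h0 => hb (Subtype.ext h0)
    · rw [ev_algebraMap, ev_algebraMap, X.algebraMap_eq, X.algebraMap_eq,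
        ← map_mul]
      exact congrArg _ h
  · obtain ⟨f, rfl⟩ := mem_CRing.mp hx
    exact ⟨f, 1, by rw [map_one]; exact one_ne_zero, by rw [map_one, mul_one]⟩

/-- Descent of an integral quotient along the group: translates of an integral quotient are
integral. -/
theorem isIntegral_smul_div {z : Ser} (hz : IsIntegral (adjS X hl H) z) {a N : LRing X M}
    (hN : N ∈ adjH X hl H) (hN0 : ev X M N ≠ 0) (ha : z * ev X M N = ev X M a) (g : GK X M K) :
    IsIntegral (adjS X hl H) (ev X M (g • a) / ev X M N) := by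
  obtain ⟨P, hPm, hP⟩ := hz
  set f : adjH X hl H →+* adjS X hl H :=
    ((ev X M).comp (adjH X hl H).val.toRingHom).codRestrict _
      (fun t => ev_mem_adjS X hl H t.2) with hf
  have hsurj : Function.Surjective f := by
    rintro ⟨s, hs⟩
    rw [← map_adjH] at hs
    obtain ⟨t, ht, rfl⟩ := hs
    exact ⟨⟨t, ht⟩, rfl⟩
  obtain ⟨Q, hQ, -, hQm⟩ := lifts_and_degree_eq_and_monic
    (f := f) (p := P) ((lifts_iff_coeff_lifts _).mpr fun n => hsurj _) hPm
  let ι : adjH X hl H →+* Ser := (ev X M).comp (adjH X hl H).val.toRingHom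
  have hι : eval₂ ι z Q = 0 := by
    rw [← hQ, eval₂_map] at hP
    exact hP
  set Q' := Q.scaleRoots (⟨N, hN⟩ : adjH X hl H)
  have h1 : eval₂ (adjH X hl H).val.toRingHom a Q' = 0 := by
    refine ev_injective ?_
    rw [Polynomial.hom_eval₂, map_zero]
    show eval₂ ι (ev X M a) Q' = 0
    rw [← ha, mul_comm]
    exact (scaleRoots_eval₂_mul ι z ⟨N, hN⟩).trans (by rw [hι, mul_zero])
  have h2 : eval₂ (adjH X hl H).val.toRingHom (g • a) Q' = 0 := by
    have := congrArg (MulSemiringAction.toRingHom (GK X M K) (LRing X M) g) h1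
    rw [Polynomial.hom_eval₂, map_zero] at this
    rw [show (MulSemiringAction.toRingHom (GK X M K) (LRing X M) g).comp
      (adjH X hl H).val.toRingHom = (adjH X hl H).val.toRingHom from
        RingHom.ext fun t => smul_adjH X hl H g t.2] at this
    exact this
  refine ⟨P, hPm, ?_⟩
  rw [← hQ, eval₂_map]
  show eval₂ ι _ Q = 0
  have h3 := congrArg (ev X M) h2
  rw [Polynomial.hom_eval₂, map_zero] at h3
  have h4 : eval₂ ι (ι ⟨N, hN⟩ * (ev X M (g • a) / ev X M N)) Q' = 0 := by
    rw [show ι ⟨N, hN⟩ = ev X M N from rfl, mul_div_cancel₀ _ hN0]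
    exact h3
  rw [scaleRoots_eval₂_mul ι, mul_eq_zero] at h4
  exact h4.resolve_left (pow_ne_zero _ hN0)

/-- `C` is integrally closed. -/
theorem normal (z : Ser) (hz : z ∈ IntermediateField.adjoin X.K (CRing X M : Set Ser))
    (hint : z ∈ intSet X.O ({(hC X hl H : Ser), (DC X hl H : Ser)} : Set Ser)) :
    z ∈ CRing X M := by
  classical
  have : IsDiscreteValuationRing X.O := X.dvr
  replace hint : IsIntegral (adjS X hl H) z := mem_intSet.mp hint
  obtain ⟨a, b, hb, hab⟩ := exists_frac X hz
  set N := ∏ g : GK X M K, g • b with hNdef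
  have hN : N ∈ adjH X hl H := mem_adjH_of_smul X hl H fun g => by
    rw [hNdef, Finset.smul_prod']
    exact Fintype.prod_bijective _ (Group.mulLeft_bijective g) _ _ fun g' => by rw [smul_smul]
  have hdom : ∀ g : GK X M K, ev X M (g • b) ≠ 0 := fun g h0 => hb (by
    rw [← map_zero (ev X M)] at h0 ⊢
    exact congrArg _ (MulAction.injective g ((ev_injective h0).trans (smul_zero g).symm)))
  have hN0 : ev X M N ≠ 0 := by
    rw [hNdef, map_prod]; exact Finset.prod_ne_zero_iff.mpr fun g _ => hdom g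
  set a' := a * ∏ g ∈ (Finset.univ : Finset (GK X M K)).erase 1, g • b with ha'def
  have ha' : z * ev X M N = ev X M a' := by
    rw [hNdef, ← Finset.mul_prod_erase _ _ (Finset.mem_univ (1 : GK X M K)), one_smul, ha'def,
      map_mul, map_mul, ← mul_assoc, hab]
  obtain ⟨I, _, x, y, hdual⟩ := exists_dual X hl
  set t : I → Ser := fun i => ev X M (trace X K (y i * a')) / ev X M N with ht
  have hsum : z = ∑ i, ev X M (x i) * t i := by
    refine mul_right_cancel₀ hN0 ?_
    rw [ha', Finset.sum_mul, hdual a', map_sum]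
    exact Finset.sum_congr rfl fun i _ => by
      rw [map_mul, ht, mul_assoc, div_mul_cancel₀ _ hN0]
  have hmem : ∀ i, t i ∈ adjS X hl H := by
    intro i
    have hti : IsIntegral (adjS X hl H) (t i) := by
      rw [ht]
      simp only [trace, map_sum, Finset.sum_div, smul_mul', map_mul, mul_div_assoc]
      refine IsIntegral.sum _ fun g _ => IsIntegral.mul ?_
        (isIntegral_smul_div X hl H hint hN hN0 ha' g)
      obtain ⟨P, hPm, hP⟩ := isIntegral_adjH X hl H (g • y i)
      refine ⟨P.map (((ev X M).comp (adjH X hl H).val.toRingHom).codRestrict _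
        (fun u => ev_mem_adjS X hl H u.2)), hPm.map _, ?_⟩
      have := congrArg (ev X M) hP
      rw [Polynomial.hom_eval₂, map_zero] at this
      rw [eval₂_map]
      exact this
    obtain ⟨m, p, hp⟩ := exists_poly_repr X hl H
      (ev_mem_adjS X hl H (trace_mem X hl H (y i * a')))
    obtain ⟨m', p', hp'⟩ := exists_poly_repr X hl H (ev_mem_adjS X hl H hN)
    set φ : Polynomial X.O →+* Ser := (aeval (hC X hl H : Ser)).toRingHom
    have hD0 : φ (DPoly X hl H) ≠ 0 := fun h0 => one_ne_zero ((DS_mul X hl H).symm.trans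
      (by rw [show aeval (hC X hl H : Ser) (DPoly X hl H) = 0 from h0, mul_zero]))
    obtain ⟨n, s, hs⟩ := exists_mul_pow_mem_range_of_isIntegralElem φ (aeval_hC_injective X hl H)
      (algebraMap (adjS X hl H) Ser) (DPoly X hl H)
      (fun u => exists_poly_repr X hl H u.2)
      (z := t i) (a := p * DPoly X hl H ^ m') (b := p' * DPoly X hl H ^ m) (by
        intro h0
        have := congrArg φ h0
        rw [map_mul, map_pow, map_zero, mul_eq_zero] at this
        rcases this with h | h
        · have h5 : ev X M N * φ (DPoly X hl H) ^ m' = 0 := hp'.trans h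
          exact mul_ne_zero hN0 (pow_ne_zero _ hD0) h5
        · exact pow_ne_zero _ hD0 h) (by
        show t i * φ (p' * DPoly X hl H ^ m) = φ (p * DPoly X hl H ^ m')
        have e1 : φ p = ev X M (trace X K (y i * a')) * φ (DPoly X hl H) ^ m := hp.symm
        have e2 : φ p' = ev X M N * φ (DPoly X hl H) ^ m' := hp'.symm
        rw [map_mul, map_mul, map_pow, map_pow, e1, e2, ht]
        field_simp) hti
    exact mem_adjS_of_mul_pow X hl H hs
  rw [hsum]
  exact sum_mem fun i _ => mul_mem ⟨x i, rfl⟩ (adjS_le X hl H (hmem i))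

/-! ### Unramified modulo `q` -/

/-- Reduction of `O`. -/
def redO : X.O →+* IsLocalRing.ResidueField X.A :=
  (IsLocalRing.residue X.A).comp
    { toFun := fun c => ⟨algebraMap X.K Qbar (c : X.K), c.2⟩
      map_one' := Subtype.ext (map_one _)
      map_zero' := Subtype.ext (map_zero _)
      map_add' := fun _ _ => Subtype.ext (map_add _ _ _)
      map_mul' := fun _ _ => Subtype.ext (map_mul _ _ _) }

theorem redO_surjective : Function.Surjective (redO X) := by
  intro x
  obtain ⟨a, rfl⟩ := IsLocalRing.residue_surjective x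
  obtain ⟨c, hc⟩ := X.res_surj a a.2
  refine ⟨c, ?_⟩
  refine (sub_eq_zero.mp ?_).symm
  rw [redO, RingHom.comp_apply, ← map_sub, IsLocalRing.residue_eq_zero_iff,
    IsLocalRing.mem_maximalIdeal, mem_nonunits_iff, ValuationSubring.valuation_eq_one_iff]
  exact hc.ne

theorem q_dvd_of_redO {c : X.O} (h : redO X c = 0) : (q : X.O) ∣ c := by
  refine q_dvd_of_valuation_lt_one X (lt_of_le_of_ne ((X.A.valuation_le_one_iff _).mpr c.2) ?_)
  rw [redO, RingHom.comp_apply, IsLocalRing.residue_eq_zero_iff, IsLocalRing.mem_maximalIdeal,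
    mem_nonunits_iff, ValuationSubring.valuation_eq_one_iff] at h
  exact h

theorem redO_q : redO X (q : X.O) = 0 := by
  have h : redO X (q : X.O) = IsLocalRing.residue X.A (q : X.A) := by
    rw [map_natCast, map_natCast]
  rw [h, IsLocalRing.residue_eq_zero_iff, IsLocalRing.mem_maximalIdeal, mem_nonunits_iff,
    ValuationSubring.valuation_eq_one_iff]
  exact X.q_lt_one.ne

omit [NeZero M] in
theorem isUnit_DPoly_eval {c : X.O} (hc : ∀ a ∈ roots X hl H, IsUnit (c - a)) :
    IsUnit ((DPoly X hl H).eval c) := by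
  rw [DPoly, eval_prod]
  exact IsUnit.prod_iff.mpr fun a ha => by rw [eval_sub, eval_X, eval_C]; exact hc a ha

/-- An element of `O[h, 1/D]` is a constant modulo `h - c`. -/
theorem exists_const_mod {c : X.O} (hc : ∀ a ∈ roots X hl H, IsUnit (c - a)) {t : LRing X M}
    (ht : t ∈ adjH X hl H) :
    ∃ c₀ : X.O, ∃ u ∈ adjH X hl H,
      t = algebraMap X.O _ c₀ + (hL X hl H - algebraMap X.O _ c) * u := by
  induction ht using Algebra.adjoin_induction with
  | mem x hx =>
    rcases hx with rfl | rfl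
    · exact ⟨c, 1, one_mem _, by ring⟩
    · obtain ⟨d, hd⟩ := isUnit_iff_exists_inv.mp (isUnit_DPoly_eval X hl H hc)
      obtain ⟨v, hv⟩ := X_sub_C_dvd_sub_C_eval (a := c) (p := DPoly X hl H)
      have h := congrArg (aeval (hL X hl H)) hv
      rw [map_sub, map_mul, map_sub, aeval_X, aeval_C, aeval_C, eval_DPoly] at h
      have hw := wL_mul X hl H
      set P := ∏ a ∈ roots X hl H, (hL X hl H - algebraMap X.O (LRing X M) a)
      have hd' := congrArg (algebraMap X.O (LRing X M)) hd
      rw [map_mul, map_one] at hd'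
      refine ⟨d, -(wL X hl H * algebraMap X.O _ d * aeval (hL X hl H) v), ?_, ?_⟩
      · refine neg_mem (mul_mem (mul_mem (Algebra.subset_adjoin (Set.mem_insert_of_mem _ rfl))
          ((adjH X hl H).algebraMap_mem d)) ?_)
        exact Algebra.adjoin_mono (Set.singleton_subset_iff.mpr (Set.mem_insert _ _))
          (aeval_mem_adjoin_singleton X.O _)
      · linear_combination (-(algebraMap X.O (LRing X M) d * wL X hl H)) * h -
          (wL X hl H) * hd' + (algebraMap X.O (LRing X M) d) * hw
  | algebraMap r => exact ⟨r, 0, zero_mem _, by rw [mul_zero, add_zero]⟩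
  | add a b _ _ ha hb =>
    obtain ⟨a₀, u, hu, rfl⟩ := ha
    obtain ⟨b₀, v, hv, rfl⟩ := hb
    exact ⟨a₀ + b₀, u + v, add_mem hu hv, by rw [map_add]; ring⟩
  | mul a b _ hbm ha hb =>
    obtain ⟨a₀, u, hu, rfl⟩ := ha
    obtain ⟨b₀, v, hv, hb'⟩ := hb
    refine ⟨a₀ * b₀, u * b + algebraMap X.O _ a₀ * v,
      add_mem (mul_mem hu hbm) (mul_mem ((adjH X hl H).algebraMap_mem _) hv), ?_⟩
    rw [map_mul]
    linear_combination (algebraMap X.O (LRing X M) a₀) * hb'

/-- Points over `(q, h - c)` exist. -/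
theorem exists_point {c : X.O} (hc : ∀ a ∈ roots X hl H, IsUnit (c - a)) :
    ∃ φ : LRing X M →+* IsLocalRing.ResidueField X.A,
      (∀ r : X.O, φ (algebraMap X.O _ r) = redO X r) ∧
      φ (hL X hl H - algebraMap X.O _ c) = 0 := by
  have := X.dvr
  set hc' : adjH X hl H := ⟨hL X hl H - algebraMap X.O _ c,
    sub_mem (Algebra.subset_adjoin (Set.mem_insert _ _)) ((adjH X hl H).algebraMap_mem c)⟩
  set q' : adjH X hl H := algebraMap X.O _ (q : X.O)
  have hJ : Ideal.span {q', hc'} ≠ ⊤ := by
    intro htop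
    obtain ⟨a, b, hab⟩ := Ideal.mem_span_pair.mp ((Ideal.eq_top_iff_one _).mp htop)
    have h1 : ev X M ((a : LRing X M) * algebraMap X.O _ (q : X.O) +
        (b : LRing X M) * (hL X hl H - algebraMap X.O _ c)) = 1 := by
      rw [← map_one (ev X M)]
      exact congrArg (ev X M) (congrArg Subtype.val hab)
    obtain ⟨n, A, hA⟩ := exists_poly_repr X hl H (ev_mem_adjS X hl H a.2)
    obtain ⟨m, B, hB⟩ := exists_poly_repr X hl H (ev_mem_adjS X hl H b.2)
    have hD := DS_mul X hl H
    set D := DPoly X hl H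
    have h2 : D ^ (n + m) = A * Polynomial.C (q : X.O) * D ^ m +
        B * (Polynomial.X - Polynomial.C c) * D ^ n := by
      refine aeval_hC_injective X hl H ?_
      rw [map_add, map_mul, map_mul, map_mul, map_mul, map_pow, map_pow, map_pow, map_sub,
        aeval_X, aeval_C, aeval_C, ← hA, ← hB]
      rw [map_add, map_mul, map_mul, map_sub, ev_algebraMap, ev_algebraMap] at h1
      change _ = _ + _ * ((hC X hl H : Ser) - _) * _
      rw [show (hC X hl H : Ser) = ev X M (hL X hl H) from rfl] at *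
      linear_combination -(aeval (ev X M (hL X hl H)) D ^ (n + m)) * h1
    have h3 := congrArg (Polynomial.eval c) h2
    simp only [eval_add, eval_mul, eval_pow, eval_C, eval_sub, eval_X, sub_self, mul_zero,
      zero_mul, add_zero] at h3
    have hu : IsUnit ((q : X.O)) := by
      refine isUnit_of_dvd_unit ⟨A.eval c * D.eval c ^ m, ?_⟩
        ((isUnit_DPoly_eval X hl H hc).pow (n + m))
      rw [h3]; ring
    exact X.irreducible_q.not_isUnit hu
  obtain ⟨m, hm, hJm⟩ := Ideal.exists_le_maximal _ hJ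
  have : Algebra.IsIntegral (adjH X hl H) (LRing X M) := ⟨isIntegral_adjH X hl H⟩
  obtain ⟨Q, hQ, hQm⟩ := Ideal.exists_ideal_over_maximal_of_isIntegral (S := LRing X M) m
    (fun t ht => by
      rw [show t = 0 from Subtype.ext ht]
      exact zero_mem _)
  have hmk0 : ∀ u ∈ Ideal.span {q', hc'}, Ideal.Quotient.mk Q (u : LRing X M) = 0 := fun u hu => by
    rw [Ideal.Quotient.eq_zero_iff_mem]
    have := hJm hu
    rw [← hQm] at this
    exact this
  let := Ideal.Quotient.field Q
  set θ : X.O →+* LRing X M ⧸ Q := (Ideal.Quotient.mk Q).comp (algebraMap X.O (LRing X M))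
  have hker : RingHom.ker (redO X) ≤ RingHom.ker θ := by
    intro r hr
    obtain ⟨d, rfl⟩ := q_dvd_of_redO X hr
    rw [RingHom.mem_ker, map_mul]
    have : θ (q : X.O) = 0 := hmk0 q' (Ideal.subset_span (Set.mem_insert _ _))
    rw [this, zero_mul]
  set σ : IsLocalRing.ResidueField X.A →+* LRing X M ⧸ Q :=
    (redO X).liftOfRightInverse _ (Function.rightInverse_surjInv (redO_surjective X)) ⟨θ, hker⟩
  have hσ : ∀ r, σ (redO X r) = θ r := fun r =>
    RingHom.liftOfRightInverse_comp_apply _ _ _ _ r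
  let := σ.toAlgebra
  have : IsAlgClosed (IsLocalRing.ResidueField X.A) := Deuring.isAlgClosed_residueField X.A
  have : Algebra.IsIntegral (IsLocalRing.ResidueField X.A) (LRing X M ⧸ Q) := ⟨fun x => by
    obtain ⟨f, rfl⟩ := Ideal.Quotient.mk_surjective x
    obtain ⟨P, hPm, hP⟩ := isIntegral_adjH X hl H f
    have hco : ∀ t : adjH X hl H, ∃ r : X.O,
        Ideal.Quotient.mk Q (t : LRing X M) = θ r := by
      intro t
      obtain ⟨r, u, hu, he⟩ := exists_const_mod X hl H hc t.2
      refine ⟨r, ?_⟩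
      rw [he, map_add, map_mul,
        show Ideal.Quotient.mk Q (hL X hl H - algebraMap X.O _ c) = 0 from
          hmk0 hc' (Ideal.subset_span (Set.mem_insert_of_mem _ rfl)), zero_mul, add_zero]
      rfl
    obtain ⟨P', hP', -, hP'm⟩ := lifts_and_degree_eq_and_monic (f := σ)
      (p := P.map ((Ideal.Quotient.mk Q).comp (adjH X hl H).val.toRingHom))
      ((lifts_iff_coeff_lifts _).mpr fun n => by
        obtain ⟨r, hr⟩ := hco (P.coeff n)
        exact ⟨redO X r, (hσ r).trans (by rw [coeff_map]; exact hr.symm)⟩) (hPm.map _)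
    refine ⟨P', hP'm, ?_⟩
    rw [show algebraMap (IsLocalRing.ResidueField X.A) (LRing X M ⧸ Q) = σ from rfl, ← eval_map,
      hP', eval_map]
    have := congrArg (Ideal.Quotient.mk Q) hP
    rw [Polynomial.hom_eval₂, map_zero] at this
    exact this⟩
  let e := RingEquiv.ofBijective σ
    (IsAlgClosed.algebraMap_bijective_of_isIntegral (k := IsLocalRing.ResidueField X.A)
      (K := LRing X M ⧸ Q))
  refine ⟨e.symm.toRingHom.comp (Ideal.Quotient.mk Q), fun r => ?_, ?_⟩
  · show e.symm (θ r) = _
    rw [← hσ]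
    exact e.symm_apply_apply _
  · show e.symm (Ideal.Quotient.mk Q (hc' : LRing X M)) = 0
    rw [hmk0 hc' (Ideal.subset_span (Set.mem_insert_of_mem _ rfl)), map_zero]

/-- `C` is unramified over `O[h, 1/D]` modulo `q`. -/
theorem unram (c : X.O) (hc : ∀ a ∈ roots X hl H, IsUnit (c - a)) (z : CRing X M)
    (hz : ∀ φ : CRing X M →+* IsLocalRing.ResidueField X.A,
      φ (q : CRing X M) = 0 → φ (hC X hl H - algebraMap X.O _ c) = 0 → φ z = 0) :
    z ∈ Ideal.span {(q : CRing X M), hC X hl H - algebraMap X.O _ c} := by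
  obtain ⟨φ, hφO, hφh⟩ := exists_point X hl H hc
  obtain ⟨I, _, x, y, hdual⟩ := exists_dual X hl
  set f := (equivC X M).symm z
  have hfix : ∀ g : GK X M K, φ (g • f) = 0 := by
    intro g
    refine hz ((φ.comp (MulSemiringAction.toRingHom (GK X M K) (LRing X M) g)).comp
      (equivC X M).symm.toRingEquiv.toRingHom) ?_ ?_
    · rw [← map_natCast (algebraMap X.O (CRing X M))]
      show φ (g • (equivC X M).symm (algebraMap X.O _ (q : X.O))) = 0
      rw [AlgEquiv.commutes, smul_const, hφO, redO_q]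
    · show φ (g • (equivC X M).symm (hC X hl H - algebraMap X.O _ c)) = 0
      rw [map_sub, AlgEquiv.commutes, hC, AlgEquiv.symm_apply_apply, smul_sub, smul_hL,
        smul_const, hφh]
  have hT : ∀ i, equivC X M (trace X K (y i * f)) ∈
      Ideal.span {(q : CRing X M), hC X hl H - algebraMap X.O _ c} := by
    intro i
    obtain ⟨c₀, u, -, he⟩ := exists_const_mod X hl H hc (trace_mem X hl H (y i * f))
    have h0 : redO X c₀ = 0 := by
      have h1 : φ (trace X K (y i * f)) = 0 := by
        rw [trace, map_sum]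
        exact Finset.sum_eq_zero fun g _ => by rw [smul_mul', map_mul, hfix g, mul_zero]
      rw [he, map_add, map_mul, hφh, zero_mul, add_zero, hφO] at h1
      exact h1
    obtain ⟨d, rfl⟩ := q_dvd_of_redO X h0
    refine Ideal.mem_span_pair.mpr ⟨algebraMap X.O _ d, equivC X M u, ?_⟩
    simp only [he, map_add, map_mul, map_sub, AlgEquiv.commutes, map_natCast, hC]
    ring
  rw [show z = equivC X M f from ((equivC X M).apply_symm_apply z).symm, hdual f, map_sum]
  exact sum_mem fun i _ => by rw [map_mul]; exact Ideal.mul_mem_left _ _ (hT i)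

end FLTAgent.CarayolSquare.Provider

end
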