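import Fermat.Agent.LevelM.HauptPoly
import Fermat.Agent.LevelM.Galois
import Mathlib.Analysis.Calculus.Deriv.Star

/-!
# The normalised Hauptmodul of level `2` or `3`

`exists_haupt`: a Hauptmodul with a simple pole with coefficient `1` at `∞`, a zero at the cusp
`0`, coefficients in `ℤ[ζ_K, 1/K]` and real expansion.
-/

set_option autoImplicit false

noncomputable section

open Filter Complex
open UpperHalfPlane hiding I
open scoped UpperHalfPlane Real MatrixGroups Manifold ComplexConjugate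
open FLTAgent.LevelM

namespace FLTAgent.CarayolSquare.Provider

local notation "𝕢" => Function.Periodic.qParam

/-! ### Reflection in the imaginary axis -/

/-- `τ ↦ -conj τ`. -/
def negConj (τ : ℍ) : ℍ := ⟨-conj (τ : ℂ), by simpa using τ.im_pos⟩

theorem coe_negConj (τ : ℍ) : (negConj τ : ℂ) = -conj (τ : ℂ) := rfl

/-- The reflected matrix. -/
def flipSL (γ : SL(2, ℤ)) : SL(2, ℤ) :=
  ⟨!![γ 0 0, -γ 0 1; -γ 1 0, γ 1 1], by
    have h := γ.2
    rw [Matrix.det_fin_two] at h
    rw [Matrix.det_fin_two_of]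
    linear_combination h⟩

theorem negConj_smul (γ : SL(2, ℤ)) (τ : ℍ) : negConj (γ • τ) = flipSL γ • negConj τ := by
  refine UpperHalfPlane.ext ?_
  rw [coe_negConj, UpperHalfPlane.coe_specialLinearGroup_apply,
    UpperHalfPlane.coe_specialLinearGroup_apply, coe_negConj]
  simp [flipSL, map_div₀]
  ring

/-- `conj f (-conj τ)`. -/
def bar (f : ℍ → ℂ) : ℍ → ℂ := fun τ => conj (f (negConj τ))

theorem act_bar (γ : SL(2, ℤ)) (f : ℍ → ℂ) : act γ (bar f) = bar (act (flipSL γ) f) := by
  funext τ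
  rw [act_apply, bar, negConj_smul]
  rfl

theorem mdiff_bar {f : ℍ → ℂ} (hf : MDiff f) : MDiff (bar f) := by
  rw [UpperHalfPlane.mdifferentiable_iff] at hf ⊢
  intro z hz
  have hopen : IsOpen {z : ℂ | 0 < z.im} := isOpen_lt continuous_const Complex.continuous_im
  have hx : 0 < (-conj z).im := by simpa using hz
  have h1 := (hf.differentiableAt (hopen.mem_nhds hx)).conj_conj
  rw [map_neg, Complex.conj_conj] at h1
  refine DifferentiableAt.differentiableWithinAt ?_
  refine (h1.comp z differentiableAt_id.neg).congr_of_eventuallyEq ?_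
  filter_upwards [hopen.mem_nhds hz] with w hw
  simp only [Function.comp_apply, bar]
  congr 2
  refine UpperHalfPlane.ext ?_
  have hw' : 0 < (-conj w).im := by simpa using hw
  rw [coe_negConj, UpperHalfPlane.ofComplex_apply_of_im_pos hw,
    map_neg, UpperHalfPlane.ofComplex_apply_of_im_pos hw']

theorem hasExp_bar {h : ℕ} {f : ℍ → ℂ} {s : LaurentSeries ℂ} (hs : HasExp h f s) :
    HasExp h (bar f) (ModularCurve.coeffMap (starRingEnd ℂ) s) := by
  have ht : Tendsto negConj atImInfty atImInfty := by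
    refine tendsto_comap_iff.mpr ?_
    have he : UpperHalfPlane.im ∘ negConj = UpperHalfPlane.im := by
      funext τ
      show (negConj τ : ℂ).im = (τ : ℂ).im
      simp [coe_negConj]
    rw [he]
    exact tendsto_comap
  filter_upwards [ht.eventually hs] with τ hτ
  have hq : 𝕢 (h : ℝ) (negConj τ : ℂ) = conj (𝕢 (h : ℝ) (τ : ℂ)) := by
    rw [Function.Periodic.qParam, Function.Periodic.qParam, ← Complex.exp_conj, coe_negConj]
    congr 1
    simp [map_div₀, Complex.conj_ofReal, map_ofNat]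
  have := hτ.map (starRingEnd ℂ) Complex.continuous_conj
  refine (this.congr_fun fun n => ?_)
  rw [Function.comp_apply, map_mul, map_zpow₀, ModularCurve.coeffMap_coeff, hq, Complex.conj_conj]

theorem flipSL_mem_Gamma {K : ℕ} {γ : SL(2, ℤ)} (hγ : γ ∈ CongruenceSubgroup.Gamma K) :
    flipSL γ ∈ CongruenceSubgroup.Gamma K := by
  rw [CongruenceSubgroup.Gamma_mem] at hγ ⊢
  simp [flipSL, hγ.1, hγ.2.1, hγ.2.2.1, hγ.2.2.2]

/-! ### The coefficient ring `ℤ[ζ_K, 1/K]` -/

variable {O O' : Subring ℂ} {K : ℕ}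

/-- `ℤ[ζ_K, 1/K]`. -/
def smallRing (K : ℕ) : Subring ℂ := Subring.closure {zetaM K, (K : ℂ)⁻¹}

theorem goodRing_smallRing (hK : 0 < K) : GoodRing K (smallRing K) :=
  ⟨hK, Subring.subset_closure (by simp), Subring.subset_closure (by simp)⟩

theorem smallRing_le (hO : GoodRing K O) : smallRing K ≤ O :=
  Subring.closure_le.mpr fun z hz => by
    rcases hz with rfl | rfl
    · exact hO.zeta_mem
    · exact hO.inv_mem

theorem isUnitIn_mono (h : O ≤ O') {c : ℂ} (hc : IsUnitIn O c) : IsUnitIn O' c :=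
  ⟨hc.1, h hc.2.1, h hc.2.2⟩

theorem modularRing_mono (h : O ≤ O') {n : ℕ} {Γ : Subgroup SL(2, ℤ)} {f : ℍ → ℂ}
    (hf : f ∈ modularRing Γ n O) : f ∈ modularRing Γ n O' := by
  refine ⟨hf.1, hf.2.1, fun γ => ?_⟩
  obtain ⟨s, hs, hO⟩ := intExp_iff.mp (hf.2.2 γ)
  exact intExp_iff.mpr ⟨s, hs, fun k => h (hO k)⟩

/-- The order of `h - r_i` at the `l`-th cusp, `i ≠ 0`. -/
def subOrd (K : ℕ) (i l : Fin (K + 1)) : ℤ := if l = i then 1 else if l = 0 then -1 else 0

/-- The normalised Hauptmodul with its cuspidal values. -/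
structure Haupt (K : ℕ) [NeZero K] where
  small : SmallLevel K
  h : ℍ → ℂ
  w : ℍ → ℂ
  r : Fin (K + 1) → ℂ
  h_mem : h ∈ modularRing (CongruenceSubgroup.Gamma K) K (smallRing K)
  w_mem : w ∈ modularRing (CongruenceSubgroup.Gamma K) K (smallRing K)
  r_mem : ∀ i, r i ∈ smallRing K
  r_one : r 1 = 0
  r_sub : ∀ i k, i ≠ 0 → k ≠ 0 → i ≠ k → IsUnitIn (smallRing K) (r i - r k)
  w_mul : w * ∏ i ∈ Finset.univ.erase 0, (h - fun _ => r i) = 1
  lead : Lead K (smallRing K) h (-1) 1
  lead_sub : ∀ i, i ≠ 0 → ∀ l, ∃ c, IsUnitIn (smallRing K) c ∧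
    Lead K (smallRing K) (act (cuspRep K l) (h - fun _ => r i)) (subOrd K i l) c
  generated : ∀ {O : Subring ℂ}, GoodRing K O → ∀ S : Subring (ℍ → ℂ), h ∈ S → w ∈ S →
    (∀ c ∈ O, (fun _ => c) ∈ S) → ∀ f ∈ modularRing (CongruenceSubgroup.Gamma K) K O, f ∈ S

theorem cuspRep_zero : cuspRep K 0 = 1 := if_pos rfl

variable [NeZero K]

theorem exists_haupt (hK : SmallLevel K) : Nonempty (Haupt K) := by
  have hR := goodRing_smallRing hK.pos
  set R := smallRing K
  obtain ⟨c, d, hc, hd, hrel, hsub⟩ := exists_hmod_relation hK hR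
  obtain ⟨w₀, hw₀, hwD⟩ := exists_cuspPoly_inv hK hR hd hrel
  obtain ⟨l₀, hl₀, hL₀⟩ := lead_hgen hK hR 0 0
  rw [if_pos rfl, cuspRep_zero, act_one] at hL₀
  set u := l₀⁻¹ with hu
  have huu : IsUnitIn R u := hl₀.inv
  set h : ℍ → ℂ := (fun _ => u) * (hmod K - fun _ => c 1) with hh
  set r : Fin (K + 1) → ℂ := fun i => u * (c i - c 1) with hr
  set w : ℍ → ℂ := (fun _ => (u⁻¹) ^ K) * w₀ with hw
  have hdiff : ∀ i, h - (fun _ => r i) = (fun _ => u) * (hmod K - fun _ => c i) := fun i => by
    funext τ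
    simp only [hh, hr, Pi.sub_apply, Pi.mul_apply]
    ring
  have hwmul : w * ∏ i ∈ Finset.univ.erase 0, (h - fun _ => r i) = 1 := by
    simp only [hdiff]
    rw [Finset.prod_mul_distrib, Finset.prod_const, Finset.card_erase_of_mem (Finset.mem_univ _),
      Finset.card_univ, Fintype.card_fin, Nat.add_sub_cancel]
    rw [show ∏ i ∈ Finset.univ.erase (0 : Fin (K + 1)), (hmod K - fun _ => c i) =
      Polynomial.aeval (hmod K) (cuspPoly c) from ?_]
    · funext τ
      have := congrFun hwD τ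
      simp only [Pi.mul_apply, Pi.one_apply, hw, Pi.pow_apply] at this ⊢
      calc (u⁻¹) ^ K * w₀ τ * (u ^ K * (Polynomial.aeval (hmod K) (cuspPoly c)) τ)
          = (u⁻¹ * u) ^ K * (w₀ τ * (Polynomial.aeval (hmod K) (cuspPoly c)) τ) := by ring
        _ = 1 := by rw [inv_mul_cancel₀ huu.1, one_pow, one_mul, this]
    · rw [cuspPoly, map_prod]
      refine Finset.prod_congr rfl fun i _ => ?_
      rw [map_sub, Polynomial.aeval_X, Polynomial.aeval_C]
      rfl
  refine ⟨{
    small := hK, h := h, w := w, r := r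
    h_mem := mul_mem (const_mem_modularRing huu.2.1)
      (sub_mem (hgen_mem hK hR 0) (const_mem_modularRing (hc 1)))
    w_mem := mul_mem (const_mem_modularRing (R.pow_mem huu.2.2 K)) hw₀
    r_mem := fun i => R.mul_mem huu.2.1 (R.sub_mem (hc i) (hc 1))
    r_one := by simp [hr]
    r_sub := fun i k hi hk hik => by
      rw [show r i - r k = u * (c i - c k) by simp only [hr]; ring]
      exact huu.mul (hsub i k hi hk hik)
    w_mul := hwmul
    lead := ?_
    lead_sub := ?_
    generated := ?_ }⟩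
  · have h1 : Lead K R (hmod K - fun _ => c 1) (-1) l₀ := by
      obtain ⟨s, hs, hsO, h1, h2⟩ := hL₀
      refine ⟨s - HahnSeries.C (c 1), hs.sub (hasExp_C K _), fun n => ?_, fun n hn => ?_, ?_⟩
      · rw [HahnSeries.coeff_sub, HahnSeries.C_apply, HahnSeries.coeff_single]
        refine R.sub_mem (hsO n) ?_
        split <;> simp [hc 1]
      · rw [HahnSeries.coeff_sub, HahnSeries.C_apply, h1 n hn,
          HahnSeries.coeff_single_of_ne (by omega), sub_zero]
      · rw [HahnSeries.coeff_sub, HahnSeries.C_apply, h2,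
          HahnSeries.coeff_single_of_ne (by omega), sub_zero]
    have := (lead_const (h := K) huu.2.1).mul hK.pos h1
    rwa [zero_add, hu, inv_mul_cancel₀ hl₀.1] at this
  · intro i hi l
    obtain ⟨e, he, hLe⟩ := lead_hgen hK hR i l
    refine ⟨u * d i * e⁻¹, (huu.mul (hd i)).mul he.inv, ?_⟩
    have heq : h - (fun _ => r i) = (fun _ => u * d i) * (hgen K i)⁻¹ := by
      rw [hdiff]
      funext τ
      have := congrFun (hrel i hi) τ
      simp only [Pi.mul_apply, Pi.sub_apply, Pi.inv_apply] at this ⊢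
      have hne : hgen K i τ ≠ 0 := fun h0 => (hd i).1 (by rw [← this, h0, zero_mul])
      rw [← this]
      field_simp
    rw [heq, map_mul,
        show act (cuspRep K l) (hgen K i)⁻¹ = (act (cuspRep K l) (hgen K i))⁻¹ from rfl,
      show act (cuspRep K l) (fun _ => u * d i) = fun _ => u * d i from rfl]
    have := (lead_const (h := K) (R.mul_mem huu.2.1 (hd i).2.1)).mul hK.pos (hLe.inv hK.pos he)
    rw [zero_add] at this
    have hord : subOrd K i l = -(if l = i then -1 else if l = hzero K i then 1 else 0 : ℤ) := by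
      rw [subOrd, hzero, if_neg hi]
      split_ifs <;> rfl
    rwa [hord]
  · intro O hO S hhS hwS hOS f hf
    have hle := smallRing_le hO
    refine modularRing_Gamma_le hK hO S (fun i => ?_) hOS f hf
    rcases eq_or_ne i 0 with rfl | hi
    · have : hgen K 0 = (fun _ => u⁻¹) * h + fun _ => c 1 := by
        funext τ
        simp only [hh, hmod, Pi.mul_apply, Pi.add_apply, Pi.sub_apply]
        rw [← mul_assoc, inv_mul_cancel₀ huu.1]
        ring
      rw [this]
      exact S.add_mem (S.mul_mem (hOS _ (hle huu.2.2)) hhS) (hOS _ (hle (hc 1)))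
    · have hmem : i ∈ Finset.univ.erase (0 : Fin (K + 1)) :=
        Finset.mem_erase.mpr ⟨hi, Finset.mem_univ i⟩
      have : hgen K i = (fun _ => u * d i) *
          (w * ∏ k ∈ (Finset.univ.erase 0).erase i, (h - fun _ => r k)) := by
        funext τ
        have h1 := congrFun hwmul τ
        rw [← Finset.mul_prod_erase _ _ hmem] at h1
        simp only [Pi.mul_apply, Pi.one_apply] at h1 ⊢
        have h2 := congrFun (hrel i hi) τ
        have h3 := congrFun (hdiff i) τ
        simp only [Pi.mul_apply, Pi.sub_apply] at h1 h2 h3 ⊢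
        rw [← h2]
        set P := Finset.prod ((Finset.univ.erase 0).erase i) (fun k => h - fun _ : ℍ => r k) τ
            with hPdef
        linear_combination (-(hgen K i τ)) * h1 + (hgen K i τ) * (w τ) * P * h3
      rw [this]
      exact S.mul_mem (hOS _ (hle (R.mul_mem huu.2.1 (hd i).2.1))) (S.mul_mem hwS
        (S.prod_mem fun k _ => S.sub_mem hhS
          (hOS _ (hle (R.mul_mem huu.2.1 (R.sub_mem (hc k) (hc 1)))))))

theorem flipSL_cuspRep (hK : SmallLevel K) {l : Fin (K + 1)} (hl : l ≠ 0) :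
    ∃ l' : Fin (K + 1), l' ≠ 0 ∧ (l = 1 → l' = 1) ∧
      redMat K (-flipSL (cuspRep K l)) = redMat K (cuspRep K l') := by
  rcases hK with rfl | rfl <;> revert hl l <;> decide

namespace Haupt

variable (H : Haupt K)

theorem noPole {l : Fin (K + 1)} (hl : l ≠ 0) :
    ∃ s, HasExp K (act (cuspRep K l) H.h) s ∧ (∀ n < 0, s.coeff n = 0) ∧
      (l = 1 → s.coeff 0 = 0) := by
  obtain ⟨c, -, t, ht, -, ht1, -⟩ := H.lead_sub l hl l
  rw [subOrd, if_pos rfl] at ht1
  refine ⟨t + HahnSeries.C (H.r l), ?_, fun n hn => ?_, fun h1 => ?_⟩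
  · have := ht.add (hasExp_C K (H.r l))
    convert this using 1
    funext τ
    simp
  · rw [HahnSeries.coeff_add, ht1 n (by omega), HahnSeries.C_apply,
      HahnSeries.coeff_single_of_ne hn.ne, add_zero]
  · rw [HahnSeries.coeff_add, ht1 0 (by omega), HahnSeries.C_apply, HahnSeries.coeff_single_same,
      h1, H.r_one, add_zero]

/-- The expansion at `∞` is real. -/
theorem conj_coeff {s : LaurentSeries ℂ} (hs : HasExp K H.h s) (n : ℤ) :
    conj (s.coeff n) = s.coeff n := by
  have hh := H.small.pos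
  set D := bar H.h - H.h with hD
  have hinv : ∀ γ ∈ CongruenceSubgroup.Gamma K, act γ D = D := fun γ hγ => by
    rw [hD, map_sub, act_bar, H.h_mem.2.1 _ (flipSL_mem_Gamma hγ), H.h_mem.2.1 γ hγ]
  have hrep : ∀ l, ∃ t, HasExp K (act (cuspRep K l) D) t ∧ (∀ m < 0, t.coeff m = 0) ∧
      (l = 1 → t.coeff 0 = 0) := by
    intro l
    rcases eq_or_ne l 0 with rfl | hl
    · refine ⟨ModularCurve.coeffMap (starRingEnd ℂ) s - s, ?_, fun m hm => ?_, fun h01 => ?_⟩
      · rw [cuspRep_zero, act_one]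
        exact (hasExp_bar hs).sub hs
      · obtain ⟨t, ht, -, ht1, ht2⟩ := H.lead
        obtain rfl := hs.unique hh ht
        rw [HahnSeries.coeff_sub, ModularCurve.coeffMap_coeff]
        rcases lt_or_eq_of_le (show m ≤ -1 by omega) with h | rfl
        · rw [ht1 m h, map_zero, sub_zero]
        · rw [ht2, map_one, sub_self]
      · rcases H.small with rfl | rfl <;> exact absurd h01 (by decide)
    · obtain ⟨l', hl', hl'1, hred⟩ := flipSL_cuspRep H.small hl
      obtain ⟨t, ht, ht0, ht01⟩ := H.noPole hl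
      obtain ⟨t', ht', ht'0, ht'01⟩ := H.noPole hl'
      refine ⟨ModularCurve.coeffMap (starRingEnd ℂ) t' - t, ?_, fun m hm => ?_, fun h1 => ?_⟩
      · rw [hD, map_sub, act_bar, ← act_neg, act_eq_of_congr hred H.h_mem.2.1]
        exact (hasExp_bar ht').sub ht
      · rw [HahnSeries.coeff_sub, ModularCurve.coeffMap_coeff, ht'0 m hm, ht0 m hm, map_zero,
          sub_zero]
      · rw [HahnSeries.coeff_sub, ModularCurve.coeffMap_coeff, ht'01 (hl'1 h1), ht01 h1, map_zero,
          sub_zero]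
  obtain ⟨c, hc⟩ := eq_const_of_orders_nonneg hh ((mdiff_bar H.h_mem.1).sub H.h_mem.1) hinv
    fun δ => by
      obtain ⟨l, j, hlj⟩ := cuspRep_cover H.small δ
      obtain ⟨t, ht, ht0, -⟩ := hrep l
      refine ⟨_, (hlj D hinv) ▸ ht.act_T j, fun m hm => ?_⟩
      rw [twist_coeff, ht0 m hm, zero_mul]
  replace hc : D = Function.const ℍ c := hc
  have hc0 : c = 0 := by
    obtain ⟨t, ht, -, ht01⟩ := hrep 1
    rw [hc] at ht
    have := congrArg (fun z : LaurentSeries ℂ => z.coeff 0) (ht.unique hh (hasExp_C K c))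
    simp only [HahnSeries.C_apply, HahnSeries.coeff_single_same, ht01 rfl] at this
    exact this.symm
  have hbar : bar H.h = H.h := by
    have : D = 0 := by rw [hc, hc0]; rfl
    exact sub_eq_zero.mp this
  have h1 := hasExp_bar hs
  rw [hbar] at h1
  exact congrArg (fun z : LaurentSeries ℂ => z.coeff n) (h1.unique hh hs)

end Haupt

end FLTAgent.CarayolSquare.Provider

end
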