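import Fermat.Agent.CarayolSquare.Provider.Translates
import Fermat.Agent.CarayolSquare.Provider.HauptBase

/-!
# The Hauptmodul fields of the model

Normalisation (`hL`, `h_order`, `h_rat`), the functions `j (dτ)` (`jfun`), and the descent of
symmetric functions of the translates of the Hauptmodul (`symm_h`).
-/

set_option autoImplicit false

noncomputable section

open Filter Complex
open UpperHalfPlane hiding I
open scoped UpperHalfPlane MatrixGroups Manifold ComplexConjugate
open ModularCurve FLTAgent.LevelM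

namespace FLTAgent.CarayolSquare.Provider

local notation "Qbar" => AlgebraicClosure ℚ

variable {q : ℕ} (X : Ctx q) {M K : ℕ}

/-- Conditions on the small level. -/
structure Lvl (q M K : ℕ) : Prop where
  small : SmallLevel K
  dvd : K ∣ M
  notdvd : ¬ q ∣ M
  cong : (q : ZMod K) = -1

theorem Lvl.notdvd_K (hl : Lvl q M K) : ¬ q ∣ K := fun h => hl.notdvd (h.trans hl.dvd)

theorem Lvl.goodK (hl : Lvl q M K) : GoodRing K (OC X) :=
  goodRing X hl.small.pos hl.notdvd_K

theorem exists_O_of_mem {z : ℂ} (hz : z ∈ OC X) : ∃ c : X.O, embK X (c : X.K) = z := by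
  obtain ⟨a, ha, rfl⟩ := hz
  exact ⟨(equivO X).symm ⟨a, ha⟩, rfl⟩

theorem isUnit_of_isUnitIn {c : X.O} (h : IsUnitIn (OC X) (embK X (c : X.K))) : IsUnit c := by
  obtain ⟨d, hd⟩ := exists_O_of_mem X h.2.2
  refine IsUnit.of_mul_eq_one d (Subtype.ext ((embK X).injective ?_))
  rw [Subring.coe_mul, map_mul, hd, mul_inv_cancel₀ h.1, Subring.coe_one, map_one]

theorem redMat_map_castHom (hdvd : K ∣ M) (γ : SL(2, ℤ)) :
    (redMat M γ).map (ZMod.castHom hdvd (ZMod K)) = redMat K γ := by
  simp only [redMat, Matrix.map_map]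
  ext i j
  simp

theorem mem_Gamma_of_dvd (hdvd : K ∣ M) {γ : SL(2, ℤ)} (hγ : γ ∈ CongruenceSubgroup.Gamma M) :
    γ ∈ CongruenceSubgroup.Gamma K := by
  rw [mem_Gamma_iff_redMat] at hγ ⊢
  rw [← redMat_map_castHom hdvd, hγ, Matrix.map_one _ (map_zero _) (map_one _)]

variable [NeZero M] [NeZero K]

omit [NeZero K] in
theorem lift_mem (hl : Lvl q M K) {O : Subring ℂ} (hO : O ≤ OC X) {f : ℍ → ℂ}
    (hf : f ∈ modularRing (CongruenceSubgroup.Gamma K) K O) :
    f ∈ levelSubring (valK X) (embK X) M := by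
  have hf' := modularRing_mono hO hf
  obtain ⟨e, rfl⟩ := hl.dvd
  have : NeZero e := ⟨fun h0 => NeZero.ne (K * e) (by rw [h0, mul_zero])⟩
  rw [← modularRing_Gamma_width (d := e) hl.small.pos, mul_comm e K] at hf'
  exact ⟨hf'.1, fun γ hγ => hf'.2.1 γ (mem_Gamma_of_dvd (dvd_mul_right K e) hγ), hf'.2.2⟩

variable (hl : Lvl q M K) (H : Haupt K)

/-- The Hauptmodul as a level `M` function. -/
def hL : LRing X M := ⟨H.h, lift_mem X hl (smallRing_le (hl.goodK X)) H.h_mem⟩

/-- The inverse of `∏ (h - r_i)`. -/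
def wL : LRing X M := ⟨H.w, lift_mem X hl (smallRing_le (hl.goodK X)) H.w_mem⟩

/-- The cuspidal values. -/
def rootO (i : Fin (K + 1)) : X.O :=
  (exists_O_of_mem X (smallRing_le (hl.goodK X) (H.r_mem i))).choose

omit [NeZero M] in
theorem embK_rootO (i : Fin (K + 1)) : embK X (rootO X hl H i : X.K) = H.r i :=
  (exists_O_of_mem X (smallRing_le (hl.goodK X) (H.r_mem i))).choose_spec

theorem one_ne_zero_fin (hK : SmallLevel K) : (1 : Fin (K + 1)) ≠ 0 := by
  rcases hK with rfl | rfl <;> decide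

omit [NeZero M] in
theorem rootO_one : rootO X hl H 1 = 0 :=
  Subtype.ext ((embK X).injective (by rw [embK_rootO, H.r_one, Subring.coe_zero, map_zero]))

omit [NeZero M] in
theorem rootO_sub {i k : Fin (K + 1)} (hi : i ≠ 0) (hk : k ≠ 0) (hik : i ≠ k) :
    IsUnit (rootO X hl H i - rootO X hl H k) := by
  refine isUnit_of_isUnitIn X ?_
  rw [AddSubgroupClass.coe_sub, map_sub, embK_rootO, embK_rootO]
  exact isUnitIn_mono (smallRing_le (hl.goodK X)) (H.r_sub i k hi hk hik)

omit [NeZero M] in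
theorem rootO_injOn :
    Set.InjOn (rootO X hl H) ↑((Finset.univ : Finset (Fin (K + 1))).erase 0) := by
  intro i hi k hk he
  by_contra hik
  have := rootO_sub X hl H (Finset.ne_of_mem_erase hi) (Finset.ne_of_mem_erase hk) hik
  rw [he, sub_self] at this
  exact not_isUnit_zero this

open Classical in
/-- The set of cuspidal values. -/
def roots : Finset X.O := (Finset.univ.erase 0).image (rootO X hl H)

omit [NeZero M] in
theorem zero_mem_roots : (0 : X.O) ∈ roots X hl H := by
  classical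
  exact Finset.mem_image.mpr
    ⟨1, Finset.mem_erase.mpr ⟨one_ne_zero_fin hl.small, Finset.mem_univ _⟩, rootO_one X hl H⟩

omit [NeZero M] in
theorem mem_roots {a : X.O} : a ∈ roots X hl H ↔ ∃ i : Fin (K + 1), i ≠ 0 ∧ rootO X hl H i = a := by
  classical
  simp [roots]

omit [NeZero M] in
theorem roots_sub : ∀ a ∈ roots X hl H, ∀ b ∈ roots X hl H, a ≠ b → IsUnit (a - b) := by
  intro a ha b hb hab
  obtain ⟨i, hi, rfl⟩ := (mem_roots X hl H).mp ha
  obtain ⟨k, hk, rfl⟩ := (mem_roots X hl H).mp hb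
  exact rootO_sub X hl H hi hk fun h => hab (by rw [h])

omit [NeZero M] [NeZero K] in
theorem coe_hsub (f : LRing X M) (c : X.O) :
    ((f - algebraMap X.O (LRing X M) c : LRing X M) : ℍ → ℂ) =
      (f : ℍ → ℂ) - fun _ => embK X (c : X.K) := rfl

theorem wL_mul : wL X hl H * ∏ a ∈ roots X hl H,
    (hL X hl H - algebraMap X.O (LRing X M) a) = 1 := by
  classical
  rw [roots, Finset.prod_image (rootO_injOn X hl H)]
  refine Subtype.ext ?_
  rw [Subring.coe_mul, Subring.coe_one, ← Subring.subtype_apply (∏ i ∈ _, _), map_prod]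
  simp only [Subring.subtype_apply, coe_hsub, embK_rootO]
  exact H.w_mul

/-- The Hauptmodul as a series. -/
def hC : CRing X M := equivC X M (hL X hl H)

/-- Its inverse cusp polynomial as a series. -/
def DC : CRing X M := equivC X M (wL X hl H)

theorem DC_mul : DC X hl H * ∏ a ∈ roots X hl H, (hC X hl H - algebraMap X.O _ a) = 1 := by
  have := congrArg (equivC X M) (wL_mul X hl H)
  rw [map_mul, map_prod, map_one] at this
  simp only [map_sub, AlgEquiv.commutes] at this
  exact this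

/-! ### Invariance -/

theorem act_hL {γ : SL(2, ℤ)} (hγ : γ ∈ CongruenceSubgroup.Gamma K) :
    act γ (hL X hl H : ℍ → ℂ) = (hL X hl H : ℍ → ℂ) := H.h_mem.2.1 γ hγ

omit [NeZero M] [NeZero K] in
theorem redMat_eta [Fact q.Prime] (h : q.Coprime M) (hl : Lvl q M K) :
    redMat K (eta M q) = redMat K (-1) := by
  obtain ⟨-, h10, h11, h01⟩ := eta_spec h
  have hM : ((M : ℤ) : ZMod K) = 0 := by
    rw [Int.cast_natCast, ZMod.natCast_eq_zero_iff]; exact hl.dvd
  have e10 : ((eta M q 1 0 : ℤ) : ZMod K) = 0 := by rw [h10, hM]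
  have e11 : ((eta M q 1 1 : ℤ) : ZMod K) = -1 := by rw [h11, Int.cast_natCast, hl.cong]
  have e01 : ((eta M q 0 1 : ℤ) : ZMod K) = 0 := by
    obtain ⟨c, hc⟩ := h01
    rw [hc, Int.cast_mul, hM, zero_mul]
  have hdet := congrArg (Int.cast : ℤ → ZMod K) (eta M q).det_coe
  rw [Matrix.det_fin_two, Int.cast_sub, Int.cast_mul, Int.cast_mul, e01, e11, zero_mul, sub_zero,
    Int.cast_one] at hdet
  have e00 : ((eta M q 0 0 : ℤ) : ZMod K) = -1 := by linear_combination -hdet
  ext i j
  fin_cases i <;> fin_cases j <;> simp [redMat, e00, e01, e10, e11]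

theorem act_eta_hL [Fact q.Prime] (h : q.Coprime M) :
    act (eta M q) (hL X hl H : ℍ → ℂ) = (hL X hl H : ℍ → ℂ) := by
  rw [act_eq_of_congr (redMat_eta h hl) fun g hg => act_hL X hl H hg, act_neg_one]

omit [NeZero M] [NeZero K] in
theorem twistCusp_mem [Fact q.Prime] (h : q.Coprime M) (hl : Lvl q M K) {g : SL(2, ℤ)}
    (hg : g ∈ CongruenceSubgroup.Gamma K) : twistCusp h g ∈ CongruenceSubgroup.Gamma K := by
  have hK : q.Coprime K := h.coprime_dvd_right hl.dvd
  have he := congrArg (fun Y : Matrix (Fin 2) (Fin 2) (ZMod M) =>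
    Y.map (ZMod.castHom hl.dvd (ZMod K))) (redMat_twistCusp h g)
  rw [Matrix.map_mul, Matrix.map_mul, redMat_map_castHom, redMat_map_castHom,
    (mem_Gamma_iff_redMat g).mp hg, mul_one] at he
  have hd : (diagQ M q).map (ZMod.castHom hl.dvd (ZMod K)) = diagQ K q := by
    ext i j
    fin_cases i <;> fin_cases j <;> simp [diagQ, ZMod.cast_one hl.dvd]
  rw [hd] at he
  rw [mem_Gamma_iff_redMat]
  exact diagQ_cancel hK (he.trans (one_mul _).symm)

theorem twP_hC [Fact q.Prime] (h : q.Coprime M) :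
    csAt X M (twP M h 1) (hC X hl H) = (hC X hl H : Ser) := by
  rw [hC, csAt_equivC, coe_equivC]
  refine evAt_eq ?_
  rw [twP, twistCusp_one, one_mul, act_eta_hL X hl H h]
  exact hasExp_ev _

/-! ### The expansion at `∞` -/

theorem exists_series :
    ∃ (e : ℕ) (_ : NeZero e) (s : LaurentSeries ℂ), M = K * e ∧ HasExp K H.h s ∧
      (∀ n < -1, s.coeff n = 0) ∧ s.coeff (-1) = 1 ∧ (∀ n, s.coeff n ∈ smallRing K) ∧
      coeffMap (emb X) (ev X M (hL X hl H)) = qExpand ℂ e s := by
  obtain ⟨s, hs, hsO, h1, h2⟩ := H.lead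
  obtain ⟨e, he⟩ := hl.dvd
  have : NeZero e := ⟨fun h0 => NeZero.ne M (by rw [he, h0, mul_zero])⟩
  refine ⟨e, this, s, he, hs, h1, h2, hsO, ?_⟩
  have h3 := hs.qExpand e
  rw [mul_comm e K, ← he] at h3
  exact (hasExp_ev (hL X hl H)).unique (Nat.pos_of_ne_zero (NeZero.ne M)) h3

theorem h_order : ∃ e : ℕ, 0 < e ∧ ¬ q ∣ e ∧
    X.UnitOrder (hC X hl H : Ser) (-(e : ℤ)) := by
  obtain ⟨e, _, s, he, -, h1, h2, -, hs⟩ := exists_series X hl H
  have hc : ∀ n, emb X ((ev X M (hL X hl H)).coeff n) = (qExpand ℂ e s).coeff n := fun n => by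
    rw [← hs, coeffMap_coeff]
  refine ⟨e, Nat.pos_of_ne_zero (NeZero.ne e), fun hd => hl.notdvd (he ▸ dvd_mul_of_dvd_right hd K),
    fun n hn => (emb X).injective ?_, ?_⟩
  · rw [hC, coe_equivC, hc, map_zero]
    by_cases hd : (e : ℤ) ∣ n
    · obtain ⟨m, rfl⟩ := hd
      rw [qExpand_coeff_mul]
      refine h1 m ?_
      by_contra hm
      push Not at hm
      nlinarith
    · exact qExpand_coeff_of_not_dvd _ _ hd
  · have : (hC X hl H : Ser).coeff (-(e : ℤ)) = 1 := (emb X).injective (by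
      rw [hC, coe_equivC, hc, map_one,
          show -(e : ℤ) = (e : ℤ) * (-1) by ring, qExpand_coeff_mul, h2])
    rw [this, map_one]

/-- Elements whose conjugate reduces to the Frobenius. -/
def frobRing [Fact q.Prime] [CharP (IsLocalRing.ResidueField X.A) q] : Subring ℂ where
  carrier := {z | ∃ a b : X.A, emb X (a : Qbar) = z ∧ emb X (b : Qbar) = conj z ∧
    IsLocalRing.residue X.A b = IsLocalRing.residue X.A a ^ q}
  one_mem' := ⟨1, 1, by simp, by simp, by simp⟩
  zero_mem' := ⟨0, 0, by simp, by simp, by simp [(Fact.out : q.Prime).ne_zero]⟩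
  add_mem' := by
    rintro x y ⟨a, b, ha, hb, hab⟩ ⟨a', b', ha', hb', hab'⟩
    exact ⟨a + a', b + b', by simp [ha, ha'], by simp [hb, hb'],
      by rw [map_add, map_add, hab, hab', add_pow_char]⟩
  mul_mem' := by
    rintro x y ⟨a, b, ha, hb, hab⟩ ⟨a', b', ha', hb', hab'⟩
    exact ⟨a * a', b * b', by simp [ha, ha'], by simp [hb, hb'],
      by rw [map_mul, map_mul, hab, hab', mul_pow]⟩
  neg_mem' := by
    rintro x ⟨a, b, ha, hb, hab⟩
    refine ⟨-a, -b, by simp [ha], by simp [hb], ?_⟩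
    rw [map_neg, map_neg, hab]
    have h0 := add_pow_char (IsLocalRing.residue X.A a) (-IsLocalRing.residue X.A a) q
    rw [add_neg_cancel, zero_pow (Fact.out : q.Prime).ne_zero] at h0
    linear_combination h0

theorem charP_residue [Fact q.Prime] : CharP (IsLocalRing.ResidueField X.A) q := by
  refine (CharP.charP_iff_prime_eq_zero Fact.out).mpr ?_
  rw [← map_natCast (IsLocalRing.residue X.A), IsLocalRing.residue_eq_zero_iff,
    IsLocalRing.mem_maximalIdeal, mem_nonunits_iff]
  intro hu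
  exact X.q_lt_one.ne ((X.A.valuation_eq_one_iff _).mp hu)

omit [NeZero M] [NeZero K] in
theorem smallRing_le_frobRing [Fact q.Prime] [CharP (IsLocalRing.ResidueField X.A) q]
    (hl : Lvl q M K) : smallRing K ≤ frobRing X := by
  refine Subring.closure_le.mpr fun z hz => ?_
  have hK := hl.small.pos
  rcases hz with rfl | rfl
  · obtain ⟨c, hc⟩ := exists_O_of_mem X (hl.goodK X).zeta_mem
    let a : X.A := ⟨algebraMap X.K Qbar (c : X.K), c.2⟩
    refine ⟨a, a ^ q, hc, ?_, map_pow _ _ _⟩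
    show emb X (((a ^ q : X.A) : Qbar)) = _
    rw [SubmonoidClass.coe_pow, map_pow, show emb X (a : Qbar) = zetaM K from hc,
      ← Complex.inv_eq_conj (by simpa using (norm_zetaM_zpow (M := K) 1))]
    refine eq_inv_of_mul_eq_one_left ?_
    rw [← pow_succ, ← zpow_natCast, zetaM_zpow_eq_one_iff hK,
      ← ZMod.intCast_zmod_eq_zero_iff_dvd]
    push_cast
    rw [hl.cong, neg_add_cancel]
  · have hmem : ((K : Qbar)⁻¹) ∈ X.A := by
      rw [← X.A.valuation_le_one_iff, map_inv₀, natCast_valuation X hl.notdvd_K, inv_one]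
    refine ⟨⟨_, hmem⟩, ⟨_, hmem⟩, by simp, by simp, ?_⟩
    set x := IsLocalRing.residue X.A ⟨_, hmem⟩
    have h1 : x * (K : IsLocalRing.ResidueField X.A) = 1 := by
      rw [← map_natCast (IsLocalRing.residue X.A) K, ← map_mul, ← map_one (IsLocalRing.residue X.A)]
      congr 1
      refine Subtype.ext ?_
      exact inv_mul_cancel₀ (Nat.cast_ne_zero.mpr hK.ne')
    have h2 := congrArg (· ^ q) h1
    simp only [mul_pow, one_pow] at h2
    rw [← frobenius_def, ← frobenius_def, map_natCast, frobenius_def] at h2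
    linear_combination (x ^ q) * h1 - x * h2

theorem h_rat (n : ℤ) :
    X.A.valuation ((hC X hl H : Ser).coeff n ^ q - (hC X hl H : Ser).coeff n) < 1 := by
  have : Fact q.Prime := ⟨X.prime⟩
  have := charP_residue X
  obtain ⟨e, _, s, -, hs0, -, -, hsO, hs⟩ := exists_series X hl H
  set x := (hC X hl H : Ser).coeff n with hx
  have hc : emb X x = (qExpand ℂ e s).coeff n := by
    rw [← hs, coeffMap_coeff]; rfl
  have hmem : (qExpand ℂ e s).coeff n ∈ smallRing K ∧
      conj ((qExpand ℂ e s).coeff n) = (qExpand ℂ e s).coeff n := by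
    by_cases hd : (e : ℤ) ∣ n
    · obtain ⟨m, rfl⟩ := hd
      rw [qExpand_coeff_mul]
      exact ⟨hsO m, H.conj_coeff hs0 m⟩
    · rw [qExpand_coeff_of_not_dvd _ _ hd]
      exact ⟨zero_mem _, map_zero _⟩
  obtain ⟨a, b, ha, hb, hab⟩ := smallRing_le_frobRing X hl hmem.1
  rw [hmem.2] at hb
  obtain rfl : b = a := Subtype.ext ((emb X).injective (hb.trans ha.symm))
  have hxa : x = (b : Qbar) := (emb X).injective (hc.trans ha.symm)
  have h0 : IsLocalRing.residue X.A (b ^ q - b) = 0 := by rw [map_sub, map_pow, ← hab, sub_self]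
  rw [IsLocalRing.residue_eq_zero_iff, IsLocalRing.mem_maximalIdeal, mem_nonunits_iff,
    ValuationSubring.valuation_eq_one_iff] at h0
  rw [hxa]
  exact lt_of_le_of_ne ((X.A.valuation_le_one_iff _).mpr (b ^ q - b).2) h0

/-! ### Invariant elements -/

/-- `O[h, 1/D]` in the level ring. -/
abbrev adjH : Subalgebra X.O (LRing X M) := Algebra.adjoin X.O {hL X hl H, wL X hl H}

theorem mem_adjH_of_invariant {f : LRing X M}
    (hf : ∀ γ ∈ CongruenceSubgroup.Gamma K, act γ (f : ℍ → ℂ) = f) : f ∈ adjH X hl H := by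
  obtain ⟨e, he⟩ := hl.dvd
  have : NeZero e := ⟨fun h0 => NeZero.ne M (by rw [he, h0, mul_zero])⟩
  have hmem : (f : ℍ → ℂ) ∈ modularRing (CongruenceSubgroup.Gamma K) K (OC X) := by
    rw [← modularRing_Gamma_width (d := e) hl.small.pos, mul_comm e K, ← he]
    exact ⟨f.2.1, hf, f.2.2.2⟩
  let S : Subring (ℍ → ℂ) :=
    (adjH X hl H).toSubring.map (levelSubring (valK X) (embK X) M).subtype
  have hh : (hL X hl H : ℍ → ℂ) ∈ S := ⟨hL X hl H, Algebra.subset_adjoin (Set.mem_insert _ _), rfl⟩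
  have hw : (wL X hl H : ℍ → ℂ) ∈ S :=
    ⟨wL X hl H, Algebra.subset_adjoin (Set.mem_insert_of_mem _ rfl), rfl⟩
  obtain ⟨g, hg, hgf⟩ := H.generated (hl.goodK X) S hh hw (fun c hc => by
    obtain ⟨c', rfl⟩ := exists_O_of_mem X hc
    exact ⟨_, (adjH X hl H).algebraMap_mem c', rfl⟩) _ hmem
  rwa [show f = g from Subtype.ext hgf.symm]

omit [NeZero K] in
theorem equivC_mem_adjoin {h w : LRing X M} {f : LRing X M}
    (hf : f ∈ Algebra.adjoin X.O {h, w}) :
    equivC X M f ∈ Algebra.adjoin X.O {equivC X M h, equivC X M w} := by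
  have : equivC X M f ∈ (Algebra.adjoin X.O {h, w}).map (equivC X M).toAlgHom := ⟨f, hf, rfl⟩
  rw [AlgHom.map_adjoin] at this
  refine Algebra.adjoin_mono ?_ this
  rintro _ ⟨x, rfl | rfl, rfl⟩ <;> simp

/-- Symmetric functions of translates of `h` and `d`. -/
theorem symm_h [Fact q.Prime] (h : q.Coprime M) (P : MvPolynomial (Line q × GenH) X.O)
    (hP : ∀ π : Equiv.Perm (Line q), MvPolynomial.rename (Prod.map π id) P = P) :
    ∃ c ∈ Algebra.adjoin X.O ({hC X hl H, DC X hl H} : Set (CRing X M)),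
      MvPolynomial.aeval (fun v : Line q × GenH => genHSer X M (hC X hl H : Ser) v.1 v.2) P =
        X.up (c : Ser) := by
  let ι : GenH → Gen (CRing X M) := fun v => match v with
    | .base => .base (hC X hl H)
    | .pull => .pull (hC X hl H)
    | .disc => .disc
  obtain ⟨f, hf, hfs⟩ := exists_symm h X (MvPolynomial.rename (Prod.map id ι) P) fun π => by
    conv_rhs => rw [← hP π]
    rw [MvPolynomial.rename_rename, MvPolynomial.rename_rename]
    rfl
  have hser : ∀ L v, genSerAt M h X 1 L (ι v) = genHSer X M (hC X hl H : Ser) L v := by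
    intro L v
    cases v with
    | base => show X.up (csAt X M 1 (hC X hl H)) = _; rw [csAt_one]; rfl
    | pull =>
      cases L with
      | none => show X.sub none (csAt X M (twP M h 1) (hC X hl H)) = _; rw [twP_hC]; rfl
      | some b =>
        show X.sub (some b) (csAt X M (twistCusp h 1) (hC X hl H)) = _
        rw [twistCusp_one, csAt_one]; rfl
    | disc => rfl
  have hsymm : (equivC X M).symm (hC X hl H) = hL X hl H := AlgEquiv.symm_apply_apply _ _
  have hfun : ∀ g ∈ CongruenceSubgroup.Gamma K, ∀ L v,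
      genFun M h X g L (ι v) = genFun M h X 1 L (ι v) := by
    intro g hg L v
    cases v with
    | base =>
      show act g ((equivC X M).symm (hC X hl H) : ℍ → ℂ) = act 1 _
      rw [act_one, hsymm, act_hL X hl H hg]
    | pull =>
      show (fun τ => ((equivC X M).symm (hC X hl H) : ℍ → ℂ) (twistCusp h g • lineTau M L τ)) =
        fun τ => ((equivC X M).symm (hC X hl H) : ℍ → ℂ) (twistCusp h 1 • lineTau M L τ)
      funext τ
      rw [hsymm, twistCusp_one, one_smul]
      exact congrFun (act_hL X hl H (twistCusp_mem h hl hg)) _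
    | disc => rfl
  have hinv : ∀ g ∈ CongruenceSubgroup.Gamma K, act g (f : ℍ → ℂ) = f := by
    intro g hg
    rw [hf, MvPolynomial.eval₂_rename, act_eval]
    conv_rhs => rw [← hP (linePerm h g), MvPolynomial.eval₂_rename]
    congr 1
    funext v
    show act g (genFun M h X 1 v.1 (ι v.2)) = genFun M h X 1 (linePerm h g v.1) (ι v.2)
    rw [← genFun_move, ← hfun g hg]
    rfl
  refine ⟨equivC X M f, equivC_mem_adjoin X (mem_adjH_of_invariant X hl H hinv), ?_⟩
  have := hfs 1
  rw [MvPolynomial.aeval_rename, evAt_one, ← coe_equivC] at this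
  rw [← this]
  congr 1
  congr 1
  funext v
  exact (hser v.1 v.2).symm

/-! ### `j (dτ)` -/

omit [NeZero K] in
theorem jfun [Fact q.Prime] (h : q.Coprime M) (hqM : ¬ q ∣ M) (d : ℕ) [NeZero d] (hd : d ∣ M) :
    ∃ (hd' : NeZero (M * d)) (c : CRing X M),
      (c : Ser) = @qExpand Qbar _ (M * d) hd' (jqModC Qbar) ∧
        csAt X M (twP M h 1) c = (c : Ser) := by
  have hd' : NeZero (M * d) := ⟨mul_ne_zero (NeZero.ne M) (NeZero.ne d)⟩
  have hO := goodRing X (Nat.pos_of_ne_zero (NeZero.ne M)) hqM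
  refine ⟨hd', equivC X M (jLvl hO d hd), ?_, ?_⟩
  · rw [coe_equivC, ev, RingHom.comp_apply, levelExp_jLvl, coeffMap_qExpand, coeffMap_qExpand,
      coeffMap_jqModC, qExpand_qExpand]
  · rw [csAt_equivC, coe_equivC]
    refine evAt_eq ?_
    rw [twP, twistCusp_one, one_mul]
    have he : act (eta M q) (jLvl hO d hd : ℍ → ℂ) = (jLvl hO d hd : ℍ → ℂ) := funext fun τ =>
      ModularFF.jAt_smul_of_mem_Gamma0 hd (CongruenceSubgroup.Gamma0_mem.mpr (by
        rw [(eta_spec h).2.1, Int.cast_natCast, ZMod.natCast_self])) τ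
    rw [he]
    exact hasExp_ev _

end FLTAgent.CarayolSquare.Provider

end
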