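import Fermat.Agent.CarayolSquare.Geometry.Spec
import Fermat.Agent.LevelM.Galois

/-!
# The matrices attached to lines

The matrices `lineR` of determinant `q` attached to the lines of `𝔽_q²`, all congruent to
`diag (1, q)` modulo `M`, and the permutations `linePerm` of the lines induced by `SL(2, ℤ)`.
-/

set_option autoImplicit false

noncomputable section

open Matrix
open scoped MatrixGroups
open FLTAgent.LevelM

namespace FLTAgent.CarayolSquare.Provider

variable (M q : ℕ)

theorem exists_eta :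
    ∃ η : SL(2, ℤ), q.Coprime M →
      ((η 0 1 : ℤ) : ZMod M) = 0 ∧ η 1 0 = (M : ℤ) ∧ η 1 1 = (q : ℤ) ∧ (M : ℤ) ∣ η 0 1 := by
  by_cases h : q.Coprime M
  · obtain ⟨u, v, huv⟩ : IsCoprime (q : ℤ) ((M : ℤ) ^ 2) :=
      (Nat.isCoprime_iff_coprime.mpr h).pow_right
    refine ⟨⟨!![u, -v * M; (M : ℤ), (q : ℤ)], by
      rw [Matrix.det_fin_two_of]; linear_combination huv⟩, fun _ => ⟨?_, rfl, rfl, ?_⟩⟩
    · simp
    · exact ⟨-v, by simp [mul_comm]⟩
  · exact ⟨1, fun h' => absurd h' h⟩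

/-- A lift of `diag (1/q, q)` modulo `M` with lower left entry `M`. -/
def eta : SL(2, ℤ) := (exists_eta M q).choose

variable {M q}

theorem eta_spec (h : q.Coprime M) :
    ((eta M q 0 1 : ℤ) : ZMod M) = 0 ∧ eta M q 1 0 = (M : ℤ) ∧ eta M q 1 1 = (q : ℤ) ∧
      (M : ℤ) ∣ eta M q 0 1 :=
  (exists_eta M q).choose_spec h

variable (M)

/-- The matrix of a line. -/
def lineR : Line q → Matrix (Fin 2) (Fin 2) ℤ
  | none => (eta M q : Matrix (Fin 2) (Fin 2) ℤ) * !![(q : ℤ), 0; 0, 1]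
  | some b => !![1, (M : ℤ) * (b.val : ℤ); 0, (q : ℤ)]

variable {M}

theorem det_lineR (L : Line q) : (lineR M L).det = q := by
  cases L with
  | none => rw [lineR, Matrix.det_mul, (eta M q).det_coe, Matrix.det_fin_two_of]; ring
  | some b => rw [lineR, Matrix.det_fin_two_of]; ring

/-- `diag (1, q)` modulo `M`. -/
def diagQ (M q : ℕ) : Matrix (Fin 2) (Fin 2) (ZMod M) := !![1, 0; 0, (q : ZMod M)]

theorem map_lineR (h : q.Coprime M) (L : Line q) :
    (lineR M L).map (Int.cast : ℤ → ZMod M) = diagQ M q := by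
  cases L with
  | none =>
    obtain ⟨h01, h10, h11, -⟩ := eta_spec h
    have hdet := congrArg (Int.cast : ℤ → ZMod M) (eta M q).det_coe
    rw [Matrix.det_fin_two, Int.cast_sub, Int.cast_mul, Int.cast_mul, h01, h11, zero_mul, sub_zero,
      Int.cast_one, Int.cast_natCast] at hdet
    ext i j
    fin_cases i <;> fin_cases j <;>
      simp [lineR, diagQ, Matrix.mul_apply, Fin.sum_univ_two, h01, h10, h11, hdet]
  | some b =>
    ext i j
    fin_cases i <;> fin_cases j <;> simp [lineR, diagQ]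

theorem diagQ_cancel (h : q.Coprime M) {A B : Matrix (Fin 2) (Fin 2) (ZMod M)}
    (he : A * diagQ M q = B * diagQ M q) : A = B := by
  have hu : IsUnit (diagQ M q) := by
    rw [Matrix.isUnit_iff_isUnit_det, diagQ, Matrix.det_fin_two_of]
    simpa using (ZMod.isUnit_iff_coprime q M).mpr h
  exact hu.mul_left_injective he

variable [Fact q.Prime]

theorem natCast_M_ne_zero (h : q.Coprime M) : (M : ZMod q) ≠ 0 := by
  rw [Ne, ZMod.natCast_eq_zero_iff]
  exact (Nat.Prime.coprime_iff_not_dvd Fact.out).mp h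

/-- Every matrix of determinant `q` is, up to `SL(2, ℤ)`, the matrix of a line. -/
theorem exists_line (h : q.Coprime M) {X : Matrix (Fin 2) (Fin 2) ℤ} (hX : X.det = q) :
    ∃ (L : Line q) (γ : SL(2, ℤ)), X = (γ : Matrix (Fin 2) (Fin 2) ℤ) * lineR M L := by
  have hq0 : (q : ℤ) ≠ 0 := Int.natCast_ne_zero.mpr (Fact.out : q.Prime).ne_zero
  rw [Matrix.det_fin_two] at hX
  by_cases hc : (q : ℤ) ∣ X 0 0 ∧ (q : ℤ) ∣ X 1 0
  · obtain ⟨⟨a, ha⟩, c, hc⟩ := hc
    let γ₀ : SL(2, ℤ) := ⟨!![a, X 0 1; c, X 1 1], by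
      rw [Matrix.det_fin_two_of]
      refine mul_left_cancel₀ hq0 ?_
      linear_combination hX - X 1 1 * ha + X 0 1 * hc⟩
    refine ⟨none, γ₀ * (eta M q)⁻¹, ?_⟩
    rw [lineR, ← Matrix.mul_assoc, ← Matrix.SpecialLinearGroup.coe_mul, inv_mul_cancel_right]
    ext i j
    fin_cases i <;> fin_cases j <;> simp [γ₀, Matrix.mul_apply, Fin.sum_univ_two, ha, hc, mul_comm]
  · have hdet : ((X 0 0 : ℤ) : ZMod q) * (X 1 1 : ℤ) - (X 0 1 : ℤ) * (X 1 0 : ℤ) = 0 := by
      rw [← Int.cast_mul, ← Int.cast_mul, ← Int.cast_sub, hX, Int.cast_natCast, ZMod.natCast_self]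
    have hM := natCast_M_ne_zero h
    obtain ⟨b, h0, h1⟩ : ∃ b : ZMod q, ((X 0 1 : ℤ) : ZMod q) = M * b * (X 0 0 : ℤ) ∧
        ((X 1 1 : ℤ) : ZMod q) = M * b * (X 1 0 : ℤ) := by
      by_cases h00 : ((X 0 0 : ℤ) : ZMod q) = 0
      · have h10 : ((X 1 0 : ℤ) : ZMod q) ≠ 0 := fun e => hc
          ⟨(ZMod.intCast_zmod_eq_zero_iff_dvd _ q).mp h00,
            (ZMod.intCast_zmod_eq_zero_iff_dvd _ q).mp e⟩
        refine ⟨(X 1 1 : ℤ) / (M * (X 1 0 : ℤ)), ?_, by field_simp⟩
        rw [h00, zero_mul, zero_sub, neg_eq_zero] at hdet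
        rw [h00, mul_zero, (mul_eq_zero.mp hdet).resolve_right h10]
      · refine ⟨(X 0 1 : ℤ) / (M * (X 0 0 : ℤ)), by field_simp, ?_⟩
        field_simp
        linear_combination hdet
    obtain ⟨e0, he0⟩ : (q : ℤ) ∣ X 0 1 - M * b.val * X 0 0 := by
      rw [← ZMod.intCast_zmod_eq_zero_iff_dvd]; push_cast; rw [ZMod.natCast_zmod_val, h0, sub_self]
    obtain ⟨e1, he1⟩ : (q : ℤ) ∣ X 1 1 - M * b.val * X 1 0 := by
      rw [← ZMod.intCast_zmod_eq_zero_iff_dvd]; push_cast; rw [ZMod.natCast_zmod_val, h1, sub_self]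
    refine ⟨some b, ⟨!![X 0 0, e0; X 1 0, e1], ?_⟩, ?_⟩
    · rw [Matrix.det_fin_two_of]
      refine mul_left_cancel₀ hq0 ?_
      linear_combination hX - X 0 0 * he1 + X 1 0 * he0
    · ext i j
      fin_cases i <;> fin_cases j <;>
        simp [lineR, Matrix.mul_apply, Fin.sum_univ_two, -ZMod.natCast_val]
      · linear_combination he0
      · linear_combination he1

/-- The line of a matrix is unique. -/
theorem line_unique (h : q.Coprime M) {L L' : Line q} {γ γ' : SL(2, ℤ)}
    (he : (γ : Matrix (Fin 2) (Fin 2) ℤ) * lineR M L = (γ' : Matrix (Fin 2) (Fin 2) ℤ) *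
        lineR M L') :
    L = L' := by
  have hq1 : ¬ (q : ℤ) ∣ 1 := fun hd => by
    have h1 := Int.le_of_dvd one_pos hd
    have h2 := (Fact.out : q.Prime).two_le
    omega
  have key : ∀ (L : Line q) (b' : ZMod q) (ε : SL(2, ℤ)),
      (ε : Matrix (Fin 2) (Fin 2) ℤ) * lineR M L = lineR M (some b') → L = some b' := by
    intro L b' ε he
    cases L with
    | none =>
      have h00 := congrFun (congrFun he 0) 0
      simp [lineR, Matrix.mul_apply, Fin.sum_univ_two] at h00
      exact absurd ⟨ε 0 0 * eta M q 0 0 + ε 0 1 * eta M q 1 0, by linear_combination -h00⟩ hq1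
    | some b =>
      have h00 := congrFun (congrFun he 0) 0
      have h01 := congrFun (congrFun he 0) 1
      simp [lineR, Matrix.mul_apply, Fin.sum_univ_two, -ZMod.natCast_val] at h00 h01
      rw [h00, one_mul] at h01
      have hc := congrArg (Int.cast : ℤ → ZMod q) h01
      push_cast at hc
      simp only [ZMod.natCast_self, mul_zero, add_zero, ZMod.natCast_zmod_val] at hc
      rw [mul_left_cancel₀ (natCast_M_ne_zero h) hc]
  have hinv : ∀ (ε : SL(2, ℤ)) (Y : Matrix (Fin 2) (Fin 2) ℤ),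
      ((ε⁻¹ : SL(2, ℤ)) : Matrix (Fin 2) (Fin 2) ℤ) * ((ε : Matrix (Fin 2) (Fin 2) ℤ) * Y) = Y :=
    fun ε Y => by
      rw [← Matrix.mul_assoc, ← Matrix.SpecialLinearGroup.coe_mul, inv_mul_cancel,
        Matrix.SpecialLinearGroup.coe_one, Matrix.one_mul]
  cases L' with
  | some b' =>
    refine key L b' (γ'⁻¹ * γ) ?_
    rw [Matrix.SpecialLinearGroup.coe_mul, Matrix.mul_assoc, he, hinv]
  | none =>
    cases L with
    | none => rfl
    | some b =>
      refine (key none b (γ⁻¹ * γ') ?_).symm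
      rw [Matrix.SpecialLinearGroup.coe_mul, Matrix.mul_assoc, ← he, hinv]

variable (h : q.Coprime M)

include h in
theorem exists_lineMove (δ : SL(2, ℤ)) (L : Line q) :
    ∃ (L' : Line q) (γ : SL(2, ℤ)),
      lineR M L * (δ : Matrix (Fin 2) (Fin 2) ℤ) = (γ : Matrix (Fin 2) (Fin 2) ℤ) * lineR M L' :=
  exists_line h (by rw [Matrix.det_mul, det_lineR, δ.det_coe, mul_one])

/-- The image of a line. -/
def lineMap (δ : SL(2, ℤ)) (L : Line q) : Line q := (exists_lineMove h δ L).choose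

/-- The cofactor of a line. -/
def lineLift (δ : SL(2, ℤ)) (L : Line q) : SL(2, ℤ) := (exists_lineMove h δ L).choose_spec.choose

theorem lineR_mul (δ : SL(2, ℤ)) (L : Line q) :
    lineR M L * (δ : Matrix (Fin 2) (Fin 2) ℤ) =
      (lineLift h δ L : Matrix (Fin 2) (Fin 2) ℤ) * lineR M (lineMap h δ L) :=
  (exists_lineMove h δ L).choose_spec.choose_spec

theorem lineMap_eq {δ γ : SL(2, ℤ)} {L L' : Line q}
    (he : lineR M L * (δ : Matrix (Fin 2) (Fin 2) ℤ) =
      (γ : Matrix (Fin 2) (Fin 2) ℤ) * lineR M L') : lineMap h δ L = L' :=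
  line_unique h ((lineR_mul h δ L).symm.trans he)

theorem lineMap_mul (δ ε : SL(2, ℤ)) (L : Line q) :
    lineMap h (δ * ε) L = lineMap h ε (lineMap h δ L) := by
  refine lineMap_eq h (γ := lineLift h δ L * lineLift h ε (lineMap h δ L)) ?_
  rw [Matrix.SpecialLinearGroup.coe_mul, ← Matrix.mul_assoc, lineR_mul h δ, Matrix.mul_assoc,
    lineR_mul h ε, Matrix.SpecialLinearGroup.coe_mul, Matrix.mul_assoc]

theorem lineMap_one (L : Line q) : lineMap h 1 L = L :=
  lineMap_eq h (γ := 1) (by simp)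

theorem lineMap_bijective (δ : SL(2, ℤ)) : Function.Bijective (lineMap h δ : Line q → Line q) :=
  Function.bijective_iff_has_inverse.mpr ⟨lineMap h δ⁻¹,
    fun L => by rw [← lineMap_mul, mul_inv_cancel, lineMap_one],
    fun L => by rw [← lineMap_mul, inv_mul_cancel, lineMap_one]⟩

/-- The permutation of the lines. -/
def linePerm (δ : SL(2, ℤ)) : Equiv.Perm (Line q) := Equiv.ofBijective _ (lineMap_bijective h δ)

theorem redMat_lineLift (δ : SL(2, ℤ)) (L : Line q) :
    redMat M (lineLift h δ L) * diagQ M q = diagQ M q * redMat M δ := by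
  have he := congrArg (fun Y : Matrix (Fin 2) (Fin 2) ℤ => Y.map (Int.castRingHom (ZMod M)))
    (lineR_mul h δ L)
  rw [Matrix.map_mul, Matrix.map_mul] at he
  simp only [Int.coe_castRingHom, map_lineR h] at he
  exact he.symm

open Classical in
/-- A lift of `D δ D⁻¹` modulo `M`, `D = diag (1, q)`. -/
def twistCusp (δ : SL(2, ℤ)) : SL(2, ℤ) := if δ = 1 then 1 else lineLift h δ none

theorem twistCusp_one : twistCusp h 1 = 1 := if_pos rfl

theorem redMat_twistCusp (δ : SL(2, ℤ)) :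
    redMat M (twistCusp h δ) * diagQ M q = diagQ M q * redMat M δ := by
  rw [twistCusp]
  split_ifs with hδ
  · rw [hδ, redMat_one, one_mul, mul_one]
  · exact redMat_lineLift h δ none

theorem redMat_twistCusp_eq (δ : SL(2, ℤ)) (L : Line q) :
    redMat M (twistCusp h δ) = redMat M (lineLift h δ L) :=
  diagQ_cancel h ((redMat_twistCusp h δ).trans (redMat_lineLift h δ L).symm)

/-- `U_a`. -/
def lowerU (M : ℕ) (a : ℤ) : SL(2, ℤ) := ⟨!![1, 0; (M : ℤ) * a, 1], by simp [Matrix.det_fin_two]⟩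

theorem lineMap_T (x : ℤ) (L : Line q) :
    lineMap h (ModularGroup.T ^ ((M : ℤ) * x)) L = L.map fun c => c + (x : ZMod q) := by
  cases L with
  | none =>
    refine lineMap_eq h (γ := eta M q * ModularGroup.T ^ ((q : ℤ) * (M * x)) * (eta M q)⁻¹) ?_
    simp only [Option.map_none, lineR, Matrix.SpecialLinearGroup.coe_mul, Matrix.mul_assoc]
    rw [← Matrix.mul_assoc ((eta M q)⁻¹ : SL(2, ℤ)).1, ← Matrix.SpecialLinearGroup.coe_mul,
      inv_mul_cancel, Matrix.SpecialLinearGroup.coe_one, Matrix.one_mul]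
    congr 1
    ext i j
    fin_cases i <;> fin_cases j <;>
      simp [ModularGroup.coe_T_zpow, Matrix.mul_apply, Fin.sum_univ_two]
  | some c =>
    obtain ⟨k, hk⟩ : (q : ℤ) ∣ (c.val : ℤ) + x - ((c + (x : ZMod q)).val : ℤ) := by
      rw [← ZMod.intCast_zmod_eq_zero_iff_dvd]
      push_cast
      rw [ZMod.natCast_zmod_val, ZMod.natCast_zmod_val, sub_self]
    refine lineMap_eq h (γ := ModularGroup.T ^ ((M : ℤ) * k)) ?_
    ext i j
    fin_cases i <;> fin_cases j <;>
      simp [lineR, ModularGroup.coe_T_zpow, Matrix.mul_apply, Fin.sum_univ_two, -ZMod.natCast_val]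
    linear_combination (M : ℤ) * hk

omit [Fact q.Prime] in
theorem T_mem_Gamma (x : ℤ) : ModularGroup.T ^ ((M : ℤ) * x) ∈ CongruenceSubgroup.Gamma M := by
  rw [_root_.zpow_mul]
  exact zpow_mem (T_zpow_mem_Gamma M) x

/-- `Γ(M)` moves `∞` to every finite line. -/
theorem exists_moved_none (b : ZMod q) :
    ∃ g ∈ CongruenceSubgroup.Gamma M, lineMap h g none = some b := by
  obtain ⟨c, hc⟩ : ∃ c : ZMod q, lineMap h (lowerU M 1) none = some c := by
    rcases hm : lineMap h (lowerU M 1) none with _ | c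
    · exfalso
      have he := lineR_mul h (lowerU M 1) none
      rw [hm] at he
      -- the first column would vanish modulo `q`
      have h00 := congrArg (Int.cast : ℤ → ZMod q) (congrFun (congrFun he 0) 0)
      have h10 := congrArg (Int.cast : ℤ → ZMod q) (congrFun (congrFun he 1) 0)
      have hM := natCast_M_ne_zero h
      simp [lineR, lowerU, Matrix.mul_apply, Fin.sum_univ_two, hM] at h00 h10
      have hd := congrArg (Int.cast : ℤ → ZMod q) (eta M q).det_coe
      rw [Matrix.det_fin_two] at hd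
      push_cast at hd
      rw [h00, h10] at hd
      simp at hd
    · exact ⟨c, rfl⟩
  refine ⟨lowerU M 1 * ModularGroup.T ^ ((M : ℤ) * ((b - c).val : ℤ)), mul_mem ?_ (T_mem_Gamma _),
    ?_⟩
  · rw [CongruenceSubgroup.Gamma_mem]
    simp [lowerU]
  · rw [lineMap_mul, hc, lineMap_T]
    simp

/-- `Γ(M)` is transitive on pairs of distinct lines. -/
theorem exists_pair_move {L L' : Line q} (hLL : L ≠ L') :
    ∃ ε ∈ CongruenceSubgroup.Gamma M,
      lineMap h ε none = L ∧ lineMap h ε (some 0) = L' := by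
  obtain ⟨g, hg, hgL⟩ : ∃ g ∈ CongruenceSubgroup.Gamma M, lineMap h g none = L := by
    cases L with
    | none => exact ⟨1, one_mem _, lineMap_one h none⟩
    | some b => exact exists_moved_none h b
  obtain ⟨L₀, hL₀⟩ := (lineMap_bijective h g).2 L'
  cases L₀ with
  | none => exact absurd (hgL.symm.trans hL₀) hLL
  | some b =>
    refine ⟨ModularGroup.T ^ ((M : ℤ) * (b.val : ℤ)) * g, mul_mem (T_mem_Gamma _) hg, ?_, ?_⟩
    · rw [lineMap_mul, lineMap_T]; exact hgL
    · rw [lineMap_mul, lineMap_T]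
      simpa using hL₀

end FLTAgent.CarayolSquare.Provider

end
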