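import Fermat.Agent.CarayolSquare.Provider.Hauptmodul

/-!
# The derivative of the Hauptmodul

`(θ h) ^ 6 = ∏ (h - r_i) ^ (6 - K) Δ` for the normalised Hauptmodul, giving the field `theta` of
`Model`.
-/

set_option autoImplicit false

noncomputable section

open Filter Complex
open UpperHalfPlane hiding I
open scoped UpperHalfPlane Real MatrixGroups Manifold Topology
open ModularCurve FLTAgent.LevelM

namespace FLTAgent.CarayolSquare.Provider

local notation "Qbar" => AlgebraicClosure ℚ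
local notation "𝕢" => Function.Periodic.qParam
local notation "Δ₀" => ModularForm.discriminant

/-! ### Derivatives of expansions -/

/-- `Σ cₙ qⁿ ↦ Σ n cₙ qⁿ`. -/
def thetaC (s : LaurentSeries ℂ) : LaurentSeries ℂ where
  coeff n := (n : ℂ) * s.coeff n
  isPWO_support' := s.isPWO_support'.mono fun n hn h0 => hn (by simp [h0])

@[simp] theorem thetaC_coeff (s : LaurentSeries ℂ) (n : ℤ) :
    (thetaC s).coeff n = (n : ℂ) * s.coeff n := rfl

/-- A function given by a power series times `q ^ m`. -/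
theorem hasExp_of_hasSum {h : ℕ} {f : ℍ → ℂ} (m : ℤ) (a : ℕ → ℂ)
    (hf : ∀ᶠ τ : ℍ in atImInfty, ∃ g, HasSum (fun k : ℕ => a k * 𝕢 (h : ℝ) τ ^ k) g ∧
      f τ = 𝕢 (h : ℝ) τ ^ m * g) :
    HasExp h f (HahnSeries.single m 1 * HahnSeries.ofPowerSeries ℤ ℂ (PowerSeries.mk a)) := by
  filter_upwards [hf] with τ hτ
  obtain ⟨g, hg, hfg⟩ := hτ
  set q := 𝕢 (h : ℝ) (τ : ℂ)
  have hinj : Function.Injective (fun n : ℕ => m + (n : ℤ)) := fun a b hab => by simpa using hab
  rw [hfg]
  refine (hinj.hasSum_iff ?_).mp ?_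
  · intro k hk
    rw [HahnSeries.coeff_single_mul]
    rcases lt_or_ge (k - m) 0 with hneg | hpos
    · simp [ModularCurve.ofPowerSeries_coeff_of_neg _ hneg]
    · exact absurd ⟨(k - m).toNat, by simp [Int.toNat_of_nonneg hpos]⟩ hk
  · refine (hg.mul_left (q ^ m)).congr_fun fun n => ?_
    simp only [Function.comp, HahnSeries.coeff_single_mul, add_sub_cancel_left, one_mul,
      HahnSeries.ofPowerSeries_apply_coeff, PowerSeries.coeff_mk]
    rw [zpow_add₀ (show q ≠ 0 from Complex.exp_ne_zero _), zpow_natCast]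
    ring

theorem thetaC_shift (m : ℤ) (a : ℕ → ℂ) :
    thetaC (HahnSeries.single m 1 * HahnSeries.ofPowerSeries ℤ ℂ (PowerSeries.mk a)) =
      HahnSeries.single m 1 *
        HahnSeries.ofPowerSeries ℤ ℂ (PowerSeries.mk fun k => ((m : ℂ) + k) * a k) := by
  ext n
  rw [thetaC_coeff, HahnSeries.coeff_single_mul, HahnSeries.coeff_single_mul, one_mul, one_mul]
  rcases lt_or_ge (n - m) 0 with hneg | hpos
  · simp [ModularCurve.ofPowerSeries_coeff_of_neg _ hneg]
  · obtain ⟨k, hk⟩ := Int.eq_ofNat_of_zero_le hpos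
    rw [hk, HahnSeries.ofPowerSeries_apply_coeff, HahnSeries.ofPowerSeries_apply_coeff,
      PowerSeries.coeff_mk, PowerSeries.coeff_mk, show n = m + (k : ℤ) by omega]
    push_cast
    ring

/-- `(h / 2πi) d/dτ`. -/
def dq (h : ℕ) (f : ℍ → ℂ) : ℍ → ℂ := fun τ =>
  deriv (f ∘ UpperHalfPlane.ofComplex) (τ : ℂ) / (2 * π * I / h)

theorem hasExp_dq {h : ℕ} (hh : 0 < h) {f : ℍ → ℂ} {s : LaurentSeries ℂ} (hs : HasExp h f s) :
    HasExp h (dq h f) (thetaC s) := by
  rcases eq_or_ne s 0 with rfl | hs0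
  · have h0 : ∀ᶠ τ : ℍ in atImInfty, f τ = 0 := by
      filter_upwards [hs] with τ hτ
      exact hτ.unique (by simp [hasSum_zero])
    obtain ⟨A, hA⟩ := (atImInfty_mem _).mp h0
    have : HasExp h (dq h f) 0 := by
      refine (hasExp_zero h).congr ((atImInfty_mem _).mpr ⟨A + 1, fun τ hτ => ?_⟩)
      show (0 : ℂ) = dq h f τ
      have he : (f ∘ UpperHalfPlane.ofComplex) =ᶠ[𝓝 (τ : ℂ)] fun _ => (0 : ℂ) := by
        have hU : IsOpen {z : ℂ | max A 0 < z.im} :=
            isOpen_lt continuous_const Complex.continuous_im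
        filter_upwards [hU.mem_nhds (show max A 0 < (τ : ℂ).im from
          max_lt (by show A < τ.im; linarith) τ.im_pos)] with z hz
        rw [Function.comp_apply,
          UpperHalfPlane.ofComplex_apply_of_im_pos ((le_max_right A 0).trans_lt hz)]
        exact hA _ ((le_max_left A 0).trans hz.le)
      rw [dq, he.deriv_eq, deriv_const, zero_div]
    convert this
    ext n
    simp
  set m := s.order
  obtain ⟨G, hG, -, hGeq⟩ :=
    hs.exists_analyticAt hh (m := m) fun n hn => HahnSeries.coeff_eq_zero_of_lt_order hn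
  set a : ℕ → ℂ := fun k => iteratedDeriv k G 0 / k.factorial with ha
  have hGa : ∀ᶠ z in 𝓝 (0 : ℂ), HasSum (fun k : ℕ => a k * z ^ k) (G z) := by
    filter_upwards [hasFPowerSeriesAt_iff.mp hG.hasFPowerSeriesAt] with z hz
    simp only [zero_add] at hz
    refine hz.congr_fun fun k => ?_
    simp [ha, FormalMultilinearSeries.coeff_ofScalars, mul_comm]
  have hG'a : ∀ᶠ z in 𝓝 (0 : ℂ), HasSum (fun k : ℕ => ((m : ℂ) + k) * a k * z ^ k)
      ((m : ℂ) * G z + z * deriv G z) := by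
    filter_upwards [hGa, hasFPowerSeriesAt_iff.mp hG.deriv.hasFPowerSeriesAt] with z h1 h2
    simp only [zero_add] at h2
    have h3 : HasSum (fun k : ℕ => ((k + 1 : ℕ) : ℂ) * a (k + 1) * z ^ (k + 1))
        (z * deriv G z) := by
      refine (h2.mul_left z).congr_fun fun k => ?_
      simp only [ha, FormalMultilinearSeries.coeff_ofScalars, smul_eq_mul,
        ← iteratedDeriv_succ', Nat.factorial_succ, Nat.cast_mul]
      have : ((k.factorial : ℕ) : ℂ) ≠ 0 := Nat.cast_ne_zero.mpr k.factorial_ne_zero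
      have : ((k + 1 : ℕ) : ℂ) ≠ 0 := Nat.cast_ne_zero.mpr k.succ_ne_zero
      field_simp
      ring
    have h4 := (hasSum_nat_add_iff (f := fun k : ℕ => (k : ℂ) * a k * z ^ k) 1).mp h3
    simp only [Finset.range_one, Finset.sum_singleton, Nat.cast_zero, zero_mul, add_zero] at h4
    exact ((h1.mul_left (m : ℂ)).add h4).congr_fun fun k => by ring
  have hs' : s = HahnSeries.single m 1 * HahnSeries.ofPowerSeries ℤ ℂ (PowerSeries.mk a) := by
    refine hs.unique hh (hasExp_of_hasSum m a ?_)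
    filter_upwards [hGeq, eventually_qParam_mem hh hGa] with τ h1 h2
    exact ⟨_, h2, h1⟩
  rw [hs', thetaC_shift]
  refine hasExp_of_hasSum m _ ?_
  obtain ⟨A, hA⟩ := (atImInfty_mem _).mp
    (hGeq.and (eventually_qParam_mem hh hG.eventually_analyticAt))
  have hev : ∀ᶠ τ : ℍ in atImInfty, A + 1 ≤ τ.im :=
    (atImInfty_mem _).mpr ⟨A + 1, fun τ hτ => hτ⟩
  filter_upwards [hev, eventually_qParam_mem hh hG'a] with τ him hsum
  refine ⟨_, hsum, ?_⟩
  obtain ⟨-, han⟩ := hA τ (by linarith)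
  set c : ℂ := 2 * π * I / h with hc
  have hc0 : c ≠ 0 := by
    rw [hc]
    simp [Real.pi_ne_zero, Complex.I_ne_zero, hh.ne']
  set Q : ℂ → ℂ := fun z => 𝕢 (h : ℝ) z with hQ
  have hQd : HasDerivAt Q (c * Q τ) (τ : ℂ) := by
    have h1 : HasDerivAt (fun z : ℂ => 2 * π * I * z / ((h : ℝ) : ℂ))
        (2 * π * I * 1 / ((h : ℝ) : ℂ)) (τ : ℂ) :=
      ((hasDerivAt_id _).const_mul _).div_const _
    have h2 := h1.cexp
    rw [hQ]
    refine h2.congr_deriv ?_
    simp only [Function.Periodic.qParam, hc]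
    push_cast
    ring
  have hQ0 : Q τ ≠ 0 := Complex.exp_ne_zero _
  have hd := (hasDerivAt_zpow m (Q τ) (Or.inl hQ0)).comp (τ : ℂ) hQd
  have hd2 := han.differentiableAt.hasDerivAt.comp (τ : ℂ) hQd
  have hd3 := hd.mul hd2
  have he : (f ∘ UpperHalfPlane.ofComplex) =ᶠ[𝓝 (τ : ℂ)]
      ((fun x => x ^ m) ∘ Q) * (G ∘ Q) := by
    have hU : IsOpen {z : ℂ | max A 0 < z.im} := isOpen_lt continuous_const Complex.continuous_im
    filter_upwards [hU.mem_nhds (show max A 0 < (τ : ℂ).im from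
      max_lt (by show A < τ.im; linarith) τ.im_pos)] with z hz
    have hz0 : 0 < z.im := (le_max_right A 0).trans_lt hz
    rw [Function.comp_apply, UpperHalfPlane.ofComplex_apply_of_im_pos hz0]
    exact (hA ⟨z, hz0⟩ ((le_max_left A 0).trans hz.le)).1
  rw [dq, he.deriv_eq, hd3.deriv, ← hc]
  simp only [Function.comp_apply, hQ]
  rw [div_eq_iff hc0, zpow_sub_one₀ hQ0]
  have hQ0' : 𝕢 (h : ℝ) (τ : ℂ) ≠ 0 := hQ0
  field_simp
  ring

theorem mdiff_dq {h : ℕ} {f : ℍ → ℂ} (hf : MDiff f) : MDiff (dq h f) := by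
  rw [UpperHalfPlane.mdifferentiable_iff] at hf ⊢
  have hopen : IsOpen {z : ℂ | 0 < z.im} := isOpen_lt continuous_const Complex.continuous_im
  refine ((hf.deriv hopen).div_const (2 * π * I / h)).congr fun z hz => ?_
  rw [Function.comp_apply, dq, UpperHalfPlane.ofComplex_apply_of_im_pos hz]

theorem dq_smul {h : ℕ} {f : ℍ → ℂ} (hf : MDiff f) (γ : SL(2, ℤ)) (τ : ℍ) :
    dq h f (γ • τ) = UpperHalfPlane.denom γ τ ^ 2 * dq h (act γ f) τ := by
  rw [UpperHalfPlane.mdifferentiable_iff] at hf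
  have hopen : IsOpen {z : ℂ | 0 < z.im} := isOpen_lt continuous_const Complex.continuous_im
  have hd := (hf.differentiableAt (hopen.mem_nhds (γ • τ).im_pos)).hasDerivAt
  set a : ℂ := ((γ 0 0 : ℤ) : ℂ) with ha
  set b : ℂ := ((γ 0 1 : ℤ) : ℂ) with hb
  set c : ℂ := ((γ 1 0 : ℤ) : ℂ) with hc
  set d : ℂ := ((γ 1 1 : ℤ) : ℂ) with hdd
  have hden : UpperHalfPlane.denom γ τ = c * τ + d := by
    simp [UpperHalfPlane.denom, hc, hdd]
  have hne : c * (τ : ℂ) + d ≠ 0 := hden ▸ UpperHalfPlane.denom_ne_zero _ τ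
  have hcoe : ∀ z : ℍ, ((γ • z : ℍ) : ℂ) = (a * z + b) / (c * z + d) := fun z => by
    rw [UpperHalfPlane.coe_specialLinearGroup_apply]
    simp [ha, hb, hc, hdd]
  have hdet : a * d - b * c = 1 := by
    have h := γ.2
    rw [Matrix.det_fin_two] at h
    rw [ha, hb, hc, hdd]
    exact_mod_cast h
  have hM : HasDerivAt (fun z : ℂ => (a * z + b) / (c * z + d)) (1 / (c * τ + d) ^ 2) (τ : ℂ) := by
    refine ((((hasDerivAt_id (τ : ℂ)).const_mul a).add_const b).div
      (((hasDerivAt_id (τ : ℂ)).const_mul c).add_const d) hne).congr_deriv ?_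
    simp only [id_eq]
    congr 1
    linear_combination hdet
  have hd' : HasDerivAt (f ∘ UpperHalfPlane.ofComplex)
      (deriv (f ∘ UpperHalfPlane.ofComplex) ((γ • τ : ℍ) : ℂ))
      ((a * (τ : ℂ) + b) / (c * τ + d)) := hcoe τ ▸ hd
  have he : (act γ f ∘ UpperHalfPlane.ofComplex) =ᶠ[𝓝 (τ : ℂ)]
      (f ∘ UpperHalfPlane.ofComplex) ∘ fun z : ℂ => (a * z + b) / (c * z + d) := by
    filter_upwards [hopen.mem_nhds τ.im_pos] with z hz
    rw [Function.comp_apply, Function.comp_apply, UpperHalfPlane.ofComplex_apply_of_im_pos hz,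
      act_apply, show (a * z + b) / (c * z + d) =
          ((γ • (⟨z, hz⟩ : ℍ) : ℍ) : ℂ) from (hcoe ⟨z, hz⟩).symm,
      Function.comp_apply, UpperHalfPlane.ofComplex_apply]
  rw [dq, dq, he.deriv_eq, (hd'.comp (τ : ℂ) hM).deriv, hden]
  field_simp

/-! ### The identity -/

variable {K : ℕ} [NeZero K]

/-- `(dq h)⁶ / Δ`. -/
def thetaFun (K : ℕ) (f : ℍ → ℂ) : ℍ → ℂ := dq K f ^ 6 * fun τ => (Δ₀ τ)⁻¹

omit [NeZero K] in
theorem act_thetaFun {f : ℍ → ℂ} (hf : MDiff f) (γ : SL(2, ℤ)) :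
    act γ (thetaFun K f) = thetaFun K (act γ f) := by
  funext τ
  simp only [act_apply, thetaFun, Pi.mul_apply, Pi.pow_apply, dq_smul hf, Igusa.disc_smul]
  have := UpperHalfPlane.denom_ne_zero (Matrix.SpecialLinearGroup.mapGL ℝ γ) τ
  have := ModularForm.discriminant_ne_zero τ
  field_simp

theorem discInv_low {n : ℤ} (hn : n < -(K : ℤ)) :
    (qExpand ℂ K (Igusa.discInvSeries ℂ)).coeff n = 0 := by
  by_cases hd : (K : ℤ) ∣ n
  · obtain ⟨m, rfl⟩ := hd
    rw [qExpand_coeff_mul, Igusa.discInvSeries, HahnSeries.coeff_single_mul,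
      ofPowerSeries_coeff_of_neg, mul_zero]
    by_contra hm
    push Not at hm
    nlinarith
  · exact qExpand_coeff_of_not_dvd _ _ hd

theorem discInv_lead : (qExpand ℂ K (Igusa.discInvSeries ℂ)).coeff (-(K : ℤ)) = 1 := by
  rw [show -(K : ℤ) = (K : ℤ) * (-1) by ring, qExpand_coeff_mul, Igusa.discInvSeries,
    HahnSeries.coeff_single_mul, show (-1 : ℤ) - -1 = ((0 : ℕ) : ℤ) by simp,
    HahnSeries.ofPowerSeries_apply_coeff, PowerSeries.coeff_map,
    PowerSeries.coeff_zero_eq_constantCoeff, constantCoeff_dedekindEtaUnitInv]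
  simp

theorem lead_prod {ι : Type*} {O : Subring ℂ} {h : ℕ} (hh : 0 < h) (A : Finset ι)
    {F : ι → ℍ → ℂ} {m : ι → ℤ} {c : ι → ℂ} (hF : ∀ i ∈ A, Lead h O (F i) (m i) (c i)) :
    Lead h O (∏ i ∈ A, F i) (∑ i ∈ A, m i) (∏ i ∈ A, c i) := by
  induction A using Finset.cons_induction with
  | empty =>
    rw [Finset.prod_empty, Finset.sum_empty, Finset.prod_empty]
    exact lead_const (h := h) O.one_mem
  | cons a A ha ih =>
    rw [Finset.prod_cons, Finset.sum_cons, Finset.prod_cons]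
    exact (hF a (Finset.mem_cons_self a A)).mul hh (ih fun i hi => hF i (Finset.mem_cons_of_mem hi))

theorem Haupt.thetaFun_eq (H : Haupt K) :
    thetaFun K H.h = (∏ i ∈ Finset.univ.erase 0, (H.h - fun _ => H.r i)) ^ (6 - K) := by
  have hh := H.small.pos
  set R := smallRing K
  set F := thetaFun K H.h * H.w ^ (6 - K) with hF
  have hcard : (Finset.univ.erase (0 : Fin (K + 1))).card = K := by
    rw [Finset.card_erase_of_mem (Finset.mem_univ _), Finset.card_univ, Fintype.card_fin,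
      Nat.add_sub_cancel]
  have hinv : ∀ γ ∈ CongruenceSubgroup.Gamma K, act γ F = F := fun γ hγ => by
    rw [hF, map_mul, map_pow, act_thetaFun H.h_mem.1, H.h_mem.2.1 γ hγ, H.w_mem.2.1 γ hγ]
  have hmd : MDiff F := by
    refine MDifferentiable.mul ?_ (H.w_mem.1.pow _)
    exact (((mdiff_dq H.h_mem.1).pow 6).mul Igusa.mdiff_disc_inv)
  have hdisc : HasExp K (fun τ => (Δ₀ τ)⁻¹) (qExpand ℂ K (Igusa.discInvSeries ℂ)) := by
    have := (hasExp_of_hasLaurent (h := 1) (by simpa using Igusa.hasLaurent_disc_inv)).qExpand K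
    rwa [mul_one] at this
  -- the inverse cusp polynomial at each cusp
  have hw : ∀ l, ∃ c, Lead K R (act (cuspRep K l) H.w) (if l = 0 then (K : ℤ) else -1) c ∧
      (l = 0 → c = 1) := by
    intro l
    have hch : ∀ i : Fin (K + 1), ∃ c, i ≠ 0 → IsUnitIn R c ∧
        Lead K R (act (cuspRep K l) (H.h - fun _ => H.r i)) (subOrd K i l) c ∧ (l = 0 → c = 1) := by
      intro i
      rcases eq_or_ne i 0 with rfl | hi
      · exact ⟨0, fun h => absurd rfl h⟩
      · obtain ⟨c, hc, hL⟩ := H.lead_sub i hi l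
        refine ⟨c, fun _ => ⟨hc, hL, fun hl0 => ?_⟩⟩
        subst hl0
        obtain ⟨s, hs, -, hs1, hs2⟩ := hL
        obtain ⟨t, ht, -, ht1, ht2⟩ := H.lead
        rw [cuspRep_zero, act_one] at hs
        rw [hs.unique hh (ht.sub (hasExp_C K _)), HahnSeries.coeff_sub, subOrd, if_neg (Ne.symm hi),
          if_pos rfl, ht2, HahnSeries.C_apply, HahnSeries.coeff_single_of_ne (by omega),
          sub_zero] at hs2
        exact hs2.symm
    choose c hc using hch
    have hP := lead_prod hh (Finset.univ.erase 0) fun i hi =>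
      (hc i (Finset.ne_of_mem_erase hi)).2.1
    have hsum : ∑ i ∈ Finset.univ.erase 0, subOrd K i l = if l = 0 then -(K : ℤ) else 1 := by
      split_ifs with hl
      · subst hl
        rw [Finset.sum_congr rfl fun i hi => show subOrd K i 0 = -1 by
          rw [subOrd, if_neg (Finset.ne_of_mem_erase hi).symm, if_pos rfl]]
        simp [hcard]
      · rw [Finset.sum_eq_single_of_mem l (Finset.mem_erase.mpr ⟨hl, Finset.mem_univ _⟩)
          fun i _ hil => by rw [subOrd, if_neg (Ne.symm hil), if_neg hl]]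
        rw [subOrd, if_pos rfl]
    have hu : ∀ A : Finset (Fin (K + 1)), (∀ i ∈ A, i ≠ 0) → IsUnitIn R (∏ i ∈ A, c i) := by
      intro A
      induction A using Finset.cons_induction with
      | empty => intro _; simpa using isUnitIn_one
      | cons a A ha ih =>
        intro hA
        rw [Finset.prod_cons]
        exact (hc a (hA a (Finset.mem_cons_self a A))).1.mul
          (ih fun i hi => hA i (Finset.mem_cons_of_mem hi))
    have hI := hP.inv hh (hu _ fun i hi => Finset.ne_of_mem_erase hi)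
    have hweq : (∏ i ∈ Finset.univ.erase 0, act (cuspRep K l) (H.h - fun _ => H.r i))⁻¹ =
        act (cuspRep K l) H.w := by
      rw [← map_prod]
      funext τ
      have h1 := congrFun H.w_mul (cuspRep K l • τ)
      simp only [Pi.mul_apply, Pi.one_apply] at h1
      simp only [Pi.inv_apply, act_apply]
      exact (eq_inv_of_mul_eq_one_left h1).symm
    rw [hweq, hsum] at hI
    refine ⟨(∏ i ∈ Finset.univ.erase 0, c i)⁻¹, ?_, fun hl => ?_⟩
    · convert hI using 1
      split_ifs <;> simp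
    · rw [Finset.prod_eq_one fun i hi => (hc i (Finset.ne_of_mem_erase hi)).2.2 hl, inv_one]
  have hrep : ∀ l, ∃ t, HasExp K (act (cuspRep K l) F) t ∧ (∀ n < 0, t.coeff n = 0) ∧
      (l = 0 → t.coeff 0 = 1) := by
    intro l
    obtain ⟨cw, hLw, hcw⟩ := hw l
    obtain ⟨v, hv, -, hv1, hv2⟩ := hLw
    obtain ⟨t, ht, ht1, ht2⟩ : ∃ t, HasExp K (act (cuspRep K l) H.h) t ∧
        (∀ n < (if l = 0 then (-1 : ℤ) else 1), (thetaC t).coeff n = 0) ∧
        (l = 0 → (thetaC t).coeff (-1) = -1) := by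
      rcases eq_or_ne l 0 with rfl | hl
      · obtain ⟨t, ht, -, ht1, ht2⟩ := H.lead
        refine ⟨t, by rwa [cuspRep_zero, act_one], fun n hn => ?_, fun _ => ?_⟩
        · rw [if_pos rfl] at hn; rw [thetaC_coeff, ht1 n hn, mul_zero]
        · rw [thetaC_coeff, ht2]; simp
      · obtain ⟨t, ht, ht0, -⟩ := H.noPole hl
        refine ⟨t, ht, fun n hn => ?_, fun h => absurd h hl⟩
        rw [if_neg hl] at hn
        rw [thetaC_coeff]
        rcases lt_or_eq_of_le (show n ≤ 0 by omega) with h | rfl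
        · rw [ht0 n h, mul_zero]
        · simp
    set m : ℤ := if l = 0 then -1 else 1
    have hT := coeff_pow_below ht1 6
    have hW := coeff_pow_below hv1 (6 - K)
    have hd := fun n (hn : n < -(K : ℤ)) => discInv_low (K := K) hn
    refine ⟨thetaC t ^ 6 * qExpand ℂ K (Igusa.discInvSeries ℂ) * v ^ (6 - K), ?_, ?_, ?_⟩
    · rw [hF, map_mul, map_pow, act_thetaFun H.h_mem.1]
      exact (((hasExp_dq hh ht).pow 6).mul hdisc).mul (hv.pow _)
    · intro n hn
      refine coeff_mul_below (fun j hj => coeff_mul_below hT.1 hd hj) hW.1 ?_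
      rcases H.small with rfl | rfl <;> rcases eq_or_ne l 0 with rfl | hl <;>
        simp [m, *]
    · intro hl
      subst hl
      have hsum : (0 : ℤ) = ((6 : ℕ) : ℤ) * m + -(K : ℤ) +
          ((6 - K : ℕ) : ℤ) * (if (0 : Fin (K + 1)) = 0 then (K : ℤ) else -1) := by
        rcases H.small with rfl | rfl <;> simp [m]
      rw [hsum, coeff_mul_lead (fun j hj => coeff_mul_below hT.1 hd hj) hW.1,
        coeff_mul_lead hT.1 hd, hT.2, hW.2, discInv_lead, hv2, hcw rfl,
        show m = -1 from if_pos rfl, ht2 rfl]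
      norm_num
  obtain ⟨κ, hκ⟩ := eq_const_of_orders_nonneg hh hmd hinv fun δ => by
    obtain ⟨l, j, hlj⟩ := cuspRep_cover H.small δ
    obtain ⟨t, ht, ht0, -⟩ := hrep l
    refine ⟨_, (hlj F hinv) ▸ ht.act_T j, fun n hn => ?_⟩
    rw [twist_coeff, ht0 n hn, zero_mul]
  have hκ1 : κ = 1 := by
    obtain ⟨t, ht, -, ht0⟩ := hrep 0
    rw [hκ] at ht
    have := congrArg (fun z : LaurentSeries ℂ => z.coeff 0) (ht.unique hh (hasExp_C K κ))
    simp only [HahnSeries.C_apply, HahnSeries.coeff_single_same, ht0 rfl] at this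
    exact this.symm
  have h1 : thetaFun K H.h * H.w ^ (6 - K) = 1 := by rw [← hF, hκ, hκ1]; rfl
  calc thetaFun K H.h
      = thetaFun K H.h *
          (H.w * ∏ i ∈ Finset.univ.erase 0, (H.h - fun _ => H.r i)) ^ (6 - K) := by
        rw [H.w_mul, one_pow, mul_one]
    _ = _ := by rw [mul_pow, ← mul_assoc, h1, one_mul]

/-! ### The field of the model -/

variable {q : ℕ} (X : Ctx q) {M : ℕ} [NeZero M] (hl : Lvl q M K) (H : Haupt K)

theorem coeffMap_thetaSer (s : Ser) :
    coeffMap (emb X) (thetaSer s) = thetaC (coeffMap (emb X) s) := by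
  ext n
  show emb X ((n : Qbar) * s.coeff n) = (n : ℂ) * emb X (s.coeff n)
  rw [map_mul, map_intCast]

theorem thetaC_qExpand (e : ℕ) [NeZero e] (s : LaurentSeries ℂ) :
    thetaC (qExpand ℂ e s) = HahnSeries.C (e : ℂ) * qExpand ℂ e (thetaC s) := by
  ext n
  rw [thetaC_coeff, HahnSeries.C_mul_eq_smul, HahnSeries.coeff_smul, smul_eq_mul]
  by_cases hd : (e : ℤ) ∣ n
  · obtain ⟨m, rfl⟩ := hd
    rw [qExpand_coeff_mul, qExpand_coeff_mul, thetaC_coeff]
    push_cast
    ring
  · rw [qExpand_coeff_of_not_dvd _ _ hd, qExpand_coeff_of_not_dvd _ _ hd, mul_zero, mul_zero]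

/-- `(θ h) ^ 6 = R Δ`. -/
theorem theta :
    ∃ R ∈ Algebra.adjoin X.O ({hC X hl H, DC X hl H} : Set (CRing X M)),
    ∃ R' ∈ Algebra.adjoin X.O ({hC X hl H, DC X hl H} : Set (CRing X M)),
      R * R' = 1 ∧
        thetaSer (hC X hl H : Ser) ^ 6 = (R : Ser) * qExpand Qbar M (Igusa.discSeries Qbar) := by
  classical
  obtain ⟨e, _, s, he, hs, -, -, -, hse⟩ := exists_series X hl H
  have hqe : ¬ q ∣ e := fun hd => hl.notdvd (he ▸ dvd_mul_of_dvd_right hd K)
  have hu : IsUnit ((e : X.O)) := by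
    rw [X.isUnit_iff_valuation]
    simpa using natCast_valuation X hqe
  obtain ⟨u, hu⟩ := hu
  set A := Algebra.adjoin X.O ({hC X hl H, DC X hl H} : Set (CRing X M))
  have hh : hC X hl H ∈ A := Algebra.subset_adjoin (Set.mem_insert _ _)
  have hD : DC X hl H ∈ A := Algebra.subset_adjoin (Set.mem_insert_of_mem _ rfl)
  set P := ∏ a ∈ roots X hl H, (hC X hl H - algebraMap X.O (CRing X M) a) with hPdef
  refine ⟨algebraMap X.O _ ((u : X.O) ^ 6) * P ^ (6 - K),
    A.mul_mem (A.algebraMap_mem _) (A.pow_mem (A.prod_mem fun a _ =>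
      A.sub_mem hh (A.algebraMap_mem a)) _),
    algebraMap X.O _ (((u⁻¹ : (X.O)ˣ) : X.O) ^ 6) * DC X hl H ^ (6 - K),
    A.mul_mem (A.algebraMap_mem _) (A.pow_mem hD _), ?_, ?_⟩
  · rw [mul_mul_mul_comm, ← map_mul, ← mul_pow, Units.mul_inv, one_pow, map_one, one_mul,
      ← mul_pow, mul_comm P, DC_mul, one_pow]
  refine coeffMap_emb_injective (X := X) ?_
  set PL := ∏ a ∈ roots X hl H, (hL X hl H - algebraMap X.O (LRing X M) a) with hPL
  have hP : (P : Ser) = ev X M PL := by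
    rw [← coe_equivC, hPL, map_prod, hPdef]
    congr 1
    exact Finset.prod_congr rfl fun a _ => by rw [map_sub, AlgEquiv.commutes]; rfl
  have hPfun : (PL : ℍ → ℂ) = ∏ i ∈ Finset.univ.erase 0, (H.h - fun _ => H.r i) := by
    rw [hPL, roots, Finset.prod_image (rootO_injOn X hl H), ← Subring.subtype_apply, map_prod]
    simp only [Subring.subtype_apply, coe_hsub, embK_rootO]
    rfl
  have hM : 0 < M := Nat.pos_of_ne_zero (NeZero.ne M)
  have hΔ : HasExp M Δ₀ (coeffMap (emb X) (qExpand Qbar M (Igusa.discSeries Qbar))) :=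
    (hasExp_disc_M X).1
  have hdq : HasExp M (dq K H.h) (qExpand ℂ e (thetaC s)) := by
    have h1 := (hasExp_dq H.small.pos hs).qExpand e
    rwa [mul_comm e K, ← he] at h1
  -- both sides expand `e⁶ Δ thetaFun`
  have hL : HasExp M ((fun _ => ((e : ℂ)) ^ 6) * dq K H.h ^ 6)
      (coeffMap (emb X) (thetaSer (hC X hl H : Ser) ^ 6)) := by
    rw [map_pow, coeffMap_thetaSer, show (hC X hl H : Ser) = ev X M (hL X hl H) from rfl, hse,
      thetaC_qExpand, mul_pow, ← map_pow]
    exact (hasExp_C M _).mul (hdq.pow 6)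
  refine hL.unique hM ?_
  rw [map_mul, Subalgebra.coe_mul, map_mul, SubmonoidClass.coe_pow, map_pow, hP]
  have hR : HasExp M ((fun _ => ((e : ℂ)) ^ 6) * dq K H.h ^ 6)
      (HahnSeries.C ((e : ℂ) ^ 6) * coeffMap (emb X) (ev X M PL) ^ (6 - K) *
        coeffMap (emb X) (qExpand Qbar M (Igusa.discSeries Qbar))) := by
    refine (((hasExp_C M ((e : ℂ) ^ 6)).mul ((hasExp_ev PL).pow (6 - K))).mul hΔ).congr
      (Eventually.of_forall fun τ => ?_)
    have hF := congrFun H.thetaFun_eq τ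
    simp only [thetaFun, Pi.mul_apply, Pi.pow_apply] at hF ⊢
    rw [hPfun, ← hF]
    have := ModularForm.discriminant_ne_zero τ
    field_simp
  have hc : coeffMap (emb X) ((algebraMap X.O (CRing X M) ((u : X.O) ^ 6) : CRing X M) : Ser) =
      HahnSeries.C ((e : ℂ) ^ 6) := by
    rw [Subalgebra.coe_algebraMap, X.algebraMap_eq_C, HahnSeries.C_apply, coeffMap_single,
      HahnSeries.C_apply]
    congr 1
    rw [SubmonoidClass.coe_pow, map_pow, map_pow, hu, SubringClass.coe_natCast, map_natCast,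
      map_natCast]
  rw [← map_pow (algebraMap X.O (CRing X M)), hc]
  simp only [map_pow] at hR ⊢
  exact hR

end FLTAgent.CarayolSquare.Provider

end
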