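import Fermat.Agent.CarayolSquare.Provider.Basics
import Fermat.Agent.CarayolSquare.Provider.Lines
import Fermat.Agent.CarayolSquare.Geometry.Embeddings

/-!
# Translates along lines

The translates along lines as functions on `ℍ` (`discFun`, `genFun`), their expansions
(`hasExp_genFun`), their symmetric functions (`exists_symm`) and their relations (`transfer`),
for the fields `symm` and `transfer` of `Model`.
-/

set_option autoImplicit false

noncomputable section

open Filter Complex
open UpperHalfPlane hiding I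
open scoped UpperHalfPlane MatrixGroups Manifold
open ModularCurve FLTAgent.LevelM

namespace FLTAgent.CarayolSquare.Provider

local notation "Qbar" => AlgebraicClosure ℚ
local notation "𝕢" => Function.Periodic.qParam
local notation "Δ₀" => ModularForm.discriminant

/-! ### The action of the line matrices -/

variable {q : ℕ} (M : ℕ) [Fact q.Prime]

theorem det_lineR_cast_ne (L : Line q) :
    Matrix.det ((lineR M L).map ((↑) : ℤ → ℝ)) ≠ 0 := by
  rw [show (lineR M L).map ((↑) : ℤ → ℝ) = (Int.castRingHom ℝ).mapMatrix (lineR M L) from rfl,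
    ← RingHom.map_det, det_lineR]
  simp [(Fact.out : q.Prime).ne_zero]

/-- The line matrix in `GL (2, ℝ)`. -/
def glLine (L : Line q) : GL (Fin 2) ℝ :=
  Matrix.GeneralLinearGroup.mkOfDetNeZero ((lineR M L).map ((↑) : ℤ → ℝ)) (det_lineR_cast_ne M L)

theorem coe_glLine (L : Line q) :
    (glLine M L : Matrix (Fin 2) (Fin 2) ℝ) = (lineR M L).map ((↑) : ℤ → ℝ) := rfl

theorem det_glLine_pos (L : Line q) : 0 < (glLine M L).det.val := by
  show 0 < Matrix.det ((lineR M L).map ((↑) : ℤ → ℝ))
  rw [show (lineR M L).map ((↑) : ℤ → ℝ) = (Int.castRingHom ℝ).mapMatrix (lineR M L) from rfl,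
    ← RingHom.map_det, det_lineR]
  simp [(Fact.out : q.Prime).pos]

/-- `τ ↦ R_L τ`. -/
def lineTau (L : Line q) (τ : ℍ) : ℍ := glLine M L • τ

/-- `τ ↦ q¹² Δ (R_L τ) / (denominator)¹² Δ τ`. -/
def discFun (L : Line q) (τ : ℍ) : ℂ :=
  (q : ℂ) ^ 12 * Δ₀ (lineTau M L τ) / UpperHalfPlane.denom (glLine M L) τ ^ 12 * (Δ₀ τ)⁻¹

variable {M} (h : q.Coprime M)

theorem glLine_mul (δ : SL(2, ℤ)) (L : Line q) :
    glLine M L * Matrix.SpecialLinearGroup.mapGL ℝ δ =
      Matrix.SpecialLinearGroup.mapGL ℝ (lineLift h δ L) * glLine M (lineMap h δ L) := by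
  refine Units.ext ?_
  have he := congrArg (fun Y : Matrix (Fin 2) (Fin 2) ℤ => Y.map (Int.castRingHom ℝ))
    (lineR_mul h δ L)
  rw [Matrix.map_mul, Matrix.map_mul] at he
  exact he

theorem smul_eq_mapGL (γ : SL(2, ℤ)) (τ : ℍ) :
    γ • τ = Matrix.SpecialLinearGroup.mapGL ℝ γ • τ := rfl

theorem lineTau_smul (δ : SL(2, ℤ)) (L : Line q) (τ : ℍ) :
    lineTau M L (δ • τ) = lineLift h δ L • lineTau M (lineMap h δ L) τ := by
  rw [lineTau, lineTau, smul_eq_mapGL, smul_eq_mapGL, ← mul_smul, ← mul_smul, glLine_mul h]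

theorem denom_glLine_smul (δ : SL(2, ℤ)) (L : Line q) (τ : ℍ) :
    UpperHalfPlane.denom (glLine M L) (δ • τ : ℍ) * UpperHalfPlane.denom δ τ =
      UpperHalfPlane.denom (lineLift h δ L) (lineTau M (lineMap h δ L) τ) *
        UpperHalfPlane.denom (glLine M (lineMap h δ L)) τ := by
  have h1 := UpperHalfPlane.denom_cocycle' (glLine M L) (Matrix.SpecialLinearGroup.mapGL ℝ δ) τ
  have h2 := UpperHalfPlane.denom_cocycle'
    (Matrix.SpecialLinearGroup.mapGL ℝ (lineLift h δ L)) (glLine M (lineMap h δ L)) τ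
  rw [glLine_mul h] at h1
  have hσ : ∀ g : GL (Fin 2) ℝ, 0 < g.det.val → ∀ z, UpperHalfPlane.σ g z = z := fun g hg z => by
    rw [UpperHalfPlane.σ, if_pos hg]; rfl
  rw [h2] at h1
  rw [hσ _ (det_glLine_pos M _), hσ _ (by simp)] at h1
  exact h1.symm

theorem discFun_smul (δ : SL(2, ℤ)) (L : Line q) (τ : ℍ) :
    discFun M L (δ • τ) = discFun M (lineMap h δ L) τ := by
  have hd : ∀ (γ : SL(2, ℤ)) (z : ℍ), UpperHalfPlane.denom γ z ≠ 0 := fun γ z =>
    UpperHalfPlane.denom_ne_zero _ z
  have he := denom_glLine_smul h δ L τ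
  have hΔ := ModularForm.discriminant_ne_zero τ
  have hd1 := UpperHalfPlane.denom_ne_zero (glLine M L) (δ • τ)
  have hd2 := UpperHalfPlane.denom_ne_zero (glLine M (lineMap h δ L)) τ
  have hd3 := hd δ τ
  rw [discFun, discFun, lineTau_smul h, Igusa.disc_smul, Igusa.disc_smul]
  field_simp
  have h12 := congrArg (· ^ 12) he
  simp only [mul_pow] at h12
  linear_combination (-((q : ℂ) ^ 12 * Δ₀ (lineTau M (lineMap h δ L) τ))) * h12

variable (M)

theorem coe_lineTau_some (b : ZMod q) (τ : ℍ) :
    (lineTau M (some b) τ : ℂ) = ((τ : ℂ) + (M : ℂ) * (b.val : ℕ)) / q := by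
  rw [lineTau, UpperHalfPlane.coe_smul_of_det_pos (det_glLine_pos M _)]
  simp [UpperHalfPlane.num, UpperHalfPlane.denom, coe_glLine, lineR, -ZMod.natCast_val]

theorem denom_glLine_some (b : ZMod q) (τ : ℍ) :
    UpperHalfPlane.denom (glLine M (some b)) τ = q := by
  simp [UpperHalfPlane.denom, coe_glLine, lineR]

theorem lineTau_none (τ : ℍ) :
    haveI : NeZero q := ⟨(Fact.out : q.Prime).ne_zero⟩
    lineTau M (none : Line q) τ = eta M q • ModularFF.scaleH q τ := by
  have : NeZero q := ⟨(Fact.out : q.Prime).ne_zero⟩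
  refine UpperHalfPlane.ext ?_
  rw [lineTau, UpperHalfPlane.coe_smul_of_det_pos (det_glLine_pos M _), ModularFF.coe_smul_SL,
    ModularFF.coe_scaleH]
  simp [UpperHalfPlane.num, UpperHalfPlane.denom, coe_glLine, lineR, Matrix.mul_apply,
    Fin.sum_univ_two]
  ring

theorem discFun_none (τ : ℍ) :
    haveI : NeZero q := ⟨(Fact.out : q.Prime).ne_zero⟩
    discFun M (none : Line q) τ = (q : ℂ) ^ 12 * Δ₀ (ModularFF.scaleH q τ) * (Δ₀ τ)⁻¹ := by
  have : NeZero q := ⟨(Fact.out : q.Prime).ne_zero⟩
  have hd : UpperHalfPlane.denom (glLine M (none : Line q)) τ =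
      UpperHalfPlane.denom (eta M q) (ModularFF.scaleH q τ) := by
    simp [UpperHalfPlane.denom, coe_glLine, lineR, Matrix.mul_apply, Fin.sum_univ_two]
    ring
  have hne := UpperHalfPlane.denom_ne_zero
    (Matrix.SpecialLinearGroup.mapGL ℝ (eta M q)) (ModularFF.scaleH q τ)
  rw [discFun, lineTau_none, Igusa.disc_smul, hd, mul_div_assoc, mul_div_cancel_left₀]
  exact pow_ne_zero _ hne

theorem discFun_some (b : ZMod q) (τ : ℍ) :
    discFun M (some b) τ = Δ₀ (lineTau M (some b) τ) * (Δ₀ τ)⁻¹ := by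
  have hq : (q : ℂ) ≠ 0 := Nat.cast_ne_zero.mpr (Fact.out : q.Prime).ne_zero
  rw [discFun, denom_glLine_some]
  field_simp

theorem mdiff_comp_lineTau {f : ℍ → ℂ} (hf : MDiff f) (L : Line q) :
    MDiff fun τ => f (lineTau M L τ) := by
  refine ModularFF.mdiff_comp_of_differentiableOn hf (lineTau M L)
    (fun z => UpperHalfPlane.num (glLine M L) z / UpperHalfPlane.denom (glLine M L) z) ?_
    fun τ => by rw [lineTau, UpperHalfPlane.coe_smul_of_det_pos (det_glLine_pos M L)]
  refine DifferentiableOn.div ?_ ?_ fun z hz =>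
    UpperHalfPlane.denom_ne_zero_of_im _ (ne_of_gt (show 0 < z.im from hz))
  · unfold UpperHalfPlane.num
    fun_prop
  · unfold UpperHalfPlane.denom
    fun_prop

theorem mdiff_discFun (L : Line q) : MDiff (discFun M L) := by
  have h1 : MDiff fun τ => Δ₀ (lineTau M L τ) := mdiff_comp_lineTau M Igusa.mdiff_disc L
  have h2 : MDiff (Δ₀)⁻¹ :=
    mdifferentiable_fun_inv Igusa.mdiff_disc ModularForm.discriminant_ne_zero
  have h3 : MDiff fun τ : ℍ => (UpperHalfPlane.denom (glLine M L) τ ^ 12)⁻¹ := by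
    rw [UpperHalfPlane.mdifferentiable_iff]
    refine DifferentiableOn.congr (f := fun z => (UpperHalfPlane.denom (glLine M L) z ^ 12)⁻¹) ?_ ?_
    · refine DifferentiableOn.inv ?_ fun z hz => pow_ne_zero _
        (UpperHalfPlane.denom_ne_zero_of_im _ (ne_of_gt (show 0 < z.im from hz)))
      unfold UpperHalfPlane.denom
      fun_prop
    · intro z hz
      simp [Function.comp, ofComplex_apply_of_im_pos hz]
  have e : discFun M L = (fun _ => (q : ℂ) ^ 12) * (fun τ => Δ₀ (lineTau M L τ)) *
      (fun τ : ℍ => (UpperHalfPlane.denom (glLine M L) τ ^ 12)⁻¹) * (Δ₀)⁻¹ := by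
    funext τ
    simp [discFun, div_eq_mul_inv]
  rw [e]
  exact ((mdifferentiable_const.mul h1).mul h3).mul h2

/-! ### The families -/

variable (X : Ctx q) [NeZero M]

/-- The value of a generator along a line at a cusp, as a function. -/
def genFun (δ : SL(2, ℤ)) (L : Line q) : Gen (CRing X M) → ℍ → ℂ
  | .base a => act δ ((equivC X M).symm a : ℍ → ℂ)
  | .pull a => fun τ =>
      ((equivC X M).symm a : ℍ → ℂ) (twistCusp h δ • lineTau M L τ)
  | .disc => discFun M L

/-- The cusp of the translate along `∞`. -/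
def twP (δ : SL(2, ℤ)) : SL(2, ℤ) := twistCusp h δ * eta M q

/-- The families as series. -/
def genSerAt (δ : SL(2, ℤ)) (L : Line q) : Gen (CRing X M) → Ser :=
  genSer X M (fun ε a => csAt X M ε a) (twP M h) (twistCusp h) δ L

variable {M}

omit [Fact q.Prime] in
theorem qParam_scale {N : ℕ} [NeZero q] (hN : 0 < N) (τ : ℍ) :
    𝕢 (N : ℝ) (ModularFF.scaleH q τ) = 1 * 𝕢 ((q * N : ℕ) : ℝ) τ ^ (q * q) := by
  rw [one_mul, Function.Periodic.qParam, Function.Periodic.qParam, ← Complex.exp_nat_mul]
  congr 1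
  rw [ModularFF.coe_scaleH]
  have hq : (q : ℂ) ≠ 0 := Nat.cast_ne_zero.mpr (NeZero.ne q)
  have hN' : (N : ℂ) ≠ 0 := Nat.cast_ne_zero.mpr hN.ne'
  push_cast
  field_simp

omit [Fact q.Prime] in
theorem tendsto_scale [NeZero q] : Tendsto (ModularFF.scaleH q) atImInfty atImInfty := by
  refine tendsto_comap_iff.mpr ?_
  have he : UpperHalfPlane.im ∘ ModularFF.scaleH q = fun τ : ℍ => (q : ℝ) * τ.im := by
    funext τ
    show ((q : ℂ) * (τ : ℂ)).im = _
    simp
  rw [he]
  exact Tendsto.const_mul_atTop (Nat.cast_pos.mpr (NeZero.pos q)) tendsto_comap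

variable (M) in
theorem qParam_lineTau (b : ZMod q) (τ : ℍ) :
    𝕢 (M : ℝ) (lineTau M (some b) τ) = zetaM q ^ b.val * 𝕢 ((q * M : ℕ) : ℝ) τ ^ 1 := by
  rw [pow_one, zetaM, Function.Periodic.qParam, Function.Periodic.qParam, ← Complex.exp_nat_mul,
    ← Complex.exp_add, coe_lineTau_some]
  congr 1
  have hq : (q : ℂ) ≠ 0 := Nat.cast_ne_zero.mpr (Fact.out : q.Prime).ne_zero
  have hM : (M : ℂ) ≠ 0 := Nat.cast_ne_zero.mpr (NeZero.ne M)
  push_cast
  field_simp
  ring

variable (M) in
omit [NeZero M] in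
theorem tendsto_lineTau (b : ZMod q) : Tendsto (lineTau M (some b)) atImInfty atImInfty := by
  refine tendsto_comap_iff.mpr ?_
  have he : UpperHalfPlane.im ∘ lineTau M (some b) = fun τ : ℍ => τ.im / q := by
    funext τ
    show (lineTau M (some b) τ : ℍ).im = _
    rw [← UpperHalfPlane.coe_im, coe_lineTau_some]
    simp [-ZMod.natCast_val]
  rw [he]
  exact Tendsto.atTop_div_const (Nat.cast_pos.mpr (Fact.out : q.Prime).pos) tendsto_comap

/-- Substitution of a line in an expansion. -/
theorem hasExp_sub {f : ℍ → ℂ} {s : Ser} (hf : HasExp M f (coeffMap (emb X) s)) :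
    haveI : NeZero q := X.neZero
    HasExp (q * M) (fun τ => f (ModularFF.scaleH q τ)) (coeffMap (emb X) (X.sub none s)) ∧
    ∀ b : ZMod q, HasExp (q * M) (fun τ => f (lineTau M (some b) τ))
      (coeffMap (emb X) (X.sub (some b) s)) := by
  have : NeZero q := X.neZero
  have hM : 0 < M := Nat.pos_of_ne_zero (NeZero.ne M)
  refine ⟨?_, fun b => ?_⟩
  · have := hf.subst (h' := q * M) (d := q * q) 1 tendsto_scale (qParam_scale hM)
    have htw : LevelM.twist 1 (coeffMap (emb X) s) = coeffMap (emb X) s := by ext n; simp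
    rw [htw, ← coeffMap_qExpand, ← qExpand_qExpand] at this
    exact this
  · have := hf.subst (h' := q * M) (d := 1) (zetaM q ^ b.val) (tendsto_lineTau M b)
      (qParam_lineTau M b)
    rw [qExpand_one_apply] at this
    have htw : LevelM.twist (zetaM q ^ b.val) (coeffMap (emb X) s) =
        coeffMap (emb X) (X.sub (some b) s) := by
      ext n
      show _ = (coeffMap (emb X) (Igusa.scale (X.zetaU b) s)).coeff n
      rw [twist_coeff, coeffMap_coeff, coeffMap_coeff, Igusa.coeff_scale, map_mul,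
        Units.val_zpow_eq_zpow_val, map_zpow₀, Ctx.zetaU, Units.val_mk0, map_pow,
            emb_zeta, mul_comm]
    rw [← htw]
    exact this

omit [Fact q.Prime] in
theorem hasExp_disc_M :
    HasExp M Δ₀ (coeffMap (emb X) (qExpand Qbar M (Igusa.discSeries Qbar))) ∧
      HasExp M (Δ₀)⁻¹ (coeffMap (emb X) (qExpand Qbar M (Igusa.discInvSeries Qbar))) := by
  rw [coeffMap_qExpand, coeffMap_qExpand, (Igusa.coeffMap_discSeries (emb X)).1,
    (Igusa.coeffMap_discSeries (emb X)).2]
  have h1 := (hasExp_of_hasLaurent (h := 1) (by simpa using Igusa.hasLaurent_disc)).qExpand M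
  have h2 := (hasExp_of_hasLaurent (h := 1) (by simpa using Igusa.hasLaurent_disc_inv)).qExpand M
  rw [mul_one] at h1 h2
  exact ⟨h1, h2⟩

theorem hasExp_genFun (δ : SL(2, ℤ)) (L : Line q) (v : Gen (CRing X M)) :
    HasExp (q * M) (genFun M h X δ L v) (coeffMap (emb X) (genSerAt M h X δ L v)) := by
  have : NeZero q := X.neZero
  cases v with
  | base a =>
    show HasExp _ _ (coeffMap (emb X) (qExpand Qbar q (csAt X M δ a)))
    rw [coeffMap_qExpand, csAt_apply]
    exact (hasExp_evAt δ _).qExpand q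
  | pull a =>
    cases L with
    | none =>
      show HasExp _ _ (coeffMap (emb X) (X.sub none (csAt X M (twP M h δ) a)))
      rw [csAt_apply]
      refine ((hasExp_sub X (hasExp_evAt (twP M h δ) ((equivC X M).symm a))).1).congr
        (Eventually.of_forall fun τ => ?_)
      show act (twP M h δ) _ (ModularFF.scaleH q τ) = _
      rw [act_apply, twP, mul_smul, ← lineTau_none]
      rfl
    | some b =>
      show HasExp _ _ (coeffMap (emb X) (X.sub (some b) (csAt X M (twistCusp h δ) a)))
      rw [csAt_apply]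
      exact (hasExp_sub X (hasExp_evAt (twistCusp h δ) ((equivC X M).symm a))).2 b
  | disc =>
    obtain ⟨h1, h2⟩ := hasExp_disc_M (M := M) X
    have h2' : HasExp (q * M) (Δ₀)⁻¹
        (coeffMap (emb X) (X.up (qExpand Qbar M (Igusa.discInvSeries Qbar)))) := by
      have := h2.qExpand q
      rwa [← coeffMap_qExpand] at this
    cases L with
    | none =>
      show HasExp _ _ (coeffMap (emb X) ((q : Ser) ^ 12 * _))
      rw [map_mul, map_pow, map_natCast, map_mul, ← map_natCast HahnSeries.C, ← map_pow]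
      refine ((hasExp_C _ _).mul ((hasExp_sub X h1).1.mul h2')).congr
        (Eventually.of_forall fun τ => ?_)
      show _ = discFun M none τ
      rw [discFun_none]
      simp [mul_assoc]
    | some b =>
      show HasExp _ _ (coeffMap (emb X) (X.sub (some b) _ * _))
      rw [map_mul]
      refine (((hasExp_sub X h1).2 b).mul h2').congr (Eventually.of_forall fun τ => ?_)
      show _ = discFun M (some b) τ
      rw [discFun_some]
      rfl

theorem mdiff_genFun (δ : SL(2, ℤ)) (L : Line q) (v : Gen (CRing X M)) :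
    MDiff (genFun M h X δ L v) := by
  cases v with
  | base a => exact mdifferentiable_act _ ((equivC X M).symm a).2.1
  | pull a =>
    exact mdiff_comp_lineTau M (mdifferentiable_act (twistCusp h δ) ((equivC X M).symm a).2.1) L
  | disc => exact mdiff_discFun M L

/-- The families at any cusp are those at `∞`, moved. -/
theorem genFun_move (δ : SL(2, ℤ)) (L : Line q) (v : Gen (CRing X M)) :
    genFun M h X δ (lineMap h δ L) v = act δ (genFun M h X 1 L v) := by
  funext τ
  cases v with
  | base a => simp only [genFun, act_apply, one_smul]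
  | pull a =>
    simp only [genFun, act_apply, twistCusp_one, one_smul]
    rw [lineTau_smul h]
    exact congrFun (act_eq_of_congr (redMat_twistCusp_eq h δ L)
      ((equivC X M).symm a).2.2.1) _
  | disc => exact (discFun_smul h δ L τ).symm

/-- Elements of `Γ(M)` only permute the lines. -/
theorem genFun_of_mem {δ : SL(2, ℤ)} (hδ : δ ∈ CongruenceSubgroup.Gamma M) (L : Line q)
    (v : Gen (CRing X M)) : genFun M h X δ L v = genFun M h X 1 L v := by
  have hr : redMat M (twistCusp h δ) = redMat M 1 := by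
    refine diagQ_cancel h ?_
    rw [redMat_twistCusp, (mem_Gamma_iff_redMat δ).mp hδ, redMat_one, mul_one, one_mul]
  funext τ
  cases v with
  | base a => simp only [genFun, ((equivC X M).symm a).2.2.1 δ hδ, act_one]
  | pull a =>
    simp only [genFun, twistCusp_one]
    exact congrFun (act_eq_of_congr hr ((equivC X M).symm a).2.2.1) _
  | disc => rfl

/-! ### Polynomials in the families -/

omit [Fact q.Prime] in
/-- The constants. -/
def constHom : X.O →+* (ℍ → ℂ) :=
  (Pi.constRingHom ℍ ℂ).comp ((embK X).comp (Subring.subtype _))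

omit [Fact q.Prime] [NeZero M] in
theorem hasExp_eval {ι : Type*} {N : ℕ} {F : ι → ℍ → ℂ} {S : ι → Ser}
    (hF : ∀ i, HasExp N (F i) (coeffMap (emb X) (S i))) (P : MvPolynomial ι X.O) :
    HasExp N (MvPolynomial.eval₂ (constHom X) F P)
      (coeffMap (emb X) (MvPolynomial.aeval S P)) := by
  induction P using MvPolynomial.induction_on with
  | C c =>
    rw [MvPolynomial.eval₂_C, MvPolynomial.aeval_C, X.algebraMap_eq_C, HahnSeries.C_apply,
      coeffMap_single, ← HahnSeries.C_apply]
    exact hasExp_C N _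
  | add P Q hP hQ =>
    rw [MvPolynomial.eval₂_add, map_add, map_add]
    exact hP.add hQ
  | mul_X P i hP =>
    rw [MvPolynomial.eval₂_mul, MvPolynomial.eval₂_X, map_mul, MvPolynomial.aeval_X, map_mul]
    exact hP.mul (hF i)

omit [Fact q.Prime] [NeZero M] in
theorem mdiff_eval {ι : Type*} {F : ι → ℍ → ℂ} (hF : ∀ i, MDiff (F i))
    (P : MvPolynomial ι X.O) : MDiff (MvPolynomial.eval₂ (constHom X) F P) := by
  induction P using MvPolynomial.induction_on with
  | C c => rw [MvPolynomial.eval₂_C]; exact mdifferentiable_const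
  | add P Q hP hQ => rw [MvPolynomial.eval₂_add]; exact hP.add hQ
  | mul_X P i hP => rw [MvPolynomial.eval₂_mul, MvPolynomial.eval₂_X]; exact hP.mul (hF i)

omit [Fact q.Prime] [NeZero M] in
theorem eval_eq_zero_iff {ι : Type*} {N : ℕ} (hN : 0 < N) {F : ι → ℍ → ℂ} {S : ι → Ser}
    (hF : ∀ i, HasExp N (F i) (coeffMap (emb X) (S i))) (hFd : ∀ i, MDiff (F i))
    (P : MvPolynomial ι X.O) :
    MvPolynomial.eval₂ (constHom X) F P = 0 ↔ MvPolynomial.aeval S P = 0 := by
  have he := hasExp_eval X hF P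
  constructor
  · intro h0
    rw [h0] at he
    exact coeffMap_emb_injective ((he.unique hN (hasExp_zero N)).trans (map_zero _).symm)
  · intro h0
    rw [h0, map_zero] at he
    refine eq_zero_of_eventuallyEq_zero (mdiff_eval X hFd P) ?_
    filter_upwards [he] with τ hτ
    exact hτ.unique (by simp [hasSum_zero])

omit [Fact q.Prime] [NeZero M] in
theorem act_eval {ι : Type*} (δ : SL(2, ℤ)) (F : ι → ℍ → ℂ) (P : MvPolynomial ι X.O) :
    act δ (MvPolynomial.eval₂ (constHom X) F P) =
      MvPolynomial.eval₂ (constHom X) (fun i => act δ (F i)) P := by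
  induction P using MvPolynomial.induction_on with
  | C c => simp only [MvPolynomial.eval₂_C]; rfl
  | add P Q hP hQ => simp only [MvPolynomial.eval₂_add, map_add, hP, hQ]
  | mul_X P i hP => simp only [MvPolynomial.eval₂_mul, MvPolynomial.eval₂_X, map_mul, hP]

omit [Fact q.Prime] in
theorem qM_pos [Fact q.Prime] : 0 < q * M :=
  Nat.mul_pos (Fact.out : q.Prime).pos (Nat.pos_of_ne_zero (NeZero.ne M))

theorem transfer (P : MvPolynomial (Bool × Gen (CRing X M)) X.O) (δ : SL(2, ℤ)) (L L' : Line q)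
    (hLL : L ≠ L') :
    MvPolynomial.aeval (fun v : Bool × Gen (CRing X M) =>
        genSerAt M h X δ (if v.1 then L else L') v.2) P = 0 ↔
      MvPolynomial.aeval (fun v : Bool × Gen (CRing X M) =>
        genSerAt M h X 1 (if v.1 then none else some 0) v.2) P = 0 := by
  rw [← eval_eq_zero_iff X qM_pos (fun v => hasExp_genFun h X _ _ _)
      (fun v => mdiff_genFun h X _ _ _),
    ← eval_eq_zero_iff X qM_pos (fun v => hasExp_genFun h X _ _ _)
        (fun v => mdiff_genFun h X _ _ _)]
  obtain ⟨L₁, rfl⟩ := (lineMap_bijective h δ).2 L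
  obtain ⟨L₂, rfl⟩ := (lineMap_bijective h δ).2 L'
  obtain ⟨ε, hε, hε1, hε2⟩ := exists_pair_move h
    (show L₁ ≠ L₂ from fun e => hLL (by rw [e]))
  have hmove : ∀ (δ : SL(2, ℤ)) (L₁ L₂ : Line q),
      MvPolynomial.eval₂ (constHom X) (fun v : Bool × Gen (CRing X M) =>
          genFun M h X δ (if v.1 then lineMap h δ L₁ else lineMap h δ L₂) v.2) P =
        act δ (MvPolynomial.eval₂ (constHom X) (fun v : Bool × Gen (CRing X M) =>
          genFun M h X 1 (if v.1 then L₁ else L₂) v.2) P) := by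
    intro δ L₁ L₂
    rw [act_eval]
    congr 1
    funext v
    rw [← genFun_move, apply_ite (lineMap h δ)]
  have hzero : ∀ (δ : SL(2, ℤ)) (f : ℍ → ℂ), act δ f = 0 ↔ f = 0 := fun δ f =>
    ⟨fun h0 => by rw [← act_inv δ f, h0, map_zero], fun h0 => by rw [h0, map_zero]⟩
  have h2 := hmove ε none (some 0)
  rw [hε1, hε2] at h2
  simp only [genFun_of_mem h X hε] at h2
  rw [hmove, hzero, h2, hzero]

/-! ### Symmetric functions -/

omit [Fact q.Prime] in
theorem exists_sigma_line [Fact q.Prime] (σ : Qbar ≃ₐ[X.K] Qbar) :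
    ∃ (a : (ZMod q)ˣ) (e : Equiv.Perm (Line q)), e = Equiv.optionCongr (Units.mulLeft a) ∧
      (∀ (L : Line q) (s : Ser), (∀ n, σ (s.coeff n) = s.coeff n) →
        coeffMap (σ : Qbar →+* Qbar) (X.sub L s) = X.sub (e L) s) ∧
      (∀ L, coeffMap (σ : Qbar →+* Qbar) (discFam X M L) = discFam X M (e L)) ∧
      ∀ {C : Type} (f g : C → C) (δ : C) (L : Line q),
        lineCusp f g δ (e L) = lineCusp f g δ L := by
  have := X.neZero
  obtain ⟨a, -, ha⟩ := X.hζ.eq_pow_of_pow_eq_one
    (show σ X.ζ ^ q = 1 by rw [← map_pow, X.hζ.pow_eq_one, map_one])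
  have ha0 : (a : ZMod q) ≠ 0 := by
    intro h0
    rw [ZMod.natCast_eq_zero_iff] at h0
    obtain ⟨c, rfl⟩ := h0
    rw [pow_mul, X.hζ.pow_eq_one, one_pow] at ha
    exact X.hζ.ne_one X.prime.one_lt (σ.injective (ha.symm.trans (map_one σ).symm))
  let e : Equiv.Perm (Line q) := Equiv.optionCongr (Units.mulLeft (Units.mk0 (a : ZMod q) ha0))
  have hsub : ∀ (L : Line q) (s : Ser), (∀ n, σ (s.coeff n) = s.coeff n) →
      coeffMap (σ : Qbar →+* Qbar) (X.sub L s) = X.sub (e L) s := by
    intro L s hs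
    have hs' : coeffMap (σ : Qbar →+* Qbar) s = s := HahnSeries.ext (funext hs)
    cases L with
    | none =>
      show coeffMap _ (qExpand Qbar q (qExpand Qbar q s)) = qExpand Qbar q (qExpand Qbar q s)
      rw [coeffMap_qExpand, coeffMap_qExpand, hs']
    | some b =>
      show coeffMap _ (Igusa.scale (X.zetaU b) s) = Igusa.scale (X.zetaU ((a : ZMod q) * b)) s
      rw [Igusa.coeffMap_scale, hs']
      congr 2
      refine Units.ext ?_
      show σ (X.ζ ^ b.val) = X.ζ ^ ((a : ZMod q) * b).val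
      rw [map_pow, ← ha, ← pow_mul]
      refine pow_eq_pow_mod _ X.hζ.pow_eq_one |>.trans ?_
      congr 1
      rw [ZMod.val_mul, ZMod.val_natCast, Nat.mod_mul_mod]
  refine ⟨_, e, rfl, hsub, fun L => ?_, fun f g δ L => by cases L <;> rfl⟩
  have hint : ∀ (e : ℕ) [NeZero e] (u : Ser), coeffMap (σ : Qbar →+* Qbar) u = u →
      ∀ n, σ ((qExpand Qbar e u).coeff n) = (qExpand Qbar e u).coeff n := by
    intro e _ u hu n
    have := congrArg (fun z : Ser => z.coeff n)
      ((coeffMap_qExpand (σ : Qbar →+* Qbar) e u).trans (congrArg _ hu))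
    exact this
  have h1 := hint M _ (Igusa.coeffMap_discSeries (σ : Qbar →+* Qbar)).1
  have h2 : coeffMap (σ : Qbar →+* Qbar) (X.up (qExpand Qbar M (Igusa.discInvSeries Qbar))) =
      X.up (qExpand Qbar M (Igusa.discInvSeries Qbar)) := by
    show coeffMap _ (qExpand Qbar q _) = _
    rw [coeffMap_qExpand, coeffMap_qExpand, (Igusa.coeffMap_discSeries _).2]
    rfl
  cases L with
  | none =>
    show coeffMap _ ((q : Ser) ^ 12 * _) = _
    rw [map_mul, map_mul, map_pow, map_natCast, hsub none _ h1, h2]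
    rfl
  | some b =>
    show coeffMap _ (X.sub (some b) _ * _) = _
    rw [map_mul, hsub (some b) _ h1, h2]
    rfl

omit [Fact q.Prime] [NeZero M] in
theorem sigma_fix (σ : Qbar ≃ₐ[X.K] Qbar) {s : Ser} (hs : X.CoeffInO s) (n : ℤ) :
    σ (s.coeff n) = s.coeff n := by
  obtain ⟨c, hc⟩ := hs n
  rw [← hc, AlgEquiv.commutes]

theorem genSerAt_mem_goodSer (δ : SL(2, ℤ)) (L : Line q) (v : Gen (CRing X M)) :
    genSerAt M h X δ L v ∈ X.goodSer := by
  cases v with
  | base a =>
    show X.up (csAt X M δ a) ∈ X.goodSer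
    rw [csAt_apply]
    exact X.up_mem_goodSer (X.goodSer_of_coeffInO (coeffInO_evAt _ _))
  | pull a =>
    show X.sub L (csAt X M (lineCusp (twP M h) (twistCusp h) δ L) a) ∈ X.goodSer
    rw [csAt_apply]
    exact X.sub_mem_goodSer L (X.goodSer_of_coeffInO (coeffInO_evAt _ _))
  | disc => exact X.discFam_mem_goodSer M L

omit [Fact q.Prime] [NeZero M] in
theorem aeval_mem_goodSer {ι : Type*} {S : ι → Ser} (hS : ∀ i, S i ∈ X.goodSer)
    (P : MvPolynomial ι X.O) : MvPolynomial.aeval S P ∈ X.goodSer := by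
  induction P using MvPolynomial.induction_on with
  | C c => rw [MvPolynomial.aeval_C]; exact X.algebraMap_mem_goodSer c
  | add P Q hP hQ => rw [map_add]; exact add_mem hP hQ
  | mul_X P i hP => rw [map_mul, MvPolynomial.aeval_X]; exact mul_mem hP (hS i)

omit [Fact q.Prime] [NeZero M] in
theorem coeffMap_aeval {ι : Type*} (σ : Qbar ≃ₐ[X.K] Qbar) (S : ι → Ser)
    (P : MvPolynomial ι X.O) :
    coeffMap (σ : Qbar →+* Qbar) (MvPolynomial.aeval S P) =
      MvPolynomial.aeval (fun i => coeffMap (σ : Qbar →+* Qbar) (S i)) P := by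
  induction P using MvPolynomial.induction_on with
  | C c =>
    rw [MvPolynomial.aeval_C, MvPolynomial.aeval_C, X.algebraMap_eq_C, HahnSeries.C_apply,
      coeffMap_single]
    congr 1
    exact σ.commutes _
  | add P Q hP hQ => rw [map_add, map_add, map_add, hP, hQ]
  | mul_X P i hP =>
    rw [map_mul, map_mul, map_mul, MvPolynomial.aeval_X, MvPolynomial.aeval_X, hP]

/-- Functions of the families fixed by the motions and the scalings of the lines are families of
level `M`. -/
theorem exists_symm_of_rename (P : MvPolynomial (Line q × Gen (CRing X M)) X.O)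
    (hmv : ∀ δ, MvPolynomial.rename (Prod.map (linePerm h δ : Equiv.Perm (Line q)) id) P = P)
    (hsc : ∀ a : (ZMod q)ˣ,
      MvPolynomial.rename (Prod.map (Equiv.optionCongr (Units.mulLeft a) : Line q ≃ Line q) id) P =
        P) :
    ∃ f : LRing X M, (f : ℍ → ℂ) =
        MvPolynomial.eval₂ (constHom X) (fun v => genFun M h X 1 v.1 v.2) P ∧
      ∀ δ, MvPolynomial.aeval (fun v : Line q × Gen (CRing X M) => genSerAt M h X δ v.1 v.2) P =
        X.up (evAt X M δ f) := by
  have := X.neZero
  set F : SL(2, ℤ) → ℍ → ℂ := fun δ =>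
    MvPolynomial.eval₂ (constHom X) (fun v => genFun M h X δ v.1 v.2) P with hFdef
  set S : SL(2, ℤ) → Ser := fun δ =>
    MvPolynomial.aeval (fun v : Line q × Gen (CRing X M) => genSerAt M h X δ v.1 v.2) P with hSdef
  have hmove : ∀ δ, act δ (F 1) = F δ := fun δ => by
    simp only [hFdef]
    rw [act_eval]
    conv_rhs => rw [← hmv δ, MvPolynomial.eval₂_rename]
    congr 1
    funext v
    exact (genFun_move h X δ v.1 v.2).symm
  have hinv : ∀ g ∈ CongruenceSubgroup.Gamma M, act g (F 1) = F 1 := fun g hg => by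
    rw [hmove]
    simp only [hFdef, genFun_of_mem h X hg]
  have hexp : ∀ δ, HasExp (q * M) (act δ (F 1)) (coeffMap (emb X) (S δ)) := fun δ => by
    rw [hmove]
    simp only [hFdef, hSdef]
    exact hasExp_eval X (F := fun v : Line q × Gen (CRing X M) => genFun M h X δ v.1 v.2)
      (S := fun v : Line q × Gen (CRing X M) => genSerAt M h X δ v.1 v.2)
      (fun v => hasExp_genFun h X δ v.1 v.2) P
  -- the coefficients lie in `O`
  have hcoeff : ∀ δ n, ∃ c : X.O, algebraMap X.K Qbar (c : X.K) = (S δ).coeff n := by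
    intro δ n
    have hmem : S δ ∈ X.goodSer := by
      simp only [hSdef]
      exact aeval_mem_goodSer X (S := fun v : Line q × Gen (CRing X M) => genSerAt M h X δ v.1 v.2)
        (fun v => genSerAt_mem_goodSer h X δ v.1 v.2) P
    obtain ⟨c, hc⟩ := X.fixedData.fixed ((S δ).coeff n) fun σ _ => by
      obtain ⟨a, e, hae, he, hed, hec⟩ := exists_sigma_line (M := M) X σ
      have hgen : ∀ L v, coeffMap (σ : Qbar →+* Qbar) (genSerAt M h X δ L v) =
          genSerAt M h X δ (e L) v := by
        intro L v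
        cases v with
        | base a =>
          show coeffMap _ (qExpand Qbar q (csAt X M δ a)) = qExpand Qbar q (csAt X M δ a)
          rw [coeffMap_qExpand, csAt_apply]
          congr 1
          exact HahnSeries.ext (funext fun m => sigma_fix X σ (coeffInO_evAt _ _) m)
        | pull a =>
          show coeffMap _ (X.sub L (csAt X M (lineCusp (twP M h) (twistCusp h) δ L) a)) =
            X.sub (e L) (csAt X M (lineCusp (twP M h) (twistCusp h) δ (e L)) a)
          rw [hec, csAt_apply]
          exact he L _ fun m => sigma_fix X σ (coeffInO_evAt _ _) m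
        | disc => exact hed L
      have : coeffMap (σ : Qbar →+* Qbar) (S δ) = S δ := by
        simp only [hSdef]
        conv_rhs => rw [← hsc a, ← hae, MvPolynomial.aeval_rename]
        rw [coeffMap_aeval]
        simp only [hgen]
        rfl
      exact congrArg (fun z : Ser => z.coeff n) this
    have hA : algebraMap X.K Qbar c ∈ X.A := by rw [hc]; exact ((X.mem_goodSer).mp hmem n).1
    exact ⟨⟨c, hA⟩, hc⟩
  have hmem : F 1 ∈ levelSubring (valK X) (embK X) M := by
    have hd := mdiff_eval X (F := fun v : Line q × Gen (CRing X M) => genFun M h X 1 v.1 v.2)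
      (fun v => mdiff_genFun h X 1 v.1 v.2) P
    refine ⟨hd, hinv, fun δ => ?_⟩
    have hint : IntExp (q * M) (OC X) (act δ (F 1)) :=
      intExp_iff.mpr ⟨_, hexp δ, fun n => by
        obtain ⟨c, hc⟩ := hcoeff δ n
        rw [coeffMap_coeff, ← hc]
        exact embK_mem X c⟩
    refine hint.descend (Nat.pos_of_ne_zero (NeZero.ne M)) ?_
    rw [← act_mul, show δ * ModularGroup.T ^ (M : ℤ) = δ * ModularGroup.T ^ (M : ℤ) * δ⁻¹ * δ by
      group, act_mul,
          hinv _ ((CongruenceSubgroup.Gamma_normal M).conj_mem _ (T_zpow_mem_Gamma M) δ)]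
  refine ⟨⟨F 1, hmem⟩, rfl, fun δ => coeffMap_emb_injective ((hexp δ).unique qM_pos ?_)⟩
  show HasExp _ _ (coeffMap (emb X) (qExpand Qbar q _))
  rw [coeffMap_qExpand]
  exact (hasExp_evAt δ _).qExpand q

/-- Symmetric functions of the families are families of level `M`. -/
theorem exists_symm (P : MvPolynomial (Line q × Gen (CRing X M)) X.O)
    (hP : ∀ π : Equiv.Perm (Line q), MvPolynomial.rename (Prod.map π id) P = P) :
    ∃ f : LRing X M, (f : ℍ → ℂ) =
        MvPolynomial.eval₂ (constHom X) (fun v => genFun M h X 1 v.1 v.2) P ∧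
      ∀ δ, MvPolynomial.aeval (fun v : Line q × Gen (CRing X M) => genSerAt M h X δ v.1 v.2) P =
        X.up (evAt X M δ f) :=
  exists_symm_of_rename h X P (fun _ => hP _) fun _ => hP _

end FLTAgent.CarayolSquare.Provider

end
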